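/-
helper86 — S58-PREP row 371 (FT-COMP), part (a): substitution of rational functions and
multiplicativity of the height under composition.

* `finrank_map_mul` : for a field homomorphism `φ : F →ₐ[K] F'` and an intermediate field `A`
  of `F / K`: `[F' : φ(A)] = [F : A] * [F' : φ(F)]`;
* `subst r hr : RatFunc K →ₐ[K] RatFunc K`, `X ↦ r` (`r` transcendental over `K`, i.e. not
  constant);
* `ht_subst : ht (subst r hr s) = ht s * ht r`.
-/
import Mathlib
import Fermat.Agent.Lib.ECBiquad.Height

set_option autoImplicit false
set_option linter.style.haveILetI false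

namespace Fermat.Agent.S58.FT.Comp

open IntermediateField Fermat.Agent.Lib.ECBiquad

noncomputable section

section Abstract

variable {K F F' : Type*} [Field K] [Field F] [Field F'] [Algebra K F] [Algebra K F']

/-- Degrees multiply along a field embedding: `[F' : φ(A)] = [F : A] * [F' : φ(F)]`. -/
theorem finrank_map_mul (φ : F →ₐ[K] F') (A : IntermediateField K F) :
    Module.finrank (A.map φ) F' = Module.finrank A F * Module.finrank φ.fieldRange F' := by
  letI algFF' : Algebra F F' := φ.toRingHom.toAlgebra
  letI algAF' : Algebra A F' := (φ.toRingHom.comp (algebraMap A F)).toAlgebra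
  haveI : IsScalarTower A F F' := IsScalarTower.of_algebraMap_eq (fun _ => rfl)
  have h1 : Module.finrank A F * Module.finrank F F' = Module.finrank A F' :=
    Module.finrank_mul_finrank A F F'
  have h2 : Module.finrank F F' = Module.finrank φ.fieldRange F' :=
    Algebra.finrank_eq_of_equiv_equiv φ.equivFieldRange.toRingEquiv (RingEquiv.refl F')
      (by ext x; rfl)
  have h3 : Module.finrank A F' = Module.finrank (A.map φ) F' :=
    Algebra.finrank_eq_of_equiv_equiv (A.equivMap φ).toRingEquiv (RingEquiv.refl F')
      (by ext x; rfl)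
  rw [← h3, ← h1, h2]

end Abstract

variable {K : Type*} [Field K]

/-- The height is the degree of `K(X)` over `K(f)`. -/
theorem ht_eq_finrank (f : RatFunc K) : ht f = Module.finrank K⟮f⟯ (RatFunc K) :=
  (RatFunc.finrank_eq_max_natDegree f).symm

/-- Substitution `X ↦ r` in rational functions, for a transcendental (= non-constant) `r`. -/
def subst (r : RatFunc K) (hr : Transcendental K r) : RatFunc K →ₐ[K] RatFunc K :=
  (K⟮r⟯.val).comp (RatFunc.algEquivOfTranscendental r hr).toAlgHom

theorem subst_X (r : RatFunc K) (hr : Transcendental K r) : subst r hr RatFunc.X = r := by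
  simp [subst]

theorem subst_apply (r : RatFunc K) (hr : Transcendental K r) (u : RatFunc K) :
    subst r hr u = Polynomial.aeval r u.num / Polynomial.aeval r u.denom := by
  simp [subst, RatFunc.algEquivOfTranscendental_apply]

theorem subst_algebraMap (r : RatFunc K) (hr : Transcendental K r) (g : Polynomial K) :
    subst r hr (algebraMap (Polynomial K) (RatFunc K) g) = Polynomial.aeval r g := by
  simp [subst, RatFunc.algEquivOfTranscendental_algebraMap]

theorem subst_C (r : RatFunc K) (hr : Transcendental K r) (c : K) :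
    subst r hr (RatFunc.C c) = RatFunc.C c := by
  have := (subst r hr).commutes c
  simpa [RatFunc.algebraMap_eq_C] using this

theorem subst_injective (r : RatFunc K) (hr : Transcendental K r) :
    Function.Injective (subst r hr) := (subst r hr).injective

theorem fieldRange_subst (r : RatFunc K) (hr : Transcendental K r) :
    (subst r hr).fieldRange = K⟮r⟯ := by
  ext x
  simp only [AlgHom.mem_fieldRange, subst, AlgHom.coe_comp, Function.comp_apply]
  constructor
  · rintro ⟨y, rfl⟩
    exact ((RatFunc.algEquivOfTranscendental r hr) y).2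
  · intro hx
    exact ⟨(RatFunc.algEquivOfTranscendental r hr).symm ⟨x, hx⟩, by simp⟩

/-- **Heights are multiplicative under composition**: `ht (s ∘ r) = ht s * ht r`. -/
theorem ht_subst (r : RatFunc K) (hr : Transcendental K r) (s : RatFunc K) :
    ht (subst r hr s) = ht s * ht r := by
  rw [ht_eq_finrank, ht_eq_finrank s, ht_eq_finrank r]
  have h := finrank_map_mul (subst r hr) K⟮s⟯
  rw [IntermediateField.adjoin_map, Set.image_singleton, fieldRange_subst] at h
  exact h

/-- The version with the non-constancy hypothesis. -/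
theorem ht_subst_of_ne_C (r : RatFunc K) (hr : ¬ ∃ c, r = RatFunc.C c) (s : RatFunc K) :
    ht (subst r (RatFunc.transcendental_of_ne_C r hr) s) = ht s * ht r :=
  ht_subst r _ s

/-- A rational function of height `0` is constant. -/
theorem exists_eq_C_of_ht_eq_zero {f : RatFunc K} (h : ht f = 0) : ∃ c, f = RatFunc.C c := by
  by_contra hf
  have hfin : Module.finrank K⟮f⟯ (RatFunc K) = 0 := by rw [← ht_eq_finrank, h]
  have halg : Algebra.IsAlgebraic K⟮f⟯ (RatFunc K) := RatFunc.isAlgebraic_adjoin_simple_X' f hf
  have hX : IsIntegral K⟮f⟯ (RatFunc.X : RatFunc K) := (halg.isAlgebraic _).isIntegral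
  have hfd : FiniteDimensional K⟮f⟯ (K⟮f⟯⟮(RatFunc.X : RatFunc K)⟯) :=
    IntermediateField.adjoin.finiteDimensional hX
  have htop : K⟮f⟯⟮(RatFunc.X : RatFunc K)⟯ = ⊤ := RatFunc.IntermediateField.adjoin_X K⟮f⟯
  have hfd' : FiniteDimensional K⟮f⟯ (RatFunc K) := by
    have e : (⊤ : IntermediateField K⟮f⟯ (RatFunc K)) ≃ₐ[K⟮f⟯] RatFunc K :=
      IntermediateField.topEquiv
    rw [htop] at hfd
    exact Module.Finite.equiv e.toLinearEquiv
  have hpos : 0 < Module.finrank K⟮f⟯ (RatFunc K) := Module.finrank_pos
  omega

theorem ht_C (c : K) : ht (RatFunc.C c) = 0 := by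
  simp [ht]

/-- `ht f = 0` iff `f` is constant. -/
theorem ht_eq_zero_iff {f : RatFunc K} : ht f = 0 ↔ ∃ c, f = RatFunc.C c :=
  ⟨exists_eq_C_of_ht_eq_zero, by rintro ⟨c, rfl⟩; exact ht_C c⟩

end

end Fermat.Agent.S58.FT.Comp
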