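/-
helper86 — S58-PREP row 371 (FT-COMP), part (b), curve-level core (no reference to FT-GEN):

for a Weierstrass curve `W` over a field `k` with function field `F = k(W)`:
* `xF W`, `yF W : F` and the generic point `genPt W hΔ = (xF, yF) ∈ E(F)`;
* `evalCR W a b h : k[W] →ₐ[k] L` for a point `(a, b)` of `W` over `L`, injective if `a` is
  transcendental; `sigmaPt W a b h ha : F →ₐ[k] L` its extension, `(xF, yF) ↦ (a, b)`;
* `ratIncl W : RatFunc k →ₐ[k] F`, `X ↦ xF`, and
  `sigmaPt (ratIncl u) = ratIncl' (subst r u)` when `a = ratIncl' r`;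
* `Point.map (sigmaPt …) (genPt) = (a, b)`.
-/
import Mathlib
import Fermat.Agent.S58.FT.Subst
import Fermat.Agent.S58.FTInterfaces

set_option autoImplicit false
set_option linter.unusedSectionVars false

namespace Fermat.Agent.S58.FT.Comp

open Polynomial WeierstrassCurve
open scoped Polynomial.Bivariate WeierstrassCurve.Affine

noncomputable section

variable {k : Type*} [Field k] (W : WeierstrassCurve k)

/-- The function `x` of the function field. -/
def xF : W.toAffine.FunctionField :=
  algebraMap W.toAffine.CoordinateRing W.toAffine.FunctionField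
    (Affine.CoordinateRing.mk W.toAffine (C X))

/-- The function `y` of the function field. -/
def yF : W.toAffine.FunctionField :=
  algebraMap W.toAffine.CoordinateRing W.toAffine.FunctionField
    (Affine.CoordinateRing.mk W.toAffine Y)

section Eval

variable {L : Type*} [Field L] [Algebra k L]

theorem eval₂_polynomial_eq (a b : L) :
    W.toAffine.polynomial.eval₂ ((aeval a : k[X] →ₐ[k] L) : k[X] →+* L) b =
      (W.toAffine⁄L).polynomial.evalEval a b := by
  have h := eval₂_eval₂RingHom_apply (algebraMap k L) a b W.toAffine.polynomial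
  rw [← Affine.map_polynomial] at h
  exact h

/-- Evaluation of the coordinate ring at a point `(a, b)` of `W` over `L`. -/
def evalCR (a b : L) (h : (W.toAffine⁄L).Equation a b) : W.toAffine.CoordinateRing →ₐ[k] L :=
  AdjoinRoot.liftAlgHom W.toAffine.polynomial (aeval a) b
    ((eval₂_polynomial_eq W a b).trans h)

@[simp]
theorem evalCR_of (a b : L) (h : (W.toAffine⁄L).Equation a b) (p : k[X]) :
    evalCR W a b h (AdjoinRoot.of W.toAffine.polynomial p) = aeval a p := by
  simp [evalCR]

@[simp]
theorem evalCR_root (a b : L) (h : (W.toAffine⁄L).Equation a b) :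
    evalCR W a b h (AdjoinRoot.root W.toAffine.polynomial) = b := by
  simp [evalCR]

theorem evalCR_mk_C (a b : L) (h : (W.toAffine⁄L).Equation a b) (p : k[X]) :
    evalCR W a b h (Affine.CoordinateRing.mk W.toAffine (C p)) = aeval a p :=
  evalCR_of W a b h p

theorem evalCR_mk_Y (a b : L) (h : (W.toAffine⁄L).Equation a b) :
    evalCR W a b h (Affine.CoordinateRing.mk W.toAffine Y) = b :=
  evalCR_root W a b h

theorem evalCR_injective (a b : L) (h : (W.toAffine⁄L).Equation a b) (ha : Transcendental k a) :
    Function.Injective (evalCR W a b h) := by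
  rw [injective_iff_map_eq_zero]
  intro z hz
  have hint : Algebra.IsIntegral k[X] W.toAffine.CoordinateRing :=
    have : Module.Finite k[X] W.toAffine.CoordinateRing :=
      Module.Finite.of_basis (Affine.CoordinateRing.basis W.toAffine)
    inferInstance
  have hker : (RingHom.ker (evalCR W a b h : W.toAffine.CoordinateRing →+* L)).comap
      (algebraMap k[X] W.toAffine.CoordinateRing) = ⊥ := by
    rw [eq_bot_iff]
    intro p hp
    rw [Ideal.mem_comap, RingHom.mem_ker] at hp
    have hp' : aeval a p = 0 := by
      have e : algebraMap k[X] W.toAffine.CoordinateRing p =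
          Affine.CoordinateRing.mk W.toAffine (C p) := rfl
      rw [e] at hp
      rw [← evalCR_mk_C W a b h p]
      exact hp
    have : p = 0 := by
      by_contra hne
      exact ha ⟨p, hne, hp'⟩
    simpa using this
  have := Ideal.eq_bot_of_comap_eq_bot hker
  have hz' : z ∈ RingHom.ker (evalCR W a b h : W.toAffine.CoordinateRing →+* L) := hz
  rw [this] at hz'
  simpa using hz'

/-- The field homomorphism `k(W) → L`, `(x, y) ↦ (a, b)`, for a point `(a, b)` of `W` over `L`
with `a` transcendental over `k`. -/
def sigmaPt (a b : L) (h : (W.toAffine⁄L).Equation a b) (ha : Transcendental k a) :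
    W.toAffine.FunctionField →ₐ[k] L :=
  IsFractionRing.liftAlgHom (g := evalCR W a b h) (evalCR_injective W a b h ha)

@[simp]
theorem sigmaPt_xF (a b : L) (h : (W.toAffine⁄L).Equation a b) (ha : Transcendental k a) :
    sigmaPt W a b h ha (xF W) = a := by
  simp [sigmaPt, xF, IsFractionRing.liftAlgHom_apply, IsFractionRing.lift_algebraMap]

@[simp]
theorem sigmaPt_yF (a b : L) (h : (W.toAffine⁄L).Equation a b) (ha : Transcendental k a) :
    sigmaPt W a b h ha (yF W) = b := by
  simp [sigmaPt, yF, IsFractionRing.liftAlgHom_apply, IsFractionRing.lift_algebraMap]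

end Eval

/-! ### The generic point -/

/-- `k[W] → k(W)` composed with `k[X][Y] → k[W]` is evaluation at `(xF, yF)`. -/
theorem algebraMap_mk_eq (p : k[X][Y]) :
    algebraMap W.toAffine.CoordinateRing W.toAffine.FunctionField
        (Affine.CoordinateRing.mk W.toAffine p) =
      p.eval₂ ((aeval (xF W) : k[X] →ₐ[k] W.toAffine.FunctionField) : k[X] →+* _) (yF W) := by
  have key : ((algebraMap W.toAffine.CoordinateRing W.toAffine.FunctionField).comp
      (Affine.CoordinateRing.mk W.toAffine)) =
      eval₂RingHom ((aeval (xF W) : k[X] →ₐ[k] W.toAffine.FunctionField) : k[X] →+* _)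
        (yF W) := by
    refine Polynomial.ringHom_ext (fun q => ?_) ?_
    · have key2 : (((algebraMap W.toAffine.CoordinateRing W.toAffine.FunctionField).comp
          (Affine.CoordinateRing.mk W.toAffine)).comp (C : k[X] →+* k[X][Y])) =
          ((aeval (xF W) : k[X] →ₐ[k] W.toAffine.FunctionField) : k[X] →+* _) := by
        refine Polynomial.ringHom_ext (fun c => ?_) ?_
        · simp only [RingHom.coe_comp, Function.comp_apply, RingHom.coe_coe, aeval_C]
          rfl
        · simp only [RingHom.coe_comp, Function.comp_apply, RingHom.coe_coe, aeval_X]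
          rfl
      have := congrArg (fun g => g q) key2
      simpa using this
    · simp only [RingHom.coe_comp, Function.comp_apply, coe_eval₂RingHom, eval₂_X]
      rfl
  exact congrArg (fun g => g p) key

theorem equation_xF_yF :
    (W.toAffine⁄W.toAffine.FunctionField).Equation (xF W) (yF W) := by
  rw [Affine.Equation, ← eval₂_polynomial_eq, ← algebraMap_mk_eq]
  have : Affine.CoordinateRing.mk W.toAffine W.toAffine.polynomial = 0 := AdjoinRoot.mk_self
  rw [this, map_zero]

theorem nonsingular_xF_yF (hΔ : W.Δ ≠ 0) :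
    (W.toAffine⁄W.toAffine.FunctionField).Nonsingular (xF W) (yF W) := by
  have hΔ' : (W.toAffine⁄W.toAffine.FunctionField).Δ ≠ 0 := by
    have : (W.toAffine⁄W.toAffine.FunctionField).Δ =
        algebraMap k W.toAffine.FunctionField W.Δ := WeierstrassCurve.map_Δ W _
    rw [this]
    exact (_root_.map_ne_zero _).mpr hΔ
  exact (Affine.equation_iff_nonsingular_of_Δ_ne_zero hΔ').mp (equation_xF_yF W)

/-- The generic point `(x, y)` of `W` over its function field. -/
def genPt (hΔ : W.Δ ≠ 0) : (W.toAffine⁄W.toAffine.FunctionField).Point :=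
  .some (xF W) (yF W) (nonsingular_xF_yF W hΔ)

theorem genPt_eq (hΔ : W.Δ ≠ 0) (h : (W.toAffine⁄W.toAffine.FunctionField).Nonsingular
    (xF W) (yF W)) : genPt W hΔ = .some (xF W) (yF W) h := rfl

section MapSigma

variable {L : Type*} [Field L] [Algebra k L] [DecidableEq L]
  [DecidableEq W.toAffine.FunctionField]

/-- The point `(a, b)` is the image of the generic point under `sigmaPt`. -/
theorem map_sigmaPt_genPt (hΔ : W.Δ ≠ 0) (a b : L) (h : (W.toAffine⁄L).Nonsingular a b)
    (ha : Transcendental k a) :
    Affine.Point.map (W' := W.toAffine) (sigmaPt W a b h.1 ha) (genPt W hΔ) = .some a b h := by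
  rw [genPt, Affine.Point.map_some]
  simp

end MapSigma

/-! ### Rational functions of `x` -/

theorem aeval_xF (p : k[X]) :
    aeval (xF W) p = algebraMap W.toAffine.CoordinateRing W.toAffine.FunctionField
      (Affine.CoordinateRing.mk W.toAffine (C p)) := by
  rw [algebraMap_mk_eq, eval₂_C]
  rfl

theorem aeval_xF_injective :
    Function.Injective (aeval (xF W) : k[X] →ₐ[k] W.toAffine.FunctionField) := by
  intro p q hpq
  rw [aeval_xF, aeval_xF] at hpq
  have h1 := IsFractionRing.injective W.toAffine.CoordinateRing W.toAffine.FunctionField hpq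
  exact FaithfulSMul.algebraMap_injective k[X] W.toAffine.CoordinateRing h1

theorem transcendental_xF : Transcendental k (xF W) := by
  rw [transcendental_iff_injective]
  exact aeval_xF_injective W

/-- The inclusion `k(X) → k(W)`, `X ↦ x`. -/
def ratIncl : RatFunc k →ₐ[k] W.toAffine.FunctionField :=
  IsFractionRing.liftAlgHom (g := (aeval (xF W) : k[X] →ₐ[k] W.toAffine.FunctionField))
    (aeval_xF_injective W)

@[simp]
theorem ratIncl_algebraMap (p : k[X]) :
    ratIncl W (algebraMap k[X] (RatFunc k) p) = aeval (xF W) p := by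
  simp [ratIncl, IsFractionRing.liftAlgHom_apply, IsFractionRing.lift_algebraMap]

@[simp]
theorem ratIncl_X : ratIncl W RatFunc.X = xF W := by
  rw [← RatFunc.algebraMap_X, ratIncl_algebraMap, aeval_X]

theorem ratIncl_injective : Function.Injective (ratIncl W) := (ratIncl W).injective

/-- Two `k`-algebra homomorphisms out of `k(X)` which agree on `X` are equal. -/
theorem ratFunc_algHom_ext {L : Type*} [Field L] [Algebra k L] (g₁ g₂ : RatFunc k →ₐ[k] L)
    (h : g₁ RatFunc.X = g₂ RatFunc.X) : g₁ = g₂ := by
  have hpoly : ∀ p : k[X], g₁ (algebraMap k[X] (RatFunc k) p) =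
      g₂ (algebraMap k[X] (RatFunc k) p) := by
    intro p
    have e1 : g₁.comp (IsScalarTower.toAlgHom k k[X] (RatFunc k)) =
        g₂.comp (IsScalarTower.toAlgHom k k[X] (RatFunc k)) := by
      refine Polynomial.algHom_ext ?_
      simpa using h
    exact congrArg (fun g => g p) e1
  refine AlgHom.ext fun u => ?_
  rw [← RatFunc.num_div_denom u, map_div₀, map_div₀, hpoly, hpoly]

/-- Any `k`-algebra homomorphism `k(X) → k(W)` with `X ↦ x` is `ratIncl`. -/
theorem eq_ratIncl (g : RatFunc k →ₐ[k] W.toAffine.FunctionField) (h : g RatFunc.X = xF W) :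
    g = ratIncl W :=
  ratFunc_algHom_ext g (ratIncl W) (by rw [h, ratIncl_X])

/-- `sigmaPt` restricted to `k(x)` is substitution. -/
theorem sigmaPt_ratIncl (a b : W.toAffine.FunctionField)
    (h : (W.toAffine⁄W.toAffine.FunctionField).Equation a b) (ha : Transcendental k a)
    (r : RatFunc k) (hr : Transcendental k r) (har : a = ratIncl W r) (u : RatFunc k) :
    sigmaPt W a b h ha (ratIncl W u) = ratIncl W (subst r hr u) := by
  have e : (sigmaPt W a b h ha).comp (ratIncl W) = (ratIncl W).comp (subst r hr) := by
    refine ratFunc_algHom_ext _ _ ?_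
    simp [subst_X, har]
  exact congrArg (fun g => g u) e

theorem transcendental_of_ratIncl {r : RatFunc k} (h : Transcendental k (ratIncl W r)) :
    Transcendental k r := by
  intro halg
  exact h (halg.algHom (ratIncl W))

theorem transcendental_ratIncl {r : RatFunc k} (h : Transcendental k r) :
    Transcendental k (ratIncl W r) := by
  intro halg
  apply h
  obtain ⟨p, hp, hp0⟩ := halg
  refine ⟨p, hp, ?_⟩
  apply ratIncl_injective W
  rw [map_zero, ← hp0, Polynomial.aeval_algHom_apply]

/-! ### Points with `x`-coordinate in `k(x)` -/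

section HasX

variable [DecidableEq W.toAffine.FunctionField]

/-- `HasX W P u`: the point `P ≠ 0` of `W` over `k(W)` has `x`-coordinate `u(x)`, `u ∈ k(X)`. -/
def HasX (P : (W.toAffine⁄W.toAffine.FunctionField).Point) (u : RatFunc k) : Prop :=
  ∃ (y : W.toAffine.FunctionField)
    (h : (W.toAffine⁄W.toAffine.FunctionField).Nonsingular (ratIncl W u) y),
    P = .some (ratIncl W u) y h

theorem HasX.ne_zero {P : (W.toAffine⁄W.toAffine.FunctionField).Point} {u : RatFunc k}
    (h : HasX W P u) : P ≠ 0 := by
  obtain ⟨y, hy, rfl⟩ := h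
  exact Affine.Point.some_ne_zero _

theorem HasX.unique {P : (W.toAffine⁄W.toAffine.FunctionField).Point} {u u' : RatFunc k}
    (h : HasX W P u) (h' : HasX W P u') : u = u' := by
  obtain ⟨y, hy, rfl⟩ := h
  obtain ⟨y', hy', e⟩ := h'
  have := (Affine.Point.some.injEq _ _ _ _ _ _).mp e
  exact ratIncl_injective W this.1

theorem hasX_of_x_eq {x y : W.toAffine.FunctionField}
    (h : (W.toAffine⁄W.toAffine.FunctionField).Nonsingular x y) {u : RatFunc k}
    (hx : x = ratIncl W u) : HasX W (.some x y h) u := by
  subst hx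
  exact ⟨y, h, rfl⟩

theorem hasX_genPt (hΔ : W.Δ ≠ 0) : HasX W (genPt W hΔ) RatFunc.X :=
  hasX_of_x_eq W _ (ratIncl_X W).symm

/-- Images under `sigmaPt` of points with `x`-coordinate in `k(x)`: substitution. -/
theorem hasX_map_sigmaPt {a b : W.toAffine.FunctionField}
    (h : (W.toAffine⁄W.toAffine.FunctionField).Equation a b) (ha : Transcendental k a)
    (r : RatFunc k) (hr : Transcendental k r) (har : a = ratIncl W r)
    {B : (W.toAffine⁄W.toAffine.FunctionField).Point} {s : RatFunc k} (hB : HasX W B s) :
    HasX W (Affine.Point.map (W' := W.toAffine) (sigmaPt W a b h ha) B) (subst r hr s) := by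
  obtain ⟨y, hy, rfl⟩ := hB
  rw [Affine.Point.map_some]
  exact hasX_of_x_eq W _ (sigmaPt_ratIncl W a b h ha r hr har s)

end HasX

end

/-! ### Frobenius -/

noncomputable section Frob

variable (ℓ : ℕ) [Fact ℓ.Prime] (W : WeierstrassCurve (ZMod ℓ))

/-- `k`-algebra homomorphisms commute with the Frobenius endomorphisms of the points. -/
theorem map_frobPt {K L : Type*} [Field K] [Field L] [Algebra (ZMod ℓ) K] [Algebra (ZMod ℓ) L]
    [DecidableEq K] [DecidableEq L] (σ : K →ₐ[ZMod ℓ] L) (P : (W.toAffine⁄K).Point) :
    Affine.Point.map (W' := W.toAffine) σ (frobPt ℓ W K P) =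
      frobPt ℓ W L (Affine.Point.map (W' := W.toAffine) σ P) := by
  have e : σ.comp (FiniteField.frobeniusAlgHom (ZMod ℓ) K) =
      (FiniteField.frobeniusAlgHom (ZMod ℓ) L).comp σ := by
    ext z
    simp [FiniteField.coe_frobeniusAlgHom]
  unfold frobPt
  rw [Affine.Point.map_map, Affine.Point.map_map, e]

variable [DecidableEq W.toAffine.FunctionField]

/-- **(FT-COMP), curve level**: for a point `A = (a, b)` of `W` over `F = k(W)` with
`a = r(x)`, `r ∈ k(X)` non-constant, the image of `φ P₀ + P₀` under `σ_A` is `φ A + A`; hence if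
`φ P₀ + P₀` has `x`-coordinate `s(x)`, then `φ A + A` has `x`-coordinate `(s ∘ r)(x)`. -/
theorem hasX_frob_add (hΔ : W.Δ ≠ 0) {a b : W.toAffine.FunctionField}
    (hA : (W.toAffine⁄W.toAffine.FunctionField).Nonsingular a b)
    (r : RatFunc (ZMod ℓ)) (hr : Transcendental (ZMod ℓ) r) (har : a = ratIncl W r)
    {s : RatFunc (ZMod ℓ)}
    (hB : HasX W (frobPt ℓ W W.toAffine.FunctionField (genPt W hΔ) + genPt W hΔ) s) :
    HasX W (frobPt ℓ W W.toAffine.FunctionField (.some a b hA) + .some a b hA)
      (subst r hr s) := by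
  have ha : Transcendental (ZMod ℓ) a := har ▸ transcendental_ratIncl W hr
  have h1 := hasX_map_sigmaPt W hA.1 ha r hr har hB
  rw [map_add, map_frobPt, map_sigmaPt_genPt W hΔ a b hA ha] at h1
  exact h1

/-- The same statement for the zero case: if `φ P₀ + P₀ = 0` then `φ A + A = 0`. -/
theorem frob_add_eq_zero (hΔ : W.Δ ≠ 0) {a b : W.toAffine.FunctionField}
    (hA : (W.toAffine⁄W.toAffine.FunctionField).Nonsingular a b)
    (ha : Transcendental (ZMod ℓ) a)
    (hB : frobPt ℓ W W.toAffine.FunctionField (genPt W hΔ) + genPt W hΔ = 0) :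
    frobPt ℓ W W.toAffine.FunctionField (.some a b hA) + .some a b hA = 0 := by
  have h1 := congrArg (Affine.Point.map (W' := W.toAffine) (sigmaPt W a b hA.1 ha)) hB
  rw [map_add, map_frobPt, map_sigmaPt_genPt W hΔ a b hA ha, map_zero] at h1
  exact h1

end Frob

end Fermat.Agent.S58.FT.Comp
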