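/-
helper86 — S58-PREP row 371 (FT-COMP), part (b), final form: the field `d_comp` of `DegData`
from the curve-level core `CompCore.lean`, for ANY "degree" `dPt` on a subgroup `Λ` of `E(F)`
(`F = k(W)`, `k = ZMod ℓ`) which is the height of the `x`-coordinate:

`d_comp_of` : if every nonzero `A ∈ Λ` has `x(A) = u(x)` with `dPt A = ht u`, `dPt 0 = 0`,
`dPt (A + A) = 4 dPt A` on `Λ`, `Λ` is stable under Frobenius and contains the generic point,
then `dPt (φ(φP₀ + P₀) + (φP₀ + P₀)) = dPt (φP₀ + P₀) ^ 2`.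

More generally `d_frob_add_of` : `dPt (φA + A) = dPt (φP₀ + P₀) * dPt A` for all `A ∈ Λ`.
-/
import Mathlib
import Fermat.Agent.S58.FT.CompCore

set_option autoImplicit false
set_option linter.unusedSectionVars false

namespace Fermat.Agent.S58.FT.Comp

open Polynomial WeierstrassCurve Fermat.Agent.Lib.ECBiquad
open scoped Polynomial.Bivariate WeierstrassCurve.Affine

noncomputable section

variable (ℓ : ℕ) [Fact ℓ.Prime] (W : WeierstrassCurve (ZMod ℓ))
  [DecidableEq W.toAffine.FunctionField]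

/-- A point with constant `x`-coordinate is mapped to itself or its negative by Frobenius. -/
theorem frobPt_eq_or_eq_neg_of_hasX_C
    {B : (W.toAffine⁄W.toAffine.FunctionField).Point} {c : ZMod ℓ}
    (hB : HasX W B (RatFunc.C c)) :
    frobPt ℓ W W.toAffine.FunctionField B = B ∨ frobPt ℓ W W.toAffine.FunctionField B = -B := by
  obtain ⟨y, hy, rfl⟩ := hB
  have hx : FiniteField.frobeniusAlgHom (ZMod ℓ) W.toAffine.FunctionField
      (ratIncl W (RatFunc.C c)) = ratIncl W (RatFunc.C c) := by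
    have e : ratIncl W (RatFunc.C c) = algebraMap (ZMod ℓ) W.toAffine.FunctionField c := by
      rw [← RatFunc.algebraMap_eq_C, AlgHom.commutes]
    rw [e, AlgHom.commutes]
  unfold frobPt
  rw [Affine.Point.map_some]
  exact Affine.Point.X_eq_iff.mp hx

variable (Λ : AddSubgroup (W.toAffine⁄W.toAffine.FunctionField).Point)
  (dPt : (W.toAffine⁄W.toAffine.FunctionField).Point → ℤ)

/-- **(FT-COMP)** multiplicativity: `d (φ A + A) = d (φ P₀ + P₀) * d A` for `A ∈ Λ`. -/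
theorem d_frob_add_of (hΔ : W.Δ ≠ 0)
    (hX : ∀ A ∈ Λ, A ≠ 0 → ∃ u : RatFunc (ZMod ℓ), HasX W A u ∧ dPt A = (ht u : ℤ))
    (h0 : dPt 0 = 0)
    (h2 : ∀ A ∈ Λ, dPt (A + A) = 4 * dPt A)
    (hφ : ∀ A ∈ Λ, frobPt ℓ W W.toAffine.FunctionField A ∈ Λ)
    (hP : genPt W hΔ ∈ Λ)
    {A : (W.toAffine⁄W.toAffine.FunctionField).Point} (hA : A ∈ Λ) :
    dPt (frobPt ℓ W W.toAffine.FunctionField A + A) =
      dPt (frobPt ℓ W W.toAffine.FunctionField (genPt W hΔ) + genPt W hΔ) * dPt A := by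
  have hAA : frobPt ℓ W W.toAffine.FunctionField A + A ∈ Λ := Λ.add_mem (hφ A hA) hA
  have hBmem : frobPt ℓ W W.toAffine.FunctionField (genPt W hΔ) + genPt W hΔ ∈ Λ :=
    Λ.add_mem (hφ _ hP) hP
  by_cases hA0 : A = 0
  · subst hA0
    simp [h0]
  obtain ⟨r, hAr, hdA⟩ := hX A hA hA0
  -- the constant case
  by_cases hr0 : ht r = 0
  · have hdA0 : dPt A = 0 := by rw [hdA, hr0]; rfl
    obtain ⟨c, rfl⟩ := ht_eq_zero_iff.mp hr0
    rcases frobPt_eq_or_eq_neg_of_hasX_C ℓ W hAr with h | h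
    · rw [h, h2 A hA, hdA0]; ring
    · rw [h, neg_add_cancel, h0, hdA0]; ring
  -- the non-constant case
  have hr : Transcendental (ZMod ℓ) r :=
    RatFunc.transcendental_of_ne_C r (fun hc => hr0 (ht_eq_zero_iff.mpr hc))
  obtain ⟨b, hns, rfl⟩ := hAr
  by_cases hB0 : frobPt ℓ W W.toAffine.FunctionField (genPt W hΔ) + genPt W hΔ = 0
  · have ha : Transcendental (ZMod ℓ) (ratIncl W r) := transcendental_ratIncl W hr
    rw [frob_add_eq_zero ℓ W hΔ hns ha hB0, hB0, h0]; ring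
  obtain ⟨s, hBs, hdB⟩ := hX _ hBmem hB0
  have hres := hasX_frob_add ℓ W hΔ hns r hr rfl hBs
  obtain ⟨u, hu, hdu⟩ := hX _ hAA hres.ne_zero
  have huu : u = subst r hr s := HasX.unique W hu hres
  rw [hdu, huu, ht_subst, hdB, hdA]
  push_cast
  ring

/-- **(FT-COMP)** the field `d_comp` of `DegData`. -/
theorem d_comp_of (hΔ : W.Δ ≠ 0)
    (hX : ∀ A ∈ Λ, A ≠ 0 → ∃ u : RatFunc (ZMod ℓ), HasX W A u ∧ dPt A = (ht u : ℤ))
    (h0 : dPt 0 = 0)
    (h2 : ∀ A ∈ Λ, dPt (A + A) = 4 * dPt A)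
    (hφ : ∀ A ∈ Λ, frobPt ℓ W W.toAffine.FunctionField A ∈ Λ)
    (hP : genPt W hΔ ∈ Λ) :
    dPt (frobPt ℓ W W.toAffine.FunctionField
          (frobPt ℓ W W.toAffine.FunctionField (genPt W hΔ) + genPt W hΔ) +
        (frobPt ℓ W W.toAffine.FunctionField (genPt W hΔ) + genPt W hΔ)) =
      dPt (frobPt ℓ W W.toAffine.FunctionField (genPt W hΔ) + genPt W hΔ) ^ 2 := by
  rw [d_frob_add_of ℓ W Λ dPt hΔ hX h0 h2 hφ hP (Λ.add_mem (hφ _ hP) hP), sq]

end

end Fermat.Agent.S58.FT.Comp
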