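/-
S58-PREP row 370 (FT-GEN), part 1: the function field `F = k(E)` of a Weierstrass curve over a
field `k`, as a quadratic extension of `k(x)`:

* `xF`, `yF` : the coordinate functions; `curve_F` : the Weierstrass equation;
* `xEmb : RatFunc k →ₐ[k] F` : the embedding of `k(x)`;
* `iota : F →ₐ[k] F` : the hyperelliptic involution `y ↦ -y - a₁ x - a₃`;
* `exists_xEmb_eq_of_iota_eq` : the fixed field of `iota` is `k(x)` (when `Δ ≠ 0`).
-/
import Mathlib

set_option autoImplicit false

namespace Fermat.Agent.S58.FT.Gen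

open WeierstrassCurve Polynomial
open scoped Polynomial.Bivariate

variable {k : Type*} [Field k] (W : WeierstrassCurve k)

/-- The coordinate ring of `W`. -/
abbrev CR : Type _ := W.toAffine.CoordinateRing

/-- The function field of `W`. -/
abbrev FF : Type _ := W.toAffine.FunctionField

/-- The class of `Y` in the coordinate ring. -/
noncomputable def yA : CR W := Affine.CoordinateRing.mk W.toAffine Y

/-- `a₁ x + a₃` as a polynomial in `x`. -/
noncomputable def cPoly : k[X] := C W.a₁ * X + C W.a₃

/-- `x³ + a₂ x² + a₄ x + a₆` as a polynomial in `x`. -/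
noncomputable def rPoly : k[X] := X ^ 3 + C W.a₂ * X ^ 2 + C W.a₄ * X + C W.a₆

theorem curve_A : yA W ^ 2 + algebraMap k[X] (CR W) (cPoly W) * yA W =
    algebraMap k[X] (CR W) (rPoly W) := by
  have h : Affine.CoordinateRing.mk W.toAffine (Y ^ 2 + C (cPoly W) * Y - C (rPoly W)) = 0 :=
    AdjoinRoot.mk_self (f := W.toAffine.polynomial)
  rw [map_sub, map_add, map_mul, map_pow] at h
  exact sub_eq_zero.mp h

/-- The conjugate `-y - (a₁ x + a₃)` of `y`. -/
noncomputable def yConj : CR W := -yA W - algebraMap k[X] (CR W) (cPoly W)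

theorem yConj_eq : yConj W ^ 2 + algebraMap k[X] (CR W) (cPoly W) * yConj W =
    algebraMap k[X] (CR W) (rPoly W) := by
  rw [← curve_A W, yConj]; ring

/-- The hyperelliptic involution on the coordinate ring, as a `k[x]`-algebra map. -/
noncomputable def iotaA : CR W →ₐ[k[X]] CR W :=
  AdjoinRoot.liftAlgHom W.toAffine.polynomial (Algebra.ofId k[X] (CR W)) (yConj W) (by
    show eval₂ _ (yConj W) (Y ^ 2 + C (cPoly W) * Y - C (rPoly W)) = 0
    simp only [eval₂_sub, eval₂_add, eval₂_mul, eval₂_pow, eval₂_X, eval₂_C]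
    exact sub_eq_zero.mpr (yConj_eq W))

theorem iotaA_yA : iotaA W (yA W) = yConj W := by
  have : yA W = AdjoinRoot.root W.toAffine.polynomial := rfl
  rw [this, iotaA, AdjoinRoot.liftAlgHom_root]

theorem iotaA_yConj : iotaA W (yConj W) = yA W := by
  rw [yConj, map_sub, map_neg, iotaA_yA, AlgHom.commutes, yConj]; ring

theorem iotaA_iotaA (a : CR W) : iotaA W (iotaA W a) = a := by
  have h : (iotaA W).comp (iotaA W) = AlgHom.id k[X] (CR W) := by
    apply AdjoinRoot.algHom_ext
    have : AdjoinRoot.root W.toAffine.polynomial = yA W := rfl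
    rw [this, AlgHom.comp_apply, iotaA_yA, iotaA_yConj, AlgHom.id_apply]
  exact congrArg (fun f => f a) h

theorem iotaA_injective : Function.Injective (iotaA W) :=
  Function.LeftInverse.injective (iotaA_iotaA W)

/-- Every element of the coordinate ring is `p + q y`. -/
theorem exists_rep (a : CR W) : ∃ p q : k[X],
    a = algebraMap k[X] (CR W) p + algebraMap k[X] (CR W) q * yA W := by
  obtain ⟨p, q, h⟩ := Affine.CoordinateRing.exists_smul_basis_eq a
  refine ⟨p, q, ?_⟩
  rw [← h, Algebra.smul_def, Algebra.smul_def, mul_one]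
  rfl

theorem rep_eq_zero {p q : k[X]}
    (h : algebraMap k[X] (CR W) p + algebraMap k[X] (CR W) q * yA W = 0) : p = 0 ∧ q = 0 := by
  apply Affine.CoordinateRing.smul_basis_eq_zero (W' := W.toAffine)
  rw [Algebra.smul_def, Algebra.smul_def, mul_one]
  exact h

/-- `iota` is not the identity when `Δ ≠ 0`. -/
theorem two_ne_zero_or_cPoly_ne_zero (hΔ : W.Δ ≠ 0) : (2 : k[X]) ≠ 0 ∨ cPoly W ≠ 0 := by
  by_contra hcon
  push Not at hcon
  obtain ⟨h2, hc⟩ := hcon
  have h2k : (2 : k) = 0 := by
    have := congrArg (fun p : k[X] => p.coeff 0) h2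
    simpa using this
  have ha1 : W.a₁ = 0 := by
    have := congrArg (fun p : k[X] => p.coeff 1) hc
    simpa [cPoly] using this
  have ha3 : W.a₃ = 0 := by
    have := congrArg (fun p : k[X] => p.coeff 0) hc
    simpa [cPoly] using this
  apply hΔ
  have h4 : (4 : k) = 0 := by linear_combination (2 : k) * h2k
  have hb2 : W.b₂ = 0 := by rw [WeierstrassCurve.b₂, ha1, h4]; ring
  have hb4 : W.b₄ = 0 := by rw [WeierstrassCurve.b₄, ha1, h2k]; ring
  have hb6 : W.b₆ = 0 := by rw [WeierstrassCurve.b₆, ha3, h4]; ring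
  rw [WeierstrassCurve.Δ, hb2, hb4, hb6]; ring

/-- An element of the coordinate ring fixed by the involution is a polynomial in `x`. -/
theorem exists_poly_of_iotaA_eq (hΔ : W.Δ ≠ 0) {a : CR W} (h : iotaA W a = a) :
    ∃ p : k[X], a = algebraMap k[X] (CR W) p := by
  obtain ⟨p, q, rfl⟩ := exists_rep W a
  refine ⟨p, ?_⟩
  rw [map_add, map_mul, AlgHom.commutes, AlgHom.commutes, iotaA_yA, yConj] at h
  have h0 : algebraMap k[X] (CR W) (-(q * cPoly W)) + algebraMap k[X] (CR W) (-(2 * q)) * yA W
      = 0 := by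
    rw [map_neg, map_neg, map_mul, map_mul, map_ofNat]
    linear_combination h
  obtain ⟨h1, h2⟩ := rep_eq_zero W h0
  have hq : q = 0 := by
    rcases two_ne_zero_or_cPoly_ne_zero W hΔ with h' | h'
    · have : 2 * q = 0 := neg_eq_zero.mp h2
      exact (mul_eq_zero.mp this).resolve_left h'
    · have : q * cPoly W = 0 := neg_eq_zero.mp h1
      exact (mul_eq_zero.mp this).resolve_right h'
  rw [hq, map_zero, zero_mul, add_zero]

/-! ### The function field -/

/-- The coordinate function `x`. -/
noncomputable def xF : FF W := algebraMap k[X] (FF W) X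

/-- The coordinate function `y`. -/
noncomputable def yF : FF W := algebraMap (CR W) (FF W) (yA W)

theorem algebraMap_CR_FF_injective : Function.Injective (algebraMap (CR W) (FF W)) :=
  IsFractionRing.injective (CR W) (FF W)

theorem algebraMap_poly_FF_injective : Function.Injective (algebraMap k[X] (FF W)) :=
  FaithfulSMul.algebraMap_injective k[X] (FF W)

/-- The embedding of `k(x)` into the function field. -/
noncomputable def xEmb : RatFunc k →ₐ[k] FF W :=
  IsFractionRing.liftAlgHom (K := RatFunc k) (g := IsScalarTower.toAlgHom k k[X] (FF W))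
    (show Function.Injective (IsScalarTower.toAlgHom k k[X] (FF W)) from
      algebraMap_poly_FF_injective W)

theorem xEmb_algebraMap (p : k[X]) :
    xEmb W (algebraMap k[X] (RatFunc k) p) = algebraMap k[X] (FF W) p := by
  rw [xEmb, IsFractionRing.liftAlgHom_apply, IsFractionRing.lift_algebraMap]
  rfl

theorem xEmb_X : xEmb W RatFunc.X = xF W := by
  rw [← RatFunc.algebraMap_X, xEmb_algebraMap, xF]

theorem xEmb_C (c : k) : xEmb W (RatFunc.C c) = algebraMap k (FF W) c := by
  rw [← RatFunc.algebraMap_C, xEmb_algebraMap, ← Polynomial.algebraMap_eq,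
    ← IsScalarTower.algebraMap_apply]

theorem xEmb_injective : Function.Injective (xEmb W) := (xEmb W).injective

theorem curve_F : yF W ^ 2 + algebraMap k[X] (FF W) (cPoly W) * yF W =
    algebraMap k[X] (FF W) (rPoly W) := by
  have h := congrArg (algebraMap (CR W) (FF W)) (curve_A W)
  rw [map_add, map_mul, map_pow, ← IsScalarTower.algebraMap_apply,
    ← IsScalarTower.algebraMap_apply] at h
  exact h

/-- The hyperelliptic involution of the function field. -/
noncomputable def iota : FF W →ₐ[k] FF W :=
  IsFractionRing.liftAlgHom (K := FF W)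
    (g := (IsScalarTower.toAlgHom k (CR W) (FF W)).comp ((iotaA W).restrictScalars k))
    (show Function.Injective ((IsScalarTower.toAlgHom k (CR W) (FF W)).comp
        ((iotaA W).restrictScalars k)) from
      (algebraMap_CR_FF_injective W).comp (iotaA_injective W))

theorem iota_algebraMap (a : CR W) :
    iota W (algebraMap (CR W) (FF W) a) = algebraMap (CR W) (FF W) (iotaA W a) := by
  rw [iota, IsFractionRing.liftAlgHom_apply, IsFractionRing.lift_algebraMap]
  rfl

theorem iota_algebraMap_poly (p : k[X]) :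
    iota W (algebraMap k[X] (FF W) p) = algebraMap k[X] (FF W) p := by
  rw [IsScalarTower.algebraMap_apply k[X] (CR W) (FF W), iota_algebraMap, AlgHom.commutes]

theorem iota_xEmb (r : RatFunc k) : iota W (xEmb W r) = xEmb W r := by
  induction r using RatFunc.induction_on with
  | _ p q hq =>
    rw [map_div₀, map_div₀, xEmb_algebraMap, xEmb_algebraMap, iota_algebraMap_poly,
      iota_algebraMap_poly]

theorem iota_xF : iota W (xF W) = xF W := iota_algebraMap_poly W X

theorem iota_yF : iota W (yF W) = -yF W - algebraMap k[X] (FF W) (cPoly W) := by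
  rw [yF, iota_algebraMap, iotaA_yA, yConj, map_sub, map_neg,
    ← IsScalarTower.algebraMap_apply]

theorem iota_iota (z : FF W) : iota W (iota W z) = z := by
  obtain ⟨a, b, -, rfl⟩ := IsFractionRing.div_surjective (A := CR W) z
  rw [map_div₀, map_div₀, iota_algebraMap, iota_algebraMap, iota_algebraMap, iota_algebraMap,
    iotaA_iotaA, iotaA_iotaA]

/-- **The fixed field of the involution is `k(x)`** (when `Δ ≠ 0`). -/
theorem exists_xEmb_eq_of_iota_eq (hΔ : W.Δ ≠ 0) {z : FF W} (h : iota W z = z) :
    ∃ r : RatFunc k, xEmb W r = z := by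
  obtain ⟨a, b, hb, rfl⟩ := IsFractionRing.div_surjective (A := CR W) z
  have hb0 : b ≠ 0 := nonZeroDivisors.ne_zero hb
  have hιb0 : iotaA W b ≠ 0 := fun h0 => hb0 (iotaA_injective W (by rw [h0, map_zero]))
  have hbF : algebraMap (CR W) (FF W) b ≠ 0 := fun h0 =>
    hb0 (algebraMap_CR_FF_injective W (by rw [h0, map_zero]))
  have hιbF : algebraMap (CR W) (FF W) (iotaA W b) ≠ 0 := fun h0 =>
    hιb0 (algebraMap_CR_FF_injective W (by rw [h0, map_zero]))
  -- the norm of the denominator
  obtain ⟨pN, hN⟩ := exists_poly_of_iotaA_eq W hΔ (a := b * iotaA W b)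
    (by rw [map_mul, iotaA_iotaA, mul_comm])
  -- the new numerator
  have hm : iotaA W (a * iotaA W b) = a * iotaA W b := by
    apply algebraMap_CR_FF_injective W
    rw [map_div₀, iota_algebraMap, iota_algebraMap] at h
    rw [map_mul, iotaA_iotaA, map_mul, map_mul]
    field_simp at h
    linear_combination h
  obtain ⟨pm, hpm⟩ := exists_poly_of_iotaA_eq W hΔ hm
  have hpN0 : pN ≠ 0 := by
    rintro rfl
    rw [map_zero] at hN
    exact (mul_ne_zero hb0 hιb0) hN
  refine ⟨algebraMap k[X] (RatFunc k) pm / algebraMap k[X] (RatFunc k) pN, ?_⟩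
  rw [map_div₀, xEmb_algebraMap, xEmb_algebraMap,
    IsScalarTower.algebraMap_apply k[X] (CR W) (FF W), ← hpm,
    IsScalarTower.algebraMap_apply k[X] (CR W) (FF W) pN, ← hN, map_mul, map_mul]
  field_simp

end Fermat.Agent.S58.FT.Gen
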