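/-
S58-PREP row 369 (FT-ALG), helper26: the quadratic-form algebra on an abstract degree package.

* `Alg.polar_add_left`, `Alg.polar_zsmul_left`, ... : Jordan–von Neumann for a `ℤ`-valued map on
  an abelian group satisfying the parallelogram law (the polar form is biadditive);
* `Alg.d_zsmul_add_zsmul` : `d (x • A + y • B) = x² d A + y² d B + x y (d (A + B) - d A - d B)`;
* `Alg.degAlgebra : DegAlgebra` : the interface statement of `S58/FTInterfaces.lean`.
-/
import Mathlib
import Fermat.Agent.S58.FTInterfaces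

set_option autoImplicit false
set_option linter.unusedSectionVars false

namespace Fermat.Agent.S58.Alg

section Generic

variable {G : Type*} [AddCommGroup G] (d : G → ℤ)

/-- The polar form `d (A + B) - d A - d B` of a function on an abelian group. -/
def polar (A B : G) : ℤ := d (A + B) - d A - d B

variable {d}

theorem polar_comm (A B : G) : polar d A B = polar d B A := by
  unfold polar
  rw [add_comm A B]
  ring

variable (hpar : ∀ A B : G, d (A + B) + d (A - B) = 2 * d A + 2 * d B) (h0 : d 0 = 0)

include hpar h0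

theorem d_neg (A : G) : d (-A) = d A := by
  have h := hpar 0 A
  rw [zero_add, zero_sub, h0] at h
  linarith

theorem two_mul_polar (A B : G) : 2 * polar d A B = d (A + B) - d (A - B) := by
  have h := hpar A B
  unfold polar
  linarith

/-- The key identity: `Q (A + C, B) + Q (A - C, B) = 2 Q (A, B)` for `Q = 2 • polar`. -/
theorem polar_add_sub (A C B : G) :
    polar d (A + C) B + polar d (A - C) B = 2 * polar d A B := by
  have h1 := hpar (A + B) C
  have h2 := hpar (A - B) C
  have e1 : A + B + C = A + C + B := by abel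
  have e2 : A + B - C = A - C + B := by abel
  have e3 : A - B + C = A + C - B := by abel
  have e4 : A - B - C = A - C - B := by abel
  rw [e1, e2] at h1
  rw [e3, e4] at h2
  have t1 := two_mul_polar hpar h0 (A + C) B
  have t2 := two_mul_polar hpar h0 (A - C) B
  have t3 := two_mul_polar hpar h0 A B
  linarith

theorem polar_zero_left (B : G) : polar d 0 B = 0 := by
  unfold polar
  rw [zero_add, h0]
  ring

theorem polar_two_left (A B : G) : polar d (A + A) B = 2 * polar d A B := by
  have h := polar_add_sub hpar h0 A A B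
  rw [sub_self, polar_zero_left hpar h0, add_zero] at h
  exact h

theorem polar_add_left (A C B : G) : polar d (A + C) B = polar d A B + polar d C B := by
  have h := polar_add_sub hpar h0 (A + C) (A - C) B
  have e1 : A + C + (A - C) = A + A := by abel
  have e2 : A + C - (A - C) = C + C := by abel
  rw [e1, e2, polar_two_left hpar h0, polar_two_left hpar h0] at h
  linarith

theorem polar_add_right (A B C : G) : polar d A (B + C) = polar d A B + polar d A C := by
  rw [polar_comm A (B + C), polar_add_left hpar h0, polar_comm B A, polar_comm C A]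

/-- The polar form as an additive map in the first variable. -/
def polarHom (B : G) : G →+ ℤ where
  toFun A := polar d A B
  map_zero' := polar_zero_left hpar h0 B
  map_add' A C := polar_add_left hpar h0 A C B

theorem polar_zsmul_left (x : ℤ) (A B : G) : polar d (x • A) B = x * polar d A B := by
  have h := map_zsmul (polarHom hpar h0 B) x A
  simpa [polarHom] using h

theorem polar_zsmul_right (x : ℤ) (A B : G) : polar d A (x • B) = x * polar d A B := by
  rw [polar_comm A (x • B), polar_zsmul_left hpar h0, polar_comm B A]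

theorem polar_neg_left (A B : G) : polar d (-A) B = -polar d A B := by
  have h := polar_zsmul_left hpar h0 (-1) A B
  simpa using h

theorem polar_sub_left (A C B : G) : polar d (A - C) B = polar d A B - polar d C B := by
  rw [sub_eq_add_neg, polar_add_left hpar h0, polar_neg_left hpar h0]
  ring

theorem polar_self (A : G) : polar d A A = 2 * d A := by
  have h := hpar A A
  rw [sub_self, h0] at h
  unfold polar
  linarith

theorem d_add (A B : G) : d (A + B) = d A + d B + polar d A B := by
  unfold polar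
  ring

theorem d_zsmul (x : ℤ) (A : G) : d (x • A) = x ^ 2 * d A := by
  have h1 := polar_self hpar h0 (x • A)
  rw [polar_zsmul_left hpar h0, polar_zsmul_right hpar h0, polar_self hpar h0] at h1
  linarith

/-- The value of `d` on an integral combination of two elements. -/
theorem d_zsmul_add_zsmul (x y : ℤ) (A B : G) :
    d (x • A + y • B) = x ^ 2 * d A + y ^ 2 * d B + x * y * polar d A B := by
  rw [d_add hpar h0, d_zsmul hpar h0, d_zsmul hpar h0, polar_zsmul_left hpar h0,
    polar_zsmul_right hpar h0]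
  ring

/-- The value of `d` on an integral combination of three elements. -/
theorem d_zsmul_add_zsmul_add_zsmul (x y z : ℤ) (A B C : G) :
    d (x • A + y • B + z • C) = x ^ 2 * d A + y ^ 2 * d B + z ^ 2 * d C
      + x * y * polar d A B + x * z * polar d A C + y * z * polar d B C := by
  rw [d_add hpar h0, d_zsmul_add_zsmul hpar h0, d_zsmul hpar h0, polar_add_left hpar h0,
    polar_zsmul_left hpar h0, polar_zsmul_right hpar h0, polar_zsmul_left hpar h0,
    polar_zsmul_right hpar h0]
  ring

end Generic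

/-! ### The degree package -/

section Deg

variable {ℓ : ℕ} (D : DegData ℓ)

theorem polar_φ (A B : D.G) : polar D.d (D.φ A) (D.φ B) = ℓ * polar D.d A B := by
  unfold polar
  rw [← map_add, D.d_φ, D.d_φ, D.d_φ]
  ring

theorem tr_eq_polar : D.tr = polar D.d (D.φ D.P0) D.P0 := by
  unfold DegData.tr polar
  rw [D.d_φ, D.d_P0]
  ring

theorem d_φP0 : D.d (D.φ D.P0) = ℓ := by
  rw [D.d_φ, D.d_P0, mul_one]

theorem d_φφP0 : D.d (D.φ (D.φ D.P0)) = (ℓ : ℤ) ^ 2 := by
  rw [D.d_φ, d_φP0]
  ring

theorem polar_φφ_φ : polar D.d (D.φ (D.φ D.P0)) (D.φ D.P0) = ℓ * D.tr := by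
  rw [polar_φ, tr_eq_polar]

/-- The value of the mixed term `B (φ² P0, P0) = tr² - 2 ℓ`, from `d_comp`. -/
theorem polar_φφ_P0 : polar D.d (D.φ (D.φ D.P0)) D.P0 = D.tr ^ 2 - 2 * ℓ := by
  have hc := D.d_comp
  have e : D.φ (D.φ D.P0 + D.P0) + (D.φ D.P0 + D.P0)
      = (1 : ℤ) • D.φ (D.φ D.P0) + (2 : ℤ) • D.φ D.P0 + (1 : ℤ) • D.P0 := by
    rw [map_add, one_zsmul, one_zsmul, two_zsmul]
    abel
  rw [e, d_zsmul_add_zsmul_add_zsmul D.par D.d_zero, d_φφP0, d_φP0, D.d_P0, polar_φφ_φ,
    ← tr_eq_polar] at hc
  have hs : D.d (D.φ D.P0 + D.P0) = D.tr + ℓ + 1 := by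
    unfold DegData.tr
    ring
  rw [hs] at hc
  linear_combination hc

theorem d_quad : D.d (D.φ (D.φ D.P0) - D.tr • D.φ D.P0 + (ℓ : ℤ) • D.P0) = 0 := by
  have e : D.φ (D.φ D.P0) - D.tr • D.φ D.P0 + (ℓ : ℤ) • D.P0
      = (1 : ℤ) • D.φ (D.φ D.P0) + (-D.tr) • D.φ D.P0 + (ℓ : ℤ) • D.P0 := by
    rw [one_zsmul, neg_zsmul]
    abel
  rw [e, d_zsmul_add_zsmul_add_zsmul D.par D.d_zero, d_φφP0, d_φP0, D.d_P0, polar_φφ_φ,
    polar_φφ_P0, ← tr_eq_polar]
  ring

theorem d_sub_zsmul (m : ℤ) : D.d (D.φ D.P0 - m • D.P0) = m ^ 2 - D.tr * m + ℓ := by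
  have e : D.φ D.P0 - m • D.P0 = (1 : ℤ) • D.φ D.P0 + (-m) • D.P0 := by
    rw [one_zsmul, neg_zsmul]
    abel
  rw [e, d_zsmul_add_zsmul D.par D.d_zero, d_φP0, D.d_P0, ← tr_eq_polar]
  ring

theorem tr_sq_le : D.tr ^ 2 ≤ 4 * ℓ := by
  have h := D.d_nonneg ((2 : ℤ) • D.φ D.P0 + (-D.tr) • D.P0)
  rw [d_zsmul_add_zsmul D.par D.d_zero, d_φP0, D.d_P0, ← tr_eq_polar] at h
  nlinarith [h]

end Deg

/-- **(FT-ALG)**, the interface statement. -/
theorem degAlgebra : DegAlgebra := fun _ D =>
  ⟨d_quad D, d_sub_zsmul D, tr_sq_le D⟩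

end Fermat.Agent.S58.Alg
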