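/-
S58-PREP, row 373 (B)(ii) (second seat): a point of `E(F)`, `F ⊇ 𝔽_ℓ` any field, whose
`x`-coordinate is an `ℓ`-th power (and which is not `2`-torsion when `ℓ = 2`) is the Frobenius
image of a point of `E(F)`.

Field-level core: if `y² + b^ℓ y = c^ℓ` in a field of characteristic `ℓ` (with `b ≠ 0` when
`ℓ = 2`), then `y` is an `ℓ`-th power.
-/
import Fermat.Agent.S58.FTInterfaces

set_option autoImplicit false

namespace Fermat.Agent.S58.FT.FrobLift

open WeierstrassCurve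
open scoped WeierstrassCurve.Affine

/-- A root of `Y² + b^ℓ Y - c^ℓ` in a field of characteristic `ℓ` is an `ℓ`-th power
(for `ℓ = 2` one needs `b ≠ 0`). -/
theorem exists_pow_eq_of_quadratic {ℓ : ℕ} [Fact ℓ.Prime] {F : Type*} [Field F] [CharP F ℓ]
    {b c y : F} (hy : y ^ 2 + b ^ ℓ * y = c ^ ℓ) (h2 : ℓ = 2 → b ≠ 0) : ∃ t : F, t ^ ℓ = y := by
  have hℓ : ℓ.Prime := Fact.out
  rcases hℓ.eq_two_or_odd' with rfl | hodd
  · -- characteristic two
    have hb : b ≠ 0 := h2 rfl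
    have h20 : (2 : F) = 0 := by
      have := CharP.cast_eq_zero F 2
      exact_mod_cast this
    refine ⟨(c + y) / b, ?_⟩
    rw [div_pow, div_eq_iff (pow_ne_zero 2 hb)]
    linear_combination -hy + (c * y + y ^ 2) * h20
  · -- odd characteristic
    obtain ⟨k, hk⟩ := hodd
    have h2ne : (2 : F) ≠ 0 := by
      intro h
      have h2' : ((2 : ℕ) : F) = 0 := by exact_mod_cast h
      have hdvd := (CharP.cast_eq_zero_iff F ℓ 2).mp h2'
      have := Nat.le_of_dvd (by norm_num) hdvd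
      have := hℓ.two_le
      omega
    have hfrob : ∀ a b' : F, (a - b') ^ ℓ = a ^ ℓ - b' ^ ℓ := fun a b' => sub_pow_char a b'
    have hfrobadd : ∀ a b' : F, (a + b') ^ ℓ = a ^ ℓ + b' ^ ℓ := fun a b' => add_pow_char a b' ℓ
    have hnat : ∀ n : ℕ, ((n : F)) ^ ℓ = n := fun n => by
      have := map_natCast (frobenius F ℓ) n
      rwa [frobenius_def] at this
    have h2pow : (2 : F) ^ ℓ = 2 := by exact_mod_cast hnat 2
    have h4pow : (4 : F) ^ ℓ = 4 := by exact_mod_cast hnat 4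
    set w := 2 * y + b ^ ℓ with hw
    set d := 4 * c + b ^ 2 with hd
    have hwd : w ^ 2 = d ^ ℓ := by
      rw [hd, hfrobadd, mul_pow, h4pow, ← pow_mul, mul_comm 2 ℓ, pow_mul, hw]
      linear_combination 4 * hy
    -- `w` is an `ℓ`-th power
    obtain ⟨u, hu⟩ : ∃ u : F, u ^ ℓ = w := by
      by_cases hw0 : w = 0
      · exact ⟨0, by rw [hw0, zero_pow hℓ.ne_zero]⟩
      · have hd0 : d ≠ 0 := by
          intro h0
          rw [h0, zero_pow hℓ.ne_zero] at hwd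
          exact hw0 (pow_eq_zero_iff (two_ne_zero) |>.mp hwd)
        refine ⟨w / d ^ k, ?_⟩
        rw [div_pow, div_eq_iff (pow_ne_zero _ (pow_ne_zero _ hd0))]
        have e1 : w ^ ℓ = (w ^ 2) ^ k * w := by rw [hk, pow_succ, pow_mul]
        rw [e1, hwd, ← pow_mul, ← pow_mul, mul_comm ℓ k, mul_comm]
    refine ⟨(u - b) / 2, ?_⟩
    rw [div_pow, hfrob, hu, h2pow, hw]
    field_simp
    ring

section Point

variable {ℓ : ℕ} [Fact ℓ.Prime] (W : WeierstrassCurve (ZMod ℓ))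
  {F : Type*} [Field F] [Algebra (ZMod ℓ) F] [DecidableEq F]

omit [DecidableEq F] in
/-- The `ℓ`-power map fixes the image of the prime field. -/
theorem algebraMap_pow (a : ZMod ℓ) : (algebraMap (ZMod ℓ) F a) ^ ℓ = algebraMap (ZMod ℓ) F a := by
  rw [← map_pow, ZMod.pow_card]

/-- **(B)(ii)** a point of `E(F)` whose `x`-coordinate is an `ℓ`-th power (and which is not
`2`-torsion when `ℓ = 2`) is the Frobenius image of a point of `E(F)`. -/
theorem exists_frobPt_eq {x y : F} (h : (W.toAffine⁄F).Nonsingular x y)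
    (hx : ∃ s : F, s ^ ℓ = x) (h2 : ℓ = 2 → y ≠ (W.toAffine⁄F).negY x y) :
    ∃ B : (W.toAffine⁄F).Point, frobPt ℓ W F B = Affine.Point.some x y h := by
  classical
  have hℓ : ℓ.Prime := Fact.out
  have : CharP F ℓ := charP_of_injective_algebraMap (algebraMap (ZMod ℓ) F).injective ℓ
  obtain ⟨s, rfl⟩ := hx
  have heq := h.1
  rw [Affine.equation_iff] at heq
  simp only [WeierstrassCurve.baseChange, map_a₁, map_a₂, map_a₃, map_a₄, map_a₆] at heq
  set A₁ := algebraMap (ZMod ℓ) F W.a₁ with hA₁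
  set A₂ := algebraMap (ZMod ℓ) F W.a₂ with hA₂
  set A₃ := algebraMap (ZMod ℓ) F W.a₃ with hA₃
  set A₄ := algebraMap (ZMod ℓ) F W.a₄ with hA₄
  set A₆ := algebraMap (ZMod ℓ) F W.a₆ with hA₆
  have hfrobadd : ∀ a b' : F, (a + b') ^ ℓ = a ^ ℓ + b' ^ ℓ := fun a b' => add_pow_char a b' ℓ
  have hb : (A₁ * s + A₃) ^ ℓ = A₁ * s ^ ℓ + A₃ := by
    rw [hfrobadd, mul_pow, hA₁, hA₃, algebraMap_pow, algebraMap_pow]
  have hc : (s ^ 3 + A₂ * s ^ 2 + A₄ * s + A₆) ^ ℓ =
      (s ^ ℓ) ^ 3 + A₂ * (s ^ ℓ) ^ 2 + A₄ * s ^ ℓ + A₆ := by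
    rw [hfrobadd, hfrobadd, hfrobadd, mul_pow, mul_pow, hA₂, hA₄, hA₆, algebraMap_pow,
      algebraMap_pow, algebraMap_pow, ← pow_mul, ← pow_mul, ← pow_mul, ← pow_mul, mul_comm 3 ℓ,
      mul_comm 2 ℓ]
  have hquad : y ^ 2 + (A₁ * s + A₃) ^ ℓ * y = (s ^ 3 + A₂ * s ^ 2 + A₄ * s + A₆) ^ ℓ := by
    rw [hb, hc]
    linear_combination heq
  have hb2 : ℓ = 2 → A₁ * s + A₃ ≠ 0 := by
    intro hℓ2 hb0
    apply h2 hℓ2
    have h20 : (2 : F) = 0 := by
      have := CharP.cast_eq_zero F ℓ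
      rw [hℓ2] at this
      exact_mod_cast this
    rw [Affine.negY]
    simp only [WeierstrassCurve.baseChange, map_a₁, map_a₃]
    have hb' : A₁ * s ^ ℓ + A₃ = 0 := by rw [← hb, hb0, zero_pow hℓ.ne_zero]
    linear_combination y * h20 + hb'
  obtain ⟨t, ht⟩ := exists_pow_eq_of_quadratic hquad hb2
  have hcoe : ∀ z : F, FiniteField.frobeniusAlgHom (ZMod ℓ) F z = z ^ ℓ := by
    intro z
    rw [FiniteField.coe_frobeniusAlgHom, ZMod.card]
  have hns : (W.toAffine⁄F).Nonsingular s t := by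
    rw [← Affine.baseChange_nonsingular (W := W.toAffine)
      (FiniteField.frobeniusAlgHom (ZMod ℓ) F).injective s t, hcoe, hcoe]
    have : (W.toAffine⁄F).Nonsingular (s ^ ℓ) (t ^ ℓ) := by rw [ht]; exact h
    exact this
  refine ⟨Affine.Point.some s t hns, ?_⟩
  unfold frobPt
  rw [Affine.Point.map_some]
  simp only [hcoe, ht]

end Point

end Fermat.Agent.S58.FT.FrobLift
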