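/-
S58-PREP, row 373 (FT-QR + FT-COUNT), part (A): everything at the level of the points `E(K)`,
`K` algebraically closed.

* abstract lemmas on an elliptic curve `E` over an algebraically closed field:
  - `eq_zero_of_cofinite`, `false_of_cofinite_x` : the `R₁ ± R₂` trick;
  - `ker_finite_ncard_le` : an additive map `ψ` of `E(K)` whose `x`-coordinate is generically a
    rational function `a / b` of height `N ≥ 1` has at most `2 N` points in its kernel;
  - `ker_ncard_eq` : exactly `N` if `a / b` is separable (Wronskian `≠ 0`);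
* `ncard_frobPt_fixed` : the fixed points of the Frobenius of `E(K)`, `K ⊇ 𝔽_ℓ`, are the
  `𝔽_ℓ`-points: their number is `W.card`;
* `quadBar_kerBoundBar_of_data` : `QuadBar` and `KerBoundBar` from the generic data.
-/
import Mathlib
import Fermat.Agent.S58.FTInterfaces
import Fermat.Agent.Lib.ECBiquad.Main

set_option autoImplicit false

namespace Fermat.Agent.S58.KLevel

open Polynomial WeierstrassCurve
open Fermat.Agent.Lib.ECBiquad

section Group

variable {G : Type*} [AddCommGroup G] [Infinite G]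

/-- In an infinite group, a finite set of translates can be moved off a finite set. -/
theorem exists_avoid {B : Set G} (hB : B.Finite) (s : Finset G) :
    ∃ R₀ : G, ∀ z ∈ s, R₀ + z ∉ B := by
  have hfin : (⋃ z ∈ (s : Set G), (fun R => R + z) ⁻¹' B).Finite := by
    refine Set.Finite.biUnion s.finite_toSet (fun z _ => ?_)
    exact hB.preimage (add_left_injective z).injOn
  obtain ⟨R₀, hR₀⟩ := hfin.exists_notMem
  refine ⟨R₀, fun z hz hmem => hR₀ ?_⟩
  simp only [Set.mem_iUnion]
  exact ⟨z, Finset.mem_coe.mpr hz, hmem⟩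

/-- An additive map vanishing outside a finite subset of an infinite group is zero. -/
theorem eq_zero_of_cofinite {H : Type*} [AddCommGroup H] (ψ : G →+ H) {B : Set G}
    (hB : B.Finite) (h : ∀ R ∉ B, ψ R = 0) (R : G) : ψ R = 0 := by
  classical
  obtain ⟨R₁, hR₁⟩ := exists_avoid hB ({0, -R} : Finset G)
  have h1 : R₁ ∉ B := by simpa using hR₁ 0 (by simp)
  have h2 : R₁ + -R ∉ B := hR₁ (-R) (by simp)
  have e : R = R₁ - (R₁ + -R) := by abel
  rw [e, map_sub, h _ h1, h _ h2, sub_zero]

end Group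

section General

variable {K : Type*} [Field K] [IsAlgClosed K] [DecidableEq K] (E : WeierstrassCurve K)

theorem infinite_point [E.IsElliptic] : Infinite E.toAffine.Point := by
  let f : {P : E.toAffine.Point // P ≠ 0} → K := fun P => xOf E P.1
  have hf : Function.Surjective f := fun x => by
    obtain ⟨P, hP, hx⟩ := exists_point_of_x E x
    exact ⟨⟨P, hP⟩, hx⟩
  have : Infinite {P : E.toAffine.Point // P ≠ 0} := Infinite.of_surjective f hf
  exact Infinite.of_injective (fun P : {P : E.toAffine.Point // P ≠ 0} => P.1)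
    Subtype.val_injective

/-- The `R₁ ± R₂` trick: an additive map of `E(K)` cannot take, outside a finite set, only
nonzero values with a fixed `x`-coordinate. -/
theorem false_of_cofinite_x [E.IsElliptic] (ψ : E.toAffine.Point →+ E.toAffine.Point) (c : K)
    {B : Set E.toAffine.Point} (hB : B.Finite)
    (h : ∀ R ∉ B, ψ R ≠ 0 ∧ xOf E (ψ R) = c) : False := by
  classical
  have := infinite_point E
  obtain ⟨R₁, hR₁⟩ := hB.exists_notMem
  obtain ⟨R₂, hR₂⟩ := exists_avoid hB ({0, R₁, -R₁} : Finset E.toAffine.Point)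
  have h2 : R₂ ∉ B := by simpa using hR₂ 0 (by simp)
  have h3 : R₂ + R₁ ∉ B := hR₂ R₁ (by simp)
  have h4 : R₂ + -R₁ ∉ B := hR₂ (-R₁) (by simp)
  obtain ⟨n1, x1⟩ := h R₁ hR₁
  obtain ⟨n2, x2⟩ := h R₂ h2
  obtain ⟨n3, -⟩ := h _ h3
  obtain ⟨n4, -⟩ := h _ h4
  rcases eq_or_eq_neg_of_xOf_eq E n2 n1 (x2.trans x1.symm) with e | e
  · apply n4
    rw [map_add, map_neg, e, add_neg_cancel]
  · apply n3
    rw [map_add, e, neg_add_cancel]

omit [IsAlgClosed K] [DecidableEq K] in
/-- `a - c b ≠ 0` for coprime `a`, `b` of positive height. -/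
theorem sub_C_mul_ne_zero {a b : K[X]} (hab : IsCoprime a b) {N : ℕ} (hN : 1 ≤ N)
    (hdeg : max a.natDegree b.natDegree = N) (c : K) : a - C c * b ≠ 0 := by
  intro h0
  have ha : a = C c * b := sub_eq_zero.mp h0
  obtain ⟨u, v, huv⟩ := hab
  have hunit : IsUnit b := by
    refine IsUnit.of_mul_eq_one (u * C c + v) ?_
    rw [← huv, ha]; ring
  have hb0 : b.natDegree = 0 := natDegree_eq_zero_of_isUnit hunit
  have ha0 : a.natDegree = 0 := by
    have := natDegree_C_mul_le c b
    rw [← ha] at this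
    omega
  rw [ha0, hb0] at hdeg
  simp at hdeg
  omega

omit [IsAlgClosed K] [DecidableEq K] in
theorem natDegree_sub_C_mul_le {a b : K[X]} {N : ℕ}
    (hdeg : max a.natDegree b.natDegree = N) (c : K) : (a - C c * b).natDegree ≤ N := by
  have ham : a.natDegree ≤ N := hdeg ▸ le_max_left _ _
  have hbm : b.natDegree ≤ N := hdeg ▸ le_max_right _ _
  exact (natDegree_sub_le _ _).trans (max_le ham ((natDegree_C_mul_le _ _).trans hbm))

/-- **Fibre bound.** If `x (ψ R) = a (x R) / b (x R)` for all but finitely many `R`, with `a / b`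
of height `N ≥ 1`, then the kernel of `ψ` has at most `2 N` elements. -/
theorem ker_finite_ncard_le [E.IsElliptic] (ψ : E.toAffine.Point →+ E.toAffine.Point)
    {a b : K[X]} (hab : IsCoprime a b) {N : ℕ} (hN : 1 ≤ N)
    (hdeg : max a.natDegree b.natDegree = N) {B : Set E.toAffine.Point} (hB : B.Finite)
    (h : ∀ R ∉ B, R ≠ 0 → ψ R ≠ 0 ∧ b.eval (xOf E R) ≠ 0 ∧
      xOf E (ψ R) * b.eval (xOf E R) = a.eval (xOf E R)) :
    {R : E.toAffine.Point | ψ R = 0}.Finite ∧
      {R : E.toAffine.Point | ψ R = 0}.ncard ≤ 2 * N := by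
  classical
  have := infinite_point E
  have key : ∀ s : Finset E.toAffine.Point, (∀ z ∈ s, ψ z = 0) → s.card ≤ 2 * N := by
    intro s hs
    have hB' : (B ∪ {0}).Finite := hB.union (Set.finite_singleton 0)
    obtain ⟨R₀, hR₀⟩ := exists_avoid hB' s
    set c := xOf E (ψ R₀) with hc
    set g := a - C c * b with hg
    have hg0 : g ≠ 0 := sub_C_mul_ne_zero hab hN hdeg c
    have hgdeg : g.natDegree ≤ N := natDegree_sub_C_mul_le hdeg c
    have hz : ∀ z ∈ s, R₀ + z ≠ 0 ∧ g.eval (xOf E (R₀ + z)) = 0 := by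
      intro z hzs
      have hmem := hR₀ z hzs
      simp only [Set.mem_union, Set.mem_singleton_iff, not_or] at hmem
      obtain ⟨hnB, hn0⟩ := hmem
      refine ⟨hn0, ?_⟩
      obtain ⟨-, -, hval⟩ := h _ hnB hn0
      rw [map_add, hs z hzs, add_zero] at hval
      rw [hg, eval_sub, eval_mul, eval_C, hc]
      linear_combination -hval
    set f : E.toAffine.Point → K := fun z => xOf E (R₀ + z) with hf
    have himg : s.image f ⊆ g.roots.toFinset := by
      intro t ht
      obtain ⟨z, hzs, rfl⟩ := Finset.mem_image.mp ht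
      rw [Multiset.mem_toFinset, mem_roots hg0]
      exact (hz z hzs).2
    have hcard_img : (s.image f).card ≤ N :=
      (Finset.card_le_card himg).trans
        ((Multiset.toFinset_card_le _).trans ((card_roots' g).trans hgdeg))
    have hfib : ∀ t ∈ s.image f, (s.filter fun z => f z = t).card ≤ 2 := by
      intro t ht
      obtain ⟨z₁, hz₁s, rfl⟩ := Finset.mem_image.mp ht
      have hsub : (s.filter fun z => f z = f z₁) ⊆ {z₁, -(R₀ + z₁) - R₀} := by
        intro z hzf
        obtain ⟨hzs, hfz⟩ := Finset.mem_filter.mp hzf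
        simp only [Finset.mem_insert, Finset.mem_singleton]
        rcases eq_or_eq_neg_of_xOf_eq E (hz z hzs).1 (hz z₁ hz₁s).1 hfz with e | e
        · left; exact add_left_cancel e
        · right; rw [← e]; abel
      exact (Finset.card_le_card hsub).trans Finset.card_le_two
    calc s.card ≤ 2 * (s.image f).card := Finset.card_le_mul_card_image s 2 hfib
      _ ≤ 2 * N := Nat.mul_le_mul_left 2 hcard_img
  have hfin : {R : E.toAffine.Point | ψ R = 0}.Finite := by
    by_contra hinf
    obtain ⟨t, hts, htc⟩ := Set.Infinite.exists_subset_card_eq hinf (2 * N + 1)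
    have := key t (fun z hz => hts (Finset.mem_coe.mpr hz))
    omega
  refine ⟨hfin, ?_⟩
  rw [Set.ncard_eq_toFinset_card _ hfin]
  exact key _ (fun z hz => by simpa using hz)

omit [DecidableEq K] in
/-- For coprime `a`, `b` with non-vanishing Wronskian, the equation `a(x) = c b(x)` has exactly
`max (deg a) (deg b)` solutions for all but finitely many `c`.  (Variant of
`Lib.ECBiquad.exists_finite_bad_values` with the separability hypothesis stated directly.) -/
theorem exists_finite_bad_values_of_wronskian {a b : K[X]} (hab : IsCoprime a b) (hb : b ≠ 0)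
    (hWr0 : derivative a * b - a * derivative b ≠ 0) {m : ℕ}
    (hdeg : max a.natDegree b.natDegree = m) :
    ∃ S : Set K, S.Finite ∧ ∀ c ∉ S, {x₀ : K | (a - C c * b).eval x₀ = 0}.ncard = m := by
  classical
  set Wr := derivative a * b - a * derivative b with hWr
  set SB : Set K := (fun x₀ => a.eval x₀ / b.eval x₀) '' {x | Wr.IsRoot x} with hSB
  have hSBfin : SB.Finite := (Polynomial.finite_setOfPred_isRoot hWr0).image _
  set SA : Set K := {c | a.coeff m - c * b.coeff m = 0} with hSA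
  have hcoef := exists_coeff_max_ne_zero (a := a) (b := b) (fun h => hb h.2)
  rw [hdeg] at hcoef
  have hSAfin : SA.Finite := by
    apply Set.Subsingleton.finite
    intro c hc c' hc'
    simp only [hSA, Set.mem_ofPred_eq] at hc hc'
    by_cases hβ : b.coeff m = 0
    · rw [hβ, mul_zero, sub_zero] at hc
      rcases hcoef with h | h
      · exact absurd hc h
      · exact absurd hβ h
    · have : (c - c') * b.coeff m = 0 := by linear_combination hc' - hc
      exact sub_eq_zero.mp ((mul_eq_zero.mp this).resolve_right hβ)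
  refine ⟨SA ∪ SB, hSAfin.union hSBfin, ?_⟩
  intro c hc
  simp only [Set.mem_union, not_or] at hc
  obtain ⟨hcA, hcB⟩ := hc
  set g := a - C c * b with hg
  have ham : a.natDegree ≤ m := hdeg ▸ le_max_left _ _
  have hbm : b.natDegree ≤ m := hdeg ▸ le_max_right _ _
  have hgcoeff : g.coeff m ≠ 0 := by
    rw [hg, coeff_sub, coeff_C_mul]
    exact hcA
  have hg0 : g ≠ 0 := fun h => hgcoeff (by simp [h])
  have hgdeg : g.natDegree = m := by
    apply le_antisymm
    · refine (natDegree_sub_le _ _).trans (max_le ham ?_)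
      exact (natDegree_C_mul_le _ _).trans hbm
    · exact le_natDegree_of_ne_zero hgcoeff
  have hsep : g.Separable := by
    rw [separable_def]
    apply (Polynomial.isCoprime_iff_aeval_ne_zero_of_isAlgClosed K K g (derivative g)).mpr
    intro x₀
    by_contra hcon
    simp only [not_or, not_not] at hcon
    obtain ⟨e1, e2⟩ := hcon
    rw [coe_aeval_eq_eval] at e1 e2
    rw [hg, derivative_sub, derivative_C_mul] at e2
    rw [hg] at e1
    simp only [eval_sub, eval_mul, eval_C] at e1 e2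
    have hbx : b.eval x₀ ≠ 0 := by
      intro hbx
      obtain ⟨u, v, huv⟩ := hab
      have := congrArg (Polynomial.eval x₀) huv
      simp only [eval_add, eval_mul, eval_one] at this
      rw [hbx, mul_zero, sub_zero] at e1
      rw [e1, hbx] at this
      simp at this
    apply hcB
    refine ⟨x₀, ?_, ?_⟩
    · show Wr.IsRoot x₀
      rw [IsRoot, hWr]
      simp only [eval_sub, eval_mul]
      linear_combination (b.eval x₀) * e2 - (eval x₀ (derivative b)) * e1
    · show a.eval x₀ / b.eval x₀ = c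
      rw [div_eq_iff hbx]
      linear_combination e1
  have hcard := Polynomial.card_rootSet_eq_natDegree (K := K) hsep (IsAlgClosed.splits _)
  rw [hgdeg] at hcard
  have hset : {x₀ : K | g.eval x₀ = 0} = g.rootSet K := by
    ext x₀
    rw [mem_rootSet, coe_aeval_eq_eval]
    simp [hg0]
  rw [hset, ← hcard, ← Nat.card_coe_set_eq, Nat.card_eq_fintype_card]

/-- **Exact fibre count.** If `x (ψ R) = a (x R) / b (x R)` for all but finitely many `R`, with
`a / b` separable of height `N ≥ 1`, then the kernel of `ψ` has exactly `N` elements. -/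
theorem ker_ncard_eq [E.IsElliptic] (ψ : E.toAffine.Point →+ E.toAffine.Point)
    {a b : K[X]} (hab : IsCoprime a b) (hb0 : b ≠ 0) {N : ℕ} (hN : 1 ≤ N)
    (hdeg : max a.natDegree b.natDegree = N)
    (hW : derivative a * b - a * derivative b ≠ 0)
    {B : Set E.toAffine.Point} (hB : B.Finite)
    (h : ∀ R ∉ B, R ≠ 0 → ψ R ≠ 0 ∧ b.eval (xOf E R) ≠ 0 ∧
      xOf E (ψ R) * b.eval (xOf E R) = a.eval (xOf E R)) :
    {R : E.toAffine.Point | ψ R = 0}.ncard = N := by
  classical
  have hΔ : E.Δ ≠ 0 := E.isUnit_Δ.ne_zero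
  obtain ⟨S₁, hS₁, hroots⟩ := exists_finite_bad_values_of_wronskian hab hb0 hW hdeg
  set Bad : Set E.toAffine.Point := B ∪ {0} with hBaddef
  have hBad : Bad.Finite := hB.union (Set.finite_singleton 0)
  set S₂ : Set K := (fun P => xOf E (ψ P)) '' Bad with hS₂def
  set S₃ : Set K := (fun P => a.eval (xOf E P) / b.eval (xOf E P)) '' Bad with hS₃def
  set S₄ : Set K := {c | (dupDen E).IsRoot c} with hS₄def
  have hS₂ : S₂.Finite := hBad.image _
  have hS₃ : S₃.Finite := hBad.image _
  have hS₄ : S₄.Finite := Polynomial.finite_setOfPred_isRoot (dupDen_ne_zero E hΔ)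
  obtain ⟨c, hc⟩ := (((hS₁.union hS₂).union hS₃).union hS₄).exists_notMem
  simp only [Set.mem_union, not_or] at hc
  obtain ⟨⟨⟨hc₁, hc₂⟩, hc₃⟩, hc₄⟩ := hc
  have hcount := hroots c hc₁
  obtain ⟨Q, hQ0, hQx⟩ := exists_point_of_x E c
  -- `Q` is not a 2-torsion point
  have hQneg : Q ≠ -Q := by
    intro hQ
    apply hc₄
    show (dupDen E).IsRoot c
    rw [IsRoot, eval_dupDen]
    cases Q with
    | zero => exact absurd rfl hQ0
    | some x y h =>
      simp only [xOf_some] at hQx
      subst hQx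
      apply (two_nsmul_eq_zero_iff E h).mp
      nth_rewrite 2 [hQ]
      exact add_neg_cancel _
  have hgood : ∀ P : E.toAffine.Point, P ≠ 0 → P ∉ Bad →
      ψ P ≠ 0 ∧ b.eval (xOf E P) ≠ 0 ∧ xOf E (ψ P) * b.eval (xOf E P) = a.eval (xOf E P) := by
    intro P hP hPB
    refine h P (fun hPB' => hPB (Or.inl hPB')) hP
  have hbeval : ∀ x₀ : K, (a - C c * b).eval x₀ = 0 → b.eval x₀ ≠ 0 := by
    intro x₀ hx₀ hbx
    simp only [eval_sub, eval_mul, eval_C] at hx₀
    rw [hbx, mul_zero, sub_zero] at hx₀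
    obtain ⟨u, v, huv⟩ := hab
    have := congrArg (Polynomial.eval x₀) huv
    simp only [eval_add, eval_mul, eval_one] at this
    rw [hx₀, hbx] at this
    simp at this
  set A := {P : E.toAffine.Point | ψ P = Q} with hA
  have hA0 : ∀ P ∈ A, P ≠ 0 := by
    intro P hP h0
    rw [hA, Set.mem_ofPred_eq, h0, map_zero] at hP
    exact hQ0 hP.symm
  have hAnotBad : ∀ P ∈ A, P ∉ Bad := by
    intro P hP hPB
    apply hc₂
    refine ⟨P, hPB, ?_⟩
    show xOf E (ψ P) = c
    rw [show ψ P = Q from hP, hQx]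
  have himage : (xOf E) '' A = {x₀ : K | (a - C c * b).eval x₀ = 0} := by
    ext x₀
    constructor
    · rintro ⟨P, hP, rfl⟩
      obtain ⟨-, -, hval⟩ := hgood P (hA0 P hP) (hAnotBad P hP)
      rw [show ψ P = Q from hP, hQx] at hval
      show (a - C c * b).eval (xOf E P) = 0
      simp only [eval_sub, eval_mul, eval_C]
      linear_combination -hval
    · intro hx₀
      have hx₀' : (a - C c * b).eval x₀ = 0 := hx₀
      have hbx := hbeval x₀ hx₀'
      have hcval : a.eval x₀ / b.eval x₀ = c := by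
        simp only [eval_sub, eval_mul, eval_C] at hx₀'
        rw [div_eq_iff hbx]
        linear_combination hx₀'
      obtain ⟨P, hP0, hPx⟩ := exists_point_of_x E x₀
      have hPB : P ∉ Bad := by
        intro hPB
        apply hc₃
        refine ⟨P, hPB, ?_⟩
        show a.eval (xOf E P) / b.eval (xOf E P) = c
        rw [hPx, hcval]
      obtain ⟨hnP, hbP, hs⟩ := hgood P hP0 hPB
      have hxn : xOf E (ψ P) = xOf E Q := by
        rw [hQx, ← hcval, ← hPx, eq_div_iff hbP, hs]
      rcases eq_or_eq_neg_of_xOf_eq E hnP hQ0 hxn with h | h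
      · exact ⟨P, h, hPx⟩
      · refine ⟨-P, ?_, by rw [xOf_neg, hPx]⟩
        show ψ (-P) = Q
        rw [map_neg, h, neg_neg]
  have hinj : Set.InjOn (xOf E) A := by
    intro P hP P' hP' hx
    rcases eq_or_eq_neg_of_xOf_eq E (hA0 P hP) (hA0 P' hP') hx with h | h
    · exact h
    · exfalso
      apply hQneg
      have h1 : ψ P = Q := hP
      have h2 : ψ P' = Q := hP'
      rw [h, map_neg, h2] at h1
      exact h1.symm
  have hAcard : A.ncard = N := by
    rw [← hinj.ncard_image, himage, hcount]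
  -- `A` is a coset of the kernel
  have hAne : A.Nonempty := by
    by_contra hne
    rw [Set.not_nonempty_iff_eq_empty] at hne
    rw [hne, Set.ncard_empty] at hAcard
    omega
  obtain ⟨P₀, hP₀⟩ := hAne
  have hcoset : A = (fun T => P₀ + T) '' {P : E.toAffine.Point | ψ P = 0} := by
    ext P
    constructor
    · intro hP
      refine ⟨P - P₀, ?_, by simp⟩
      show ψ (P - P₀) = 0
      rw [map_sub, show ψ P = Q from hP, show ψ P₀ = Q from hP₀, sub_self]
    · rintro ⟨T, hT, rfl⟩
      show ψ (P₀ + T) = Q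
      rw [map_add, show ψ T = 0 from hT, add_zero]
      exact hP₀
  rw [← hAcard, hcoset, Set.ncard_image_of_injective _ (add_right_injective P₀)]

end General

section Frob

open WeierstrassCurve.Affine

variable (ℓ : ℕ) [Fact ℓ.Prime] (W : WeierstrassCurve (ZMod ℓ))
  (K : Type*) [Field K] [Algebra (ZMod ℓ) K] [DecidableEq K]

omit [DecidableEq K] in
theorem frob_apply (z : K) : FiniteField.frobeniusAlgHom (ZMod ℓ) K z = z ^ ℓ := by
  rw [FiniteField.coe_frobeniusAlgHom, ZMod.card]

omit [DecidableEq K] in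
/-- The fixed points of `z ↦ z ^ ℓ` in a field `K ⊇ 𝔽_ℓ` are the elements of `𝔽_ℓ`. -/
theorem mem_range_of_pow_eq_self {z : K} (hz : z ^ ℓ = z) :
    z ∈ Set.range (algebraMap (ZMod ℓ) K) := by
  classical
  have hℓ : 1 < ℓ := (Fact.out : ℓ.Prime).one_lt
  set p : K[X] := X ^ ℓ - X with hp
  have hp0 : p ≠ 0 := FiniteField.X_pow_card_sub_X_ne_zero K hℓ
  have hpdeg : p.natDegree = ℓ := FiniteField.X_pow_card_sub_X_natDegree_eq K hℓ
  set S : Finset K := Finset.univ.image (algebraMap (ZMod ℓ) K) with hS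
  have hScard : S.card = ℓ := by
    rw [hS, Finset.card_image_of_injective _ (algebraMap (ZMod ℓ) K).injective, Finset.card_univ,
      ZMod.card]
  have hsub : S ⊆ p.roots.toFinset := by
    intro t ht
    obtain ⟨c, -, rfl⟩ := Finset.mem_image.mp ht
    rw [Multiset.mem_toFinset, mem_roots hp0, IsRoot, hp]
    simp only [eval_sub, eval_pow, eval_X]
    rw [← map_pow, ZMod.pow_card, sub_self]
  have hle : p.roots.toFinset.card ≤ S.card := by
    rw [hScard, ← hpdeg]
    exact (Multiset.toFinset_card_le _).trans (card_roots' p)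
  have heq := Finset.eq_of_subset_of_card_le hsub hle
  have hzmem : z ∈ p.roots.toFinset := by
    rw [Multiset.mem_toFinset, mem_roots hp0, IsRoot, hp]
    simp only [eval_sub, eval_pow, eval_X]
    rw [hz, sub_self]
  rw [← heq] at hzmem
  obtain ⟨c, -, rfl⟩ := Finset.mem_image.mp hzmem
  exact ⟨c, rfl⟩

theorem frobPt_some {x y : K} (h : (W.toAffine⁄K).Nonsingular x y) :
    ∃ h' : (W.toAffine⁄K).Nonsingular (x ^ ℓ) (y ^ ℓ),
      frobPt ℓ W K (Point.some x y h) = Point.some (x ^ ℓ) (y ^ ℓ) h' := by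
  have hx := frob_apply ℓ K x
  have hy := frob_apply ℓ K y
  have h1 : (W.toAffine⁄K).Nonsingular (FiniteField.frobeniusAlgHom (ZMod ℓ) K x)
      (FiniteField.frobeniusAlgHom (ZMod ℓ) K y) :=
    (W.toAffine.baseChange_nonsingular (FiniteField.frobeniusAlgHom (ZMod ℓ) K).injective ..).mpr h
  have h2 : frobPt ℓ W K (Point.some x y h) = Point.some _ _ h1 := rfl
  rw [h2]
  rw [hx, hy] at h1
  refine ⟨h1, ?_⟩
  congr 1

omit [DecidableEq K] in
theorem nonsingular_incl {x y : ZMod ℓ} (h : W.toAffine.Nonsingular x y) :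
    (W.toAffine⁄K).Nonsingular (algebraMap (ZMod ℓ) K x) (algebraMap (ZMod ℓ) K y) :=
  (W.toAffine.map_nonsingular (algebraMap (ZMod ℓ) K).injective x y).mpr h

omit [DecidableEq K] in
theorem nonsingular_of_incl {x y : ZMod ℓ}
    (h : (W.toAffine⁄K).Nonsingular (algebraMap (ZMod ℓ) K x) (algebraMap (ZMod ℓ) K y)) :
    W.toAffine.Nonsingular x y :=
  (W.toAffine.map_nonsingular (algebraMap (ZMod ℓ) K).injective x y).mp h

/-- The base change of points from `𝔽_ℓ` to `K`. -/
noncomputable def ptIncl : W.toAffine.Point → (W.toAffine⁄K).Point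
  | .zero => 0
  | .some x y h => Point.some (algebraMap (ZMod ℓ) K x) (algebraMap (ZMod ℓ) K y)
      (nonsingular_incl ℓ W K h)

omit [DecidableEq K] in
theorem ptIncl_some {x y : ZMod ℓ} (h : W.toAffine.Nonsingular x y) :
    ptIncl ℓ W K (Point.some x y h) = Point.some (algebraMap (ZMod ℓ) K x)
      (algebraMap (ZMod ℓ) K y) (nonsingular_incl ℓ W K h) := rfl

omit [DecidableEq K] in
theorem ptIncl_injective : Function.Injective (ptIncl ℓ W K) := by
  rintro (_ | ⟨x₁, y₁, h₁⟩) (_ | ⟨x₂, y₂, h₂⟩) h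
  · rfl
  · exact absurd h.symm (Point.some_ne_zero _)
  · exact absurd h (Point.some_ne_zero _)
  · rw [ptIncl_some, ptIncl_some] at h
    obtain ⟨e1, e2⟩ := Point.some.inj h
    have e1' := (algebraMap (ZMod ℓ) K).injective e1
    have e2' := (algebraMap (ZMod ℓ) K).injective e2
    subst e1' e2'
    rfl

theorem range_ptIncl :
    Set.range (ptIncl ℓ W K) = {R : (W.toAffine⁄K).Point | frobPt ℓ W K R = R} := by
  ext R
  constructor
  · rintro ⟨P, rfl⟩
    cases P with
    | zero => exact map_zero _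
    | some x y h =>
      show frobPt ℓ W K (ptIncl ℓ W K (Point.some x y h)) = ptIncl ℓ W K (Point.some x y h)
      rw [ptIncl_some]
      obtain ⟨h', e⟩ := frobPt_some ℓ W K (nonsingular_incl ℓ W K h)
      rw [e]
      have e1 : (algebraMap (ZMod ℓ) K x) ^ ℓ = algebraMap (ZMod ℓ) K x := by
        rw [← map_pow, ZMod.pow_card]
      have e2 : (algebraMap (ZMod ℓ) K y) ^ ℓ = algebraMap (ZMod ℓ) K y := by
        rw [← map_pow, ZMod.pow_card]
      congr 1
  · intro hR
    cases R with
    | zero => exact ⟨0, rfl⟩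
    | some x y h =>
      have hR' : frobPt ℓ W K (Point.some x y h) = Point.some x y h := hR
      obtain ⟨h', e⟩ := frobPt_some ℓ W K h
      rw [e] at hR'
      obtain ⟨hx, hy⟩ := Point.some.inj hR'
      obtain ⟨x₀, rfl⟩ := mem_range_of_pow_eq_self ℓ K hx
      obtain ⟨y₀, rfl⟩ := mem_range_of_pow_eq_self ℓ K hy
      exact ⟨Point.some x₀ y₀ (nonsingular_of_incl ℓ W K h), rfl⟩

/-- The number of fixed points of the Frobenius of `E(K)` is `#E(𝔽_ℓ)`. -/
theorem ncard_frobPt_fixed :
    {R : (W.toAffine⁄K).Point | frobPt ℓ W K R = R}.ncard = W.card := by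
  rw [← range_ptIncl, ← Nat.card_coe_set_eq,
    Nat.card_range_of_injective (ptIncl_injective ℓ W K)]
  rfl

end Frob

section Main

open WeierstrassCurve.Affine

/-- `m² - t m + ℓ ≥ 1` for `ℓ` prime and `t² ≤ 4 ℓ`. -/
theorem one_le_quad {ℓ : ℕ} (hℓ : ℓ.Prime) {tr : ℤ} (htr : tr ^ 2 ≤ 4 * (ℓ : ℤ)) (m : ℤ) :
    1 ≤ m ^ 2 - tr * m + ℓ := by
  by_contra hcon
  have h1 : m ^ 2 - tr * m + ℓ ≤ 0 := by omega
  have h2 : (2 * m - tr) ^ 2 + (4 * (ℓ : ℤ) - tr ^ 2) ≤ 0 := by nlinarith
  have h3 : (2 * m - tr) ^ 2 = 0 := by nlinarith [sq_nonneg (2 * m - tr)]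
  have h4 : tr = 2 * m := by
    have := pow_eq_zero_iff (two_ne_zero) |>.mp h3
    omega
  have h5 : (ℓ : ℤ) = m ^ 2 := by
    subst h4
    nlinarith
  have h6 : (ℓ : ℤ) = (m.natAbs : ℤ) ^ 2 := by
    rw [h5, Int.natCast_natAbs, sq_abs]
  have h7 : ℓ = m.natAbs ^ 2 := by exact_mod_cast h6
  have h8 : m.natAbs ∣ ℓ := ⟨m.natAbs, by rw [h7]; ring⟩
  rcases (Nat.dvd_prime hℓ).mp h8 with h9 | h9
  · rw [h9] at h7
    have := hℓ.one_lt
    omega
  · rw [h9] at h7
    have := hℓ.one_lt
    nlinarith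

variable (ℓ : ℕ) [Fact ℓ.Prime] (W : WeierstrassCurve (ZMod ℓ))
  (K : Type*) [Field K] [Algebra (ZMod ℓ) K] [DecidableEq K] [IsAlgClosed K]

omit [DecidableEq K] [IsAlgClosed K] in
theorem isElliptic_baseChange (hΔ : W.Δ ≠ 0) : (W.baseChange K).IsElliptic := by
  refine ⟨isUnit_iff_ne_zero.mpr ?_⟩
  rw [WeierstrassCurve.baseChange, WeierstrassCurve.map_Δ]
  exact (map_ne_zero_iff _ (algebraMap (ZMod ℓ) K).injective).mpr hΔ

/-- **(QR-bar) and (KB-bar) from the generic data.**  `tr` is the trace of the degree package,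
`hΞ` is the specialisation of `Ξ = (φ² - tr φ + ℓ) P₀` (which is `0` or has a constant
`x`-coordinate), `hm` is the specialisation of `(φ - m) P₀` (whose `x`-coordinate is `a / b`, of
height `m² - tr m + ℓ`, separable for `m = 1`). -/
theorem quadBar_kerBoundBar_of_data (hΔ : W.Δ ≠ 0) (tr : ℤ) (htr : tr ^ 2 ≤ 4 * (ℓ : ℤ))
    (hΞ : (∃ B : Set (W.toAffine⁄K).Point, B.Finite ∧ ∀ R ∉ B,
        frobPt ℓ W K (frobPt ℓ W K R) - tr • frobPt ℓ W K R + (ℓ : ℤ) • R = 0) ∨
      (∃ (c : K) (B : Set (W.toAffine⁄K).Point), B.Finite ∧ ∀ R ∉ B,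
        frobPt ℓ W K (frobPt ℓ W K R) - tr • frobPt ℓ W K R + (ℓ : ℤ) • R ≠ 0 ∧
        xOf (W.baseChange K)
          (frobPt ℓ W K (frobPt ℓ W K R) - tr • frobPt ℓ W K R + (ℓ : ℤ) • R) = c))
    (hm : ∀ m : ℤ, ∃ (a b : K[X]) (B : Set (W.toAffine⁄K).Point), IsCoprime a b ∧ b ≠ 0 ∧
      ((max a.natDegree b.natDegree : ℕ) : ℤ) = m ^ 2 - tr * m + ℓ ∧ B.Finite ∧
      (m = 1 → derivative a * b - a * derivative b ≠ 0) ∧
      ∀ R ∉ B, R ≠ 0 → frobPt ℓ W K R - m • R ≠ 0 ∧ b.eval (xOf (W.baseChange K) R) ≠ 0 ∧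
        xOf (W.baseChange K) (frobPt ℓ W K R - m • R) * b.eval (xOf (W.baseChange K) R) =
          a.eval (xOf (W.baseChange K) R)) :
    W.traceOfFrobenius = tr ∧ QuadBar ℓ W K ∧ KerBoundBar ℓ W K := by
  classical
  have hℓ : ℓ.Prime := Fact.out
  have hE : (W.baseChange K).IsElliptic := isElliptic_baseChange ℓ W K hΔ
  have hinf : Infinite (W.baseChange K).toAffine.Point := infinite_point (W.baseChange K)
  -- the maps `φ - m`
  set ψ : ℤ → (W.toAffine⁄K).Point →+ (W.toAffine⁄K).Point :=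
    fun m => frobPt ℓ W K - smulAddHom ℤ _ m with hψ
  have hψa : ∀ m R, ψ m R = frobPt ℓ W K R - m • R := fun m R => rfl
  have hker : ∀ m : ℤ, {R : (W.toAffine⁄K).Point | frobPt ℓ W K R = m • R} =
      {R : (W.toAffine⁄K).Point | ψ m R = 0} := by
    intro m
    ext R
    simp only [Set.mem_ofPred_eq, hψa, sub_eq_zero]
  -- the bound for every `m`
  have hKB : ∀ m : ℤ, {R : (W.toAffine⁄K).Point | frobPt ℓ W K R = m • R}.Finite ∧
      (({R : (W.toAffine⁄K).Point | frobPt ℓ W K R = m • R}.ncard : ℤ) ≤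
        2 * (m ^ 2 - tr * m + ℓ)) := by
    intro m
    obtain ⟨a, b, B, hab, hb, hdeg, hB, -, hspec⟩ := hm m
    have hN := one_le_quad hℓ htr m
    rw [← hdeg] at hN ⊢
    have hN' : 1 ≤ max a.natDegree b.natDegree := by exact_mod_cast hN
    obtain ⟨hfin, hcard⟩ := ker_finite_ncard_le (W.baseChange K) (ψ m) hab hN' rfl hB
      (fun R hR hR0 => hspec R hR hR0)
    rw [hker m]
    exact ⟨hfin, by exact_mod_cast hcard⟩
  -- the count for `m = 1`
  have htrace : W.traceOfFrobenius = tr := by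
    obtain ⟨a, b, B, hab, hb, hdeg, hB, hsep, hspec⟩ := hm 1
    have hN := one_le_quad hℓ htr 1
    rw [← hdeg] at hN
    have hN' : 1 ≤ max a.natDegree b.natDegree := by exact_mod_cast hN
    have hcount := ker_ncard_eq (W.baseChange K) (ψ 1) hab hb hN' rfl (hsep rfl) hB
      (fun R hR hR0 => hspec R hR hR0)
    have hfix : {R : (W.toAffine⁄K).Point | ψ 1 R = 0} =
        {R : (W.toAffine⁄K).Point | frobPt ℓ W K R = R} := by
      rw [← hker 1]
      ext R
      simp only [Set.mem_ofPred_eq, one_smul]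
    rw [hfix, ncard_frobPt_fixed] at hcount
    unfold WeierstrassCurve.traceOfFrobenius
    rw [Nat.card_zmod, hcount, hdeg]
    ring
  refine ⟨htrace, ?_, ?_⟩
  · -- (QR-bar)
    unfold QuadBar
    rw [htrace]
    set ψ' : (W.toAffine⁄K).Point →+ (W.toAffine⁄K).Point :=
      (frobPt ℓ W K).comp (frobPt ℓ W K) - (smulAddHom ℤ _ tr).comp (frobPt ℓ W K) +
        smulAddHom ℤ _ (ℓ : ℤ) with hψ'
    have hψ'a : ∀ R, ψ' R =
        frobPt ℓ W K (frobPt ℓ W K R) - tr • frobPt ℓ W K R + (ℓ : ℤ) • R := fun R => rfl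
    intro R
    rw [← hψ'a]
    rcases hΞ with ⟨B, hB, h0⟩ | ⟨c, B, hB, hc⟩
    · exact eq_zero_of_cofinite ψ' hB (fun R hR => by rw [hψ'a]; exact h0 R hR) R
    · exact (false_of_cofinite_x (W.baseChange K) ψ' c hB
        (fun R hR => by rw [hψ'a]; exact hc R hR)).elim
  · -- (KB-bar)
    unfold KerBoundBar
    rw [htrace]
    exact hKB

end Main

end Fermat.Agent.S58.KLevel
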