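/-
S58-PREP, row 373 (FT-QR + FT-COUNT), part (C1): `QuadBar` and `KerBoundBar` from an abstract
"generic" package (FT-GEN / FT-COMP: a subgroup `Λ` of `E(F)` with a degree `d`) and an abstract
"specialisation" package (FT-SPEC: a family of places `S R` of `F` with values in `K`).

Nothing here depends on how `F`, `Λ`, `d` or the places are constructed.
-/
import Mathlib
import Fermat.Agent.S58.FTInterfaces
import Fermat.Agent.S58.FT.KLevel
import Fermat.Agent.S58.FT.Sep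
import Fermat.Agent.S58.FT.Alg
import Fermat.Agent.S58.FT.FrobLift
import Fermat.Agent.S58.FT.GenB.Par

set_option autoImplicit false

namespace Fermat.Agent.S58.QC

open Polynomial WeierstrassCurve
open Fermat.Agent.Lib.ECBiquad
open scoped WeierstrassCurve.Affine

section Place

/-- A "place" of `F` with values in `K`, as a relation. -/
structure IsPlace (k : Type*) {F K : Type*} [Field k] [Field F] [Field K] [Algebra k F]
    [Algebra k K] (S : F → K → Prop) : Prop where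
  uniq : ∀ {z : F} {v v' : K}, S z v → S z v' → v = v'
  const : ∀ c : k, S (algebraMap k F c) (algebraMap k K c)
  add : ∀ {z z' : F} {v v' : K}, S z v → S z' v' → S (z + z') (v + v')
  mul : ∀ {z z' : F} {v v' : K}, S z v → S z' v' → S (z * z') (v * v')
  inv : ∀ {z : F} {v : K}, S z v → v ≠ 0 → S z⁻¹ v⁻¹

variable {k F K : Type*} [Field k] [Field F] [Field K] [Algebra k F] [Algebra k K]

theorem IsPlace.aeval {S : F → K → Prop} (hS : IsPlace k S) {t : F} {x₀ : K} (ht : S t x₀)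
    (p : k[X]) : S (Polynomial.aeval t p) (Polynomial.aeval x₀ p) := by
  induction p using Polynomial.induction_on with
  | C a =>
    rw [aeval_C, aeval_C]
    exact hS.const a
  | add p q hp hq =>
    rw [map_add, map_add]
    exact hS.add hp hq
  | monomial n a h =>
    rw [pow_succ, ← mul_assoc, map_mul, map_mul (Polynomial.aeval x₀), aeval_X, aeval_X]
    exact hS.mul h ht

omit [Field K] [Algebra k K] in
theorem map_algebraMap_eq_aeval (j : RatFunc k →+* F)
    (hjC : ∀ c : k, j (RatFunc.C c) = algebraMap k F c) (p : k[X]) :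
    j (algebraMap k[X] (RatFunc k) p) = Polynomial.aeval (j RatFunc.X) p := by
  induction p using Polynomial.induction_on with
  | C a => rw [RatFunc.algebraMap_C, hjC, aeval_C]
  | add p q hp hq => rw [map_add, map_add, hp, hq, map_add]
  | monomial n a h =>
    rw [pow_succ, ← mul_assoc, map_mul, map_mul j, h, RatFunc.algebraMap_X]
    simp only [map_mul, aeval_X]

theorem IsPlace.ratFunc {S : F → K → Prop} (hS : IsPlace k S) (j : RatFunc k →+* F)
    (hjC : ∀ c : k, j (RatFunc.C c) = algebraMap k F c) {x₀ : K} (ht : S (j RatFunc.X) x₀)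
    (r : RatFunc k) (hden : (r.denom.map (algebraMap k K)).eval x₀ ≠ 0) :
    S (j r) ((r.num.map (algebraMap k K)).eval x₀ / (r.denom.map (algebraMap k K)).eval x₀) := by
  have e : j r = j (algebraMap _ _ r.num) * (j (algebraMap _ _ r.denom))⁻¹ := by
    conv_lhs => rw [← RatFunc.num_div_denom r]
    rw [map_div₀, div_eq_mul_inv]
  rw [eval_map_algebraMap] at hden
  rw [e, map_algebraMap_eq_aeval j hjC, map_algebraMap_eq_aeval j hjC, div_eq_mul_inv,
    eval_map_algebraMap, eval_map_algebraMap]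
  exact hS.mul (hS.aeval ht _) (hS.inv (hS.aeval ht _) hden)

end Place

section Pt

theorem exists_some_of_ne_zero {K : Type*} [Field K] {E : WeierstrassCurve.Affine K}
    {A : E.Point} (hA : A ≠ 0) :
    ∃ (x y : K) (h : E.Nonsingular x y), A = WeierstrassCurve.Affine.Point.some x y h := by
  cases A with
  | zero => exact absurd rfl hA
  | some x y h => exact ⟨x, y, h, rfl⟩

end Pt

section Words

variable {M : Type*} [AddCommGroup M]

theorem word_sub (m : ℤ) (P P' P'' : M) :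
    (-m) • P + (1 : ℤ) • P' + (0 : ℤ) • P'' = P' - m • P := by
  rw [neg_smul, one_smul, zero_smul, add_zero]; abel

theorem word_quad (l tr : ℤ) (P P' P'' : M) :
    l • P + (-tr) • P' + (1 : ℤ) • P'' = P'' - tr • P' + l • P := by
  rw [neg_smul, one_smul]; abel

end Words

section Main

open WeierstrassCurve.Affine

variable (ℓ : ℕ) [Fact ℓ.Prime] (W : WeierstrassCurve (ZMod ℓ))
  (K : Type*) [Field K] [Algebra (ZMod ℓ) K] [DecidableEq K]
  (F : Type) [Field F] [Algebra (ZMod ℓ) F] [DecidableEq F]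

/-- Specialisation of the `x`-coordinate of a point. -/
def XSpec (S : F → K → Prop) (A : (W.toAffine⁄F).Point) (Q : (W.toAffine⁄K).Point) : Prop :=
  (A = 0 ∧ Q = 0) ∨ (A ≠ 0 ∧ Q ≠ 0 ∧ S (xOf (W.toAffine⁄F) A) (xOf (W.toAffine⁄K) Q))


variable [IsAlgClosed K]

/-- **(QR-bar) and (KB-bar) from the generic package and the specialisation package.** -/
theorem quadBar_kerBoundBar_of_gen_spec (hΔ : W.Δ ≠ 0)
    -- the generic package
    (j : RatFunc (ZMod ℓ) →+* F) (hjC : ∀ c, j (RatFunc.C c) = algebraMap (ZMod ℓ) F c)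
    (Λ : AddSubgroup (W.toAffine⁄F).Point) (d : (W.toAffine⁄F).Point → ℤ)
    (P₀ : (W.toAffine⁄F).Point) (hP₀ : P₀ ∈ Λ)
    (hφ : ∀ A ∈ Λ, frobPt ℓ W F A ∈ Λ) (hφinv : ∀ C, frobPt ℓ W F C ∈ Λ → C ∈ Λ)
    (hx : ∀ A ∈ Λ, A ≠ 0 → ∃ r : RatFunc (ZMod ℓ),
      xOf (W.toAffine⁄F) A = j r ∧ d A = (ht r : ℤ))
    (d0 : d 0 = 0)
    (dpar : ∀ A ∈ Λ, ∀ B ∈ Λ, d (A + B) + d (A - B) = 2 * d A + 2 * d B)
    (dφ : ∀ A ∈ Λ, d (frobPt ℓ W F A) = ℓ * d A)
    (dP₀ : d P₀ = 1)
    (dcomp : d (frobPt ℓ W F (frobPt ℓ W F P₀ + P₀) + (frobPt ℓ W F P₀ + P₀)) =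
      d (frobPt ℓ W F P₀ + P₀) ^ 2)
    -- the specialisation package
    (S : (W.toAffine⁄K).Point → F → K → Prop)
    (hS : ∀ R, R ≠ 0 → IsPlace (ZMod ℓ) (S R))
    (hgen : ∀ R, R ≠ 0 → S R (j RatFunc.X) (xOf (W.toAffine⁄K) R))
    (hexp : ∀ n₀ n₁ n₂ : ℤ, ∃ B : Set (W.toAffine⁄K).Point, B.Finite ∧ ∀ R ∉ B,
      XSpec ℓ W K F (S R)
        (n₀ • P₀ + n₁ • frobPt ℓ W F P₀ + n₂ • frobPt ℓ W F (frobPt ℓ W F P₀))
        (n₀ • R + n₁ • frobPt ℓ W K R + n₂ • frobPt ℓ W K (frobPt ℓ W K R))) :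
    QuadBar ℓ W K ∧ KerBoundBar ℓ W K := by
  classical
  have hℓ : ℓ.Prime := Fact.out
  set i : ZMod ℓ →+* K := algebraMap (ZMod ℓ) K with hi
  -- the degree package
  have dnn : ∀ A ∈ Λ, 0 ≤ d A := by
    intro A hA
    by_cases hA0 : A = 0
    · rw [hA0, d0]
    · obtain ⟨r, -, hr⟩ := hx A hA hA0
      rw [hr]; positivity
  let φΛ : Λ →+ Λ := ((frobPt ℓ W F).comp Λ.subtype).codRestrict Λ (fun A => hφ A A.2)
  let D : DegData ℓ :=
    { G := Λ
      d := fun A => d A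
      P0 := ⟨P₀, hP₀⟩
      φ := φΛ
      d_nonneg := fun A => dnn A A.2
      d_zero := d0
      par := fun A B => dpar A A.2 B B.2
      d_P0 := dP₀
      d_φ := fun A => dφ A A.2
      d_comp := dcomp }
  obtain ⟨h1, h2, h3⟩ := Alg.degAlgebra ℓ D
  set tr : ℤ := D.tr with htr
  -- the points `Ξ` and `A_m`
  have hΞmem : frobPt ℓ W F (frobPt ℓ W F P₀) - tr • frobPt ℓ W F P₀ + (ℓ : ℤ) • P₀ ∈ Λ :=
    (D.φ (D.φ D.P0) - D.tr • D.φ D.P0 + (ℓ : ℤ) • D.P0).2
  have hΞd : d (frobPt ℓ W F (frobPt ℓ W F P₀) - tr • frobPt ℓ W F P₀ + (ℓ : ℤ) • P₀) = 0 := h1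
  have hAmem : ∀ m : ℤ, frobPt ℓ W F P₀ - m • P₀ ∈ Λ := fun m => (D.φ D.P0 - m • D.P0).2
  have hAd : ∀ m : ℤ, d (frobPt ℓ W F P₀ - m • P₀) = m ^ 2 - tr * m + ℓ := h2
  have hquad : ∀ m : ℤ, 1 ≤ m ^ 2 - tr * m + ℓ := KLevel.one_le_quad hℓ h3
  have hA0 : ∀ m : ℤ, frobPt ℓ W F P₀ - m • P₀ ≠ 0 := by
    intro m h0
    have := hAd m
    rw [h0, d0] at this
    have := hquad m
    omega
  refine (KLevel.quadBar_kerBoundBar_of_data ℓ W K hΔ tr h3 ?_ ?_).2
  · -- the point `Ξ`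
    obtain ⟨B, hB, hspec⟩ := hexp (ℓ : ℤ) (-tr) 1
    by_cases hΞ0 : frobPt ℓ W F (frobPt ℓ W F P₀) - tr • frobPt ℓ W F P₀ + (ℓ : ℤ) • P₀ = 0
    · left
      refine ⟨B, hB, fun R hR => ?_⟩
      have := hspec R hR
      rw [word_quad, word_quad] at this
      rcases this with ⟨-, hQ⟩ | ⟨hA, -⟩
      · exact hQ
      · exact absurd hΞ0 hA
    · right
      obtain ⟨r, hxr, hdr⟩ := hx _ hΞmem hΞ0
      rw [hΞd] at hdr
      obtain ⟨c, rfl⟩ := (FT.GenB.ht_eq_zero_iff r).mp (by exact_mod_cast hdr.symm)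
      rw [hjC] at hxr
      refine ⟨i c, B ∪ {0}, hB.union (Set.finite_singleton 0), fun R hR => ?_⟩
      simp only [Set.mem_union, Set.mem_singleton_iff, not_or] at hR
      obtain ⟨hRB, hR0⟩ := hR
      have := hspec R hRB
      rw [word_quad, word_quad] at this
      rcases this with ⟨hA, -⟩ | ⟨-, hQ, hSx⟩
      · exact absurd hA hΞ0
      · refine ⟨hQ, ?_⟩
        rw [hxr] at hSx
        exact (hS R hR0).uniq hSx ((hS R hR0).const c)
  · -- the points `A_m`
    intro m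
    obtain ⟨B, hB, hspec⟩ := hexp (-m) 1 0
    obtain ⟨r, hxr, hdr⟩ := hx _ (hAmem m) (hA0 m)
    obtain ⟨hcop, hb0, hdeg, hW⟩ := Sep.map_num_denom i r
    have hfin : {R : (W.toAffine⁄K).Point | R ≠ 0 ∧
        (r.denom.map i).eval (xOf (W.toAffine⁄K) R) = 0}.Finite :=
      finite_xOf_root (W.toAffine⁄K) hb0
    refine ⟨r.num.map i, r.denom.map i, B ∪ {R : (W.toAffine⁄K).Point | R ≠ 0 ∧
        (r.denom.map i).eval (xOf (W.toAffine⁄K) R) = 0}, hcop, hb0, ?_, hB.union hfin, ?_, ?_⟩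
    · rw [hdeg, ← hdr, hAd m]
    · -- separability for `m = 1`
      rintro rfl
      apply Sep.wronskian_map_ne_zero i r
      intro hW0
      obtain ⟨s, hs⟩ := Sep.exists_pow_eq_of_wronskian_eq_zero r hW0
      obtain ⟨x, y, h, hA⟩ := exists_some_of_ne_zero (hA0 1)
      have hxs : (j s) ^ ℓ = x := by
        rw [← map_pow, hs, ← hxr, hA]; rfl
      have hd1 : 1 ≤ d (frobPt ℓ W F P₀ - (1 : ℤ) • P₀) := by
        rw [hAd 1]; exact hquad 1
      have h2' : ℓ = 2 → y ≠ (W.toAffine⁄F).negY x y := by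
        intro _ hy
        have hdbl : frobPt ℓ W F P₀ - (1 : ℤ) • P₀ + (frobPt ℓ W F P₀ - (1 : ℤ) • P₀) = 0 := by
          rw [hA]; exact Point.add_self_of_Y_eq hy
        have := dpar _ (hAmem 1) _ (hAmem 1)
        rw [hdbl, sub_self, d0] at this
        omega
      obtain ⟨Bp, hBp⟩ := FT.FrobLift.exists_frobPt_eq W h ⟨j s, hxs⟩ h2'
      have hC : frobPt ℓ W F (P₀ - Bp) = P₀ := by
        rw [map_sub, hBp, ← hA, one_smul]; abel
      have hCmem : P₀ - Bp ∈ Λ := hφinv _ (by rw [hC]; exact hP₀)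
      have := dφ _ hCmem
      rw [hC, dP₀] at this
      have hℓ2 := hℓ.two_le
      rcases Int.eq_one_or_neg_one_of_mul_eq_one this.symm with h' | h' <;> omega
    · intro R hR hR0
      simp only [Set.mem_union, Set.mem_ofPred_eq, not_or, not_and] at hR
      obtain ⟨hRB, hden⟩ := hR
      have hden' := hden hR0
      have := hspec R hRB
      rw [word_sub, word_sub] at this
      rcases this with ⟨hA, -⟩ | ⟨-, hQ, hSx⟩
      · exact absurd hA (hA0 m)
      · refine ⟨hQ, hden', ?_⟩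
        rw [hxr] at hSx
        have hrat := (hS R hR0).ratFunc j hjC (hgen R hR0) r hden'
        rw [(hS R hR0).uniq hSx hrat]
        exact div_mul_cancel₀ _ hden'

end Main

end Fermat.Agent.S58.QC
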