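/-
S58-PREP row 372 (S58-4, FT-SPEC; helper42): specialisation of points over the function field of
a Weierstrass curve `W` over `k` to points over an extension field `K ⊇ k`.

* `SpecAt W h z v` : the function `z ∈ FF W` is defined at the point `(x₀, y₀)` (`h` its equation)
  with value `v`;
* `SpecF W z R v` : the same for a point `R` of `E(K)` (false at the point at infinity);
* `PtSpec W A R Q` : the point `A ∈ E(FF W)` specialises at `R` to the point `Q ∈ E(K)`;
* `specSubgroup W K` : the subgroup of pairs `(A, ψ)` such that `A` specialises at `R` to `ψ R`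
  for all but finitely many `R`;
* `exists_finite_spec` : the export for words `n₀ P₀ + n₁ φ P₀ + n₂ φ² P₀` in the Frobenius.
-/
import Mathlib
import Fermat.Agent.S58.FTInterfaces
import Fermat.Agent.Lib.ECHeight.Generic
import Fermat.Agent.Lib.ECBiquad.Generic

set_option autoImplicit false

noncomputable section

namespace Fermat.Agent.S58.Spec

open WeierstrassCurve Polynomial
open scoped WeierstrassCurve.Affine Polynomial.Bivariate
open Fermat.Agent.Lib.ECHeight (FF xg yg evalCoord evalCoord_mk_C evalCoord_mk_Y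
  evalCoord_algebraMap)

variable {k : Type*} [Field k] (W : WeierstrassCurve k)
variable {K : Type*} [Field K] [Algebra k K]

/-! ### Specialisation of functions -/

/-- `SpecAt W h z v`: the function `z` is defined at the point `(x₀, y₀)` of the curve (with
equation `h`), and its value there is `v`. -/
def SpecAt {x₀ y₀ : K} (h : (W.toAffine⁄K).Equation x₀ y₀) (z : FF W) (v : K) : Prop :=
  ∃ u w : W.toAffine.CoordinateRing,
    algebraMap W.toAffine.CoordinateRing (FF W) w * z = algebraMap W.toAffine.CoordinateRing (FF W) u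
      ∧ evalCoord h w ≠ 0 ∧ v = evalCoord h u / evalCoord h w

variable {W}
variable {x₀ y₀ : K} {h : (W.toAffine⁄K).Equation x₀ y₀}

theorem SpecAt.congr {z : FF W} {v v' : K} (hz : SpecAt W h z v) (hv : v = v') :
    SpecAt W h z v' := hv ▸ hz

theorem specAt_coord (u : W.toAffine.CoordinateRing) :
    SpecAt W h (algebraMap W.toAffine.CoordinateRing (FF W) u) (evalCoord h u) :=
  ⟨u, 1, by simp, by simp, by simp⟩

theorem specAt_algebraMap (c : k) : SpecAt W h (algebraMap k (FF W) c) (algebraMap k K c) := by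
  have := specAt_coord (h := h) (algebraMap k W.toAffine.CoordinateRing c)
  rwa [← IsScalarTower.algebraMap_apply, AlgHom.commutes] at this

theorem specAt_zero : SpecAt W h (0 : FF W) 0 := by
  simpa using specAt_algebraMap (h := h) (0 : k)

theorem specAt_one : SpecAt W h (1 : FF W) 1 := by
  simpa using specAt_algebraMap (h := h) (1 : k)

theorem specAt_natCast (n : ℕ) : SpecAt W h ((n : ℕ) : FF W) (n : K) := by
  simpa using specAt_algebraMap (h := h) (n : k)

theorem specAt_ofNat (n : ℕ) [n.AtLeastTwo] :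
    SpecAt W h (OfNat.ofNat n : FF W) (OfNat.ofNat n : K) := by
  have := specAt_natCast (h := h) (OfNat.ofNat n)
  simpa only [Nat.cast_ofNat] using this

theorem specAt_poly (p : k[X]) :
    SpecAt W h (algebraMap k[X] (FF W) p) (aeval x₀ p) := by
  have := specAt_coord (h := h) (algebraMap k[X] W.toAffine.CoordinateRing p)
  rwa [← IsScalarTower.algebraMap_apply, evalCoord_algebraMap] at this

theorem specAt_xg : SpecAt W h (xg W) x₀ := by
  have := specAt_coord (h := h) (Affine.CoordinateRing.mk W (C X))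
  rwa [evalCoord_mk_C, aeval_X] at this

theorem specAt_yg : SpecAt W h (yg W) y₀ := by
  have := specAt_coord (h := h) (Affine.CoordinateRing.mk W Y)
  rwa [evalCoord_mk_Y] at this

theorem SpecAt.add {z z' : FF W} {v v' : K} (hz : SpecAt W h z v) (hz' : SpecAt W h z' v') :
    SpecAt W h (z + z') (v + v') := by
  obtain ⟨u, w, e, hw, rfl⟩ := hz
  obtain ⟨u', w', e', hw', rfl⟩ := hz'
  refine ⟨u * w' + u' * w, w * w', ?_, by simp [hw, hw'], ?_⟩
  · simp only [map_add, map_mul]
    linear_combination (algebraMap W.toAffine.CoordinateRing (FF W) w') * e +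
      (algebraMap W.toAffine.CoordinateRing (FF W) w) * e'
  · simp only [map_add, map_mul]
    field_simp

theorem SpecAt.mul {z z' : FF W} {v v' : K} (hz : SpecAt W h z v) (hz' : SpecAt W h z' v') :
    SpecAt W h (z * z') (v * v') := by
  obtain ⟨u, w, e, hw, rfl⟩ := hz
  obtain ⟨u', w', e', hw', rfl⟩ := hz'
  refine ⟨u * u', w * w', ?_, by simp [hw, hw'], ?_⟩
  · simp only [map_mul]
    rw [← e, ← e']
    ring
  · simp only [map_mul]
    field_simp

theorem SpecAt.neg {z : FF W} {v : K} (hz : SpecAt W h z v) : SpecAt W h (-z) (-v) := by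
  obtain ⟨u, w, e, hw, rfl⟩ := hz
  refine ⟨-u, w, ?_, hw, ?_⟩
  · simp only [map_neg, mul_neg, e]
  · simp only [map_neg]
    ring

theorem SpecAt.sub {z z' : FF W} {v v' : K} (hz : SpecAt W h z v) (hz' : SpecAt W h z' v') :
    SpecAt W h (z - z') (v - v') := by
  rw [sub_eq_add_neg, sub_eq_add_neg]
  exact hz.add hz'.neg

theorem SpecAt.pow {z : FF W} {v : K} (hz : SpecAt W h z v) (n : ℕ) :
    SpecAt W h (z ^ n) (v ^ n) := by
  induction n with
  | zero => simpa using specAt_one (h := h)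
  | succ n ih => rw [pow_succ, pow_succ]; exact ih.mul hz

theorem SpecAt.inv {z : FF W} {v : K} (hz : SpecAt W h z v) (hv : v ≠ 0) :
    SpecAt W h z⁻¹ v⁻¹ := by
  obtain ⟨u, w, e, hw, rfl⟩ := hz
  have hu : evalCoord h u ≠ 0 := by
    intro h0
    apply hv
    rw [h0, zero_div]
  have hz0 : z ≠ 0 := by
    rintro rfl
    rw [mul_zero] at e
    have : u = 0 := (IsFractionRing.injective W.toAffine.CoordinateRing (FF W))
      (by rw [← e, map_zero])
    exact hu (by rw [this, map_zero])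
  refine ⟨w, u, ?_, hu, ?_⟩
  · rw [← e]
    field_simp
  · rw [inv_div]

theorem SpecAt.div {z z' : FF W} {v v' : K} (hz : SpecAt W h z v) (hz' : SpecAt W h z' v')
    (hv' : v' ≠ 0) : SpecAt W h (z / z') (v / v') := by
  rw [div_eq_mul_inv, div_eq_mul_inv]
  exact hz.mul (hz'.inv hv')

/-- The value of a specialisation is unique. -/
theorem SpecAt.unique {z : FF W} {v v' : K} (hz : SpecAt W h z v) (hz' : SpecAt W h z v') :
    v = v' := by
  obtain ⟨u, w, e, hw, rfl⟩ := hz
  obtain ⟨u', w', e', hw', rfl⟩ := hz'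
  have key : u * w' = u' * w := by
    apply IsFractionRing.injective W.toAffine.CoordinateRing (FF W)
    simp only [map_mul]
    rw [← e, ← e']
    ring
  have key' := congrArg (evalCoord h) key
  simp only [map_mul] at key'
  rw [div_eq_div_iff hw hw']
  exact key'


/-! ### The curve operations specialise -/

theorem SpecAt.negY {x y : FF W} {x' y' : K} (hx : SpecAt W h x x') (hy : SpecAt W h y y') :
    SpecAt W h ((W.toAffine⁄(FF W)).negY x y) ((W.toAffine⁄K).negY x' y') := by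
  simp only [Affine.negY]
  exact (hy.neg.sub ((specAt_algebraMap W.a₁).mul hx)).sub (specAt_algebraMap W.a₃)

theorem SpecAt.addX {x₁ x₂ L : FF W} {x₁' x₂' L' : K} (h₁ : SpecAt W h x₁ x₁')
    (h₂ : SpecAt W h x₂ x₂') (hL : SpecAt W h L L') :
    SpecAt W h ((W.toAffine⁄(FF W)).addX x₁ x₂ L) ((W.toAffine⁄K).addX x₁' x₂' L') := by
  simp only [Affine.addX]
  exact ((((hL.pow 2).add ((specAt_algebraMap W.a₁).mul hL)).sub (specAt_algebraMap W.a₂)).sub
    h₁).sub h₂

theorem SpecAt.negAddY {x₁ x₂ y₁ L : FF W} {x₁' x₂' y₁' L' : K} (h₁ : SpecAt W h x₁ x₁')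
    (h₂ : SpecAt W h x₂ x₂') (k₁ : SpecAt W h y₁ y₁') (hL : SpecAt W h L L') :
    SpecAt W h ((W.toAffine⁄(FF W)).negAddY x₁ x₂ y₁ L) ((W.toAffine⁄K).negAddY x₁' x₂' y₁' L') := by
  unfold Affine.negAddY
  exact (hL.mul ((h₁.addX h₂ hL).sub h₁)).add k₁

theorem SpecAt.addY {x₁ x₂ y₁ L : FF W} {x₁' x₂' y₁' L' : K} (h₁ : SpecAt W h x₁ x₁')
    (h₂ : SpecAt W h x₂ x₂') (k₁ : SpecAt W h y₁ y₁') (hL : SpecAt W h L L') :
    SpecAt W h ((W.toAffine⁄(FF W)).addY x₁ x₂ y₁ L) ((W.toAffine⁄K).addY x₁' x₂' y₁' L') := by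
  unfold Affine.addY
  exact (h₁.addX h₂ hL).negY (h₁.negAddY h₂ k₁ hL)

/-- The slope of the line through two points specialises, provided the relevant denominator
does not specialise to `0`. -/
theorem specAt_slope [DecidableEq K] [DecidableEq (FF W)] {x₁ y₁ x₂ y₂ : FF W}
    {x₁' y₁' x₂' y₂' : K}
    (e₁ : (W.toAffine⁄(FF W)).Equation x₁ y₁) (e₂ : (W.toAffine⁄(FF W)).Equation x₂ y₂)
    (hxy : ¬(x₁ = x₂ ∧ y₁ = (W.toAffine⁄(FF W)).negY x₂ y₂))
    (s₁ : SpecAt W h x₁ x₁') (t₁ : SpecAt W h y₁ y₁') (s₂ : SpecAt W h x₂ x₂')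
    (t₂ : SpecAt W h y₂ y₂')
    (hD : ∀ v, SpecAt W h (if x₁ = x₂ then y₁ - (W.toAffine⁄(FF W)).negY x₁ y₁ else x₁ - x₂) v →
      v ≠ 0) :
    ¬(x₁' = x₂' ∧ y₁' = (W.toAffine⁄K).negY x₂' y₂') ∧
      SpecAt W h ((W.toAffine⁄(FF W)).slope x₁ x₂ y₁ y₂)
        ((W.toAffine⁄K).slope x₁' x₂' y₁' y₂') := by
  by_cases hx : x₁ = x₂
  · have hy : y₁ ≠ (W.toAffine⁄(FF W)).negY x₂ y₂ := fun hy => hxy ⟨hx, hy⟩
    have hyy : y₁ = y₂ := Affine.Y_eq_of_Y_ne e₁ e₂ hx hy
    subst hx hyy
    have ex : x₁' = x₂' := s₁.unique s₂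
    have ey : y₁' = y₂' := t₁.unique t₂
    subst ex ey
    rw [if_pos rfl] at hD
    have hne : y₁' - (W.toAffine⁄K).negY x₁' y₁' ≠ 0 := hD _ (t₁.sub (s₁.negY t₁))
    have hy' : y₁' ≠ (W.toAffine⁄K).negY x₁' y₁' := fun e => hne (sub_eq_zero.mpr e)
    refine ⟨fun e => hy' e.2, ?_⟩
    rw [Affine.slope_of_Y_ne rfl hy, Affine.slope_of_Y_ne rfl hy']
    refine SpecAt.div ?_ (t₁.sub (s₁.negY t₁)) hne
    exact ((((specAt_ofNat 3).mul (s₁.pow 2)).add
      (((specAt_ofNat 2).mul (specAt_algebraMap W.a₂)).mul s₁)).add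
      (specAt_algebraMap W.a₄)).sub ((specAt_algebraMap W.a₁).mul t₁)
  · rw [if_neg hx] at hD
    have hne : x₁' - x₂' ≠ 0 := hD _ (s₁.sub s₂)
    have hx' : x₁' ≠ x₂' := fun e => hne (sub_eq_zero.mpr e)
    refine ⟨fun e => hx' e.1, ?_⟩
    rw [Affine.slope_of_X_ne hx, Affine.slope_of_X_ne hx']
    exact SpecAt.div (t₁.sub t₂) (s₁.sub s₂) hne


/-! ### Finiteness of the zero locus of a nonzero function -/

section Finite

variable (K)

/-- A nonzero element of the coordinate ring vanishes at only finitely many points. -/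
theorem finite_evalCoord_eq_zero {u : W.toAffine.CoordinateRing} (hu : u ≠ 0) :
    {R : (W.toAffine⁄K).Point | ∀ (x₀ y₀ : K) (hR : (W.toAffine⁄K).Nonsingular x₀ y₀),
      R = .some x₀ y₀ hR → evalCoord hR.1 u = 0}.Finite := by
  classical
  have : Module.Finite k[X] W.toAffine.CoordinateRing :=
    Module.Finite.of_basis (Affine.CoordinateRing.basis W)
  obtain ⟨p, q, rfl⟩ := Affine.CoordinateRing.exists_smul_basis_eq u
  set N : k[X] := Algebra.norm k[X]
    (p • (1 : W.toAffine.CoordinateRing) + q • Affine.CoordinateRing.mk W Y) with hN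
  have hN0 : N ≠ 0 := fun h0 => hu (Algebra.norm_eq_zero_iff.mp h0)
  have hmap : N.map (algebraMap k K) ≠ 0 :=
    (Polynomial.map_ne_zero_iff (algebraMap k K).injective).mpr hN0
  have hfin := Fermat.Agent.Lib.ECBiquad.finite_xOf_root (W.baseChange K) hmap
  refine ((Set.finite_singleton (0 : (W.toAffine⁄K).Point)).union hfin).subset ?_
  intro R hR
  rcases R with _ | ⟨x₀, y₀, hR'⟩
  · left; rfl
  · right
    refine ⟨Affine.Point.some_ne_zero _, ?_⟩
    have h0 := hR x₀ y₀ hR' rfl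
    have hcoe := Affine.CoordinateRing.coe_norm_smul_basis (W' := W.toAffine) p q
    have h1 := congrArg (evalCoord hR'.1) hcoe
    have h1' : evalCoord hR'.1 ((AdjoinRoot.of W.toAffine.polynomial) N) = aeval x₀ N :=
      evalCoord_algebraMap hR'.1 N
    rw [← hN, h1'] at h1
    have h2 : evalCoord hR'.1 (Affine.CoordinateRing.mk W
        ((C p + C q * X) * (C p + C q * (-(Y : k[X][Y]) - C (C W.a₁ * X + C W.a₃))))) = 0 := by
      have e : Affine.CoordinateRing.mk W
          ((C p + C q * X) * (C p + C q * (-(Y : k[X][Y]) - C (C W.a₁ * X + C W.a₃)))) =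
          (p • (1 : W.toAffine.CoordinateRing) + q • Affine.CoordinateRing.mk W Y) *
            Affine.CoordinateRing.mk W (C p + C q * (-(Y : k[X][Y]) - C (C W.a₁ * X + C W.a₃))) := by
        rw [Affine.CoordinateRing.smul, Affine.CoordinateRing.smul, mul_one, map_mul]
        congr 1
      rw [e, map_mul, h0, zero_mul]
    rw [h2] at h1
    rw [Fermat.Agent.Lib.ECBiquad.xOf_some, Polynomial.eval_map, ← Polynomial.aeval_def]
    exact h1

end Finite

/-! ### Specialisation at points -/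

variable (W) in
/-- `SpecF W z R v`: `R` is an affine point and the function `z` is defined at `R` with
value `v`. -/
def SpecF (z : FF W) : (W.toAffine⁄K).Point → K → Prop
  | .zero, _ => False
  | .some _ _ hR, v => SpecAt W hR.1 z v

@[simp] theorem specF_some {z : FF W} {x₀ y₀ : K} (hR : (W.toAffine⁄K).Nonsingular x₀ y₀)
    {v : K} : SpecF W z (.some x₀ y₀ hR) v ↔ SpecAt W hR.1 z v := Iff.rfl

theorem not_specF_zero {z : FF W} {v : K} : ¬ SpecF W z (0 : (W.toAffine⁄K).Point) v :=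
  fun hz => hz

theorem specF_iff {z : FF W} {R : (W.toAffine⁄K).Point} {v : K} :
    SpecF W z R v ↔ ∃ (x₀ y₀ : K) (hR : (W.toAffine⁄K).Nonsingular x₀ y₀),
      R = .some x₀ y₀ hR ∧ SpecAt W hR.1 z v := by
  rcases R with _ | ⟨x₀, y₀, hR⟩
  · constructor
    · intro hz; exact absurd hz not_specF_zero
    · rintro ⟨_, _, _, hR, _⟩
      exact absurd hR.symm (Affine.Point.some_ne_zero _)
  · constructor
    · intro hz; exact ⟨x₀, y₀, hR, rfl, hz⟩
    · rintro ⟨x₁, y₁, hR₁, e, hz⟩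
      cases e
      exact hz

theorem SpecF.ne_zero {z : FF W} {R : (W.toAffine⁄K).Point} {v : K} (hz : SpecF W z R v) :
    R ≠ 0 := by
  rintro rfl
  exact not_specF_zero hz

theorem SpecF.unique {z : FF W} {R : (W.toAffine⁄K).Point} {v v' : K} (hz : SpecF W z R v)
    (hz' : SpecF W z R v') : v = v' := by
  rcases R with _ | ⟨x₀, y₀, hR⟩
  · exact absurd hz not_specF_zero
  · exact SpecAt.unique hz hz'

theorem SpecF.add {z z' : FF W} {R : (W.toAffine⁄K).Point} {v v' : K} (hz : SpecF W z R v)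
    (hz' : SpecF W z' R v') : SpecF W (z + z') R (v + v') := by
  rcases R with _ | ⟨x₀, y₀, hR⟩
  · exact absurd hz not_specF_zero
  · exact SpecAt.add hz hz'

theorem SpecF.mul {z z' : FF W} {R : (W.toAffine⁄K).Point} {v v' : K} (hz : SpecF W z R v)
    (hz' : SpecF W z' R v') : SpecF W (z * z') R (v * v') := by
  rcases R with _ | ⟨x₀, y₀, hR⟩
  · exact absurd hz not_specF_zero
  · exact SpecAt.mul hz hz'

theorem SpecF.neg {z : FF W} {R : (W.toAffine⁄K).Point} {v : K} (hz : SpecF W z R v) :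
    SpecF W (-z) R (-v) := by
  rcases R with _ | ⟨x₀, y₀, hR⟩
  · exact absurd hz not_specF_zero
  · exact SpecAt.neg hz

theorem SpecF.sub {z z' : FF W} {R : (W.toAffine⁄K).Point} {v v' : K} (hz : SpecF W z R v)
    (hz' : SpecF W z' R v') : SpecF W (z - z') R (v - v') := by
  rcases R with _ | ⟨x₀, y₀, hR⟩
  · exact absurd hz not_specF_zero
  · exact SpecAt.sub hz hz'

theorem SpecF.pow {z : FF W} {R : (W.toAffine⁄K).Point} {v : K} (hz : SpecF W z R v) (n : ℕ) :
    SpecF W (z ^ n) R (v ^ n) := by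
  rcases R with _ | ⟨x₀, y₀, hR⟩
  · exact absurd hz not_specF_zero
  · exact SpecAt.pow hz n

theorem SpecF.inv {z : FF W} {R : (W.toAffine⁄K).Point} {v : K} (hz : SpecF W z R v)
    (hv : v ≠ 0) : SpecF W z⁻¹ R v⁻¹ := by
  rcases R with _ | ⟨x₀, y₀, hR⟩
  · exact absurd hz not_specF_zero
  · exact SpecAt.inv hz hv

theorem SpecF.div {z z' : FF W} {R : (W.toAffine⁄K).Point} {v v' : K} (hz : SpecF W z R v)
    (hz' : SpecF W z' R v') (hv' : v' ≠ 0) : SpecF W (z / z') R (v / v') := by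
  rcases R with _ | ⟨x₀, y₀, hR⟩
  · exact absurd hz not_specF_zero
  · exact SpecAt.div hz hz' hv'

theorem SpecF.congr {z : FF W} {R : (W.toAffine⁄K).Point} {v v' : K} (hz : SpecF W z R v)
    (hv : v = v') : SpecF W z R v' := hv ▸ hz

/-- Constants specialise to themselves at every affine point. -/
theorem specF_algebraMap (c : k) {R : (W.toAffine⁄K).Point} (hR : R ≠ 0) :
    SpecF W (algebraMap k (FF W) c) R (algebraMap k K c) := by
  rcases R with _ | ⟨x₀, y₀, hR'⟩
  · exact absurd rfl hR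
  · exact specAt_algebraMap c

/-- Polynomials in `x` specialise to their values at the abscissa. -/
theorem specF_poly (p : k[X]) {x₀ y₀ : K} (hR : (W.toAffine⁄K).Nonsingular x₀ y₀) :
    SpecF W (algebraMap k[X] (FF W) p) (.some x₀ y₀ hR) (aeval x₀ p) :=
  specAt_poly p

theorem specF_xg {x₀ y₀ : K} (hR : (W.toAffine⁄K).Nonsingular x₀ y₀) :
    SpecF W (xg W) (.some x₀ y₀ hR) x₀ := specAt_xg

theorem specF_yg {x₀ y₀ : K} (hR : (W.toAffine⁄K).Nonsingular x₀ y₀) :
    SpecF W (yg W) (.some x₀ y₀ hR) y₀ := specAt_yg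

variable (K) in
/-- A nonzero function has a nonzero value at all but finitely many points. -/
theorem finite_not_specF_ne_zero {z : FF W} (hz : z ≠ 0) :
    {R : (W.toAffine⁄K).Point | ¬ ∃ v : K, v ≠ 0 ∧ SpecF W z R v}.Finite := by
  obtain ⟨a, b, hb, rfl⟩ := IsFractionRing.div_surjective (A := W.toAffine.CoordinateRing) z
  have hb0 : b ≠ 0 := nonZeroDivisors.ne_zero hb
  have ha0 : a ≠ 0 := by
    rintro rfl
    exact hz (by simp)
  refine ((finite_evalCoord_eq_zero K ha0).union (finite_evalCoord_eq_zero K hb0)).subset ?_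
  intro R hR
  by_contra hcon
  apply hR
  simp only [Set.mem_union, Set.mem_ofPred_eq, not_or, not_forall] at hcon
  obtain ⟨⟨x₀, y₀, hR₀, e, ha⟩, ⟨x₁, y₁, hR₁, e₁, hb'⟩⟩ := hcon
  subst e
  cases e₁
  refine ⟨evalCoord hR₀.1 a / evalCoord hR₀.1 b, div_ne_zero ha hb', ?_⟩
  refine ⟨a, b, ?_, hb', rfl⟩
  have : algebraMap W.toAffine.CoordinateRing (FF W) b ≠ 0 := by
    intro h0
    exact hb0 ((IsFractionRing.injective W.toAffine.CoordinateRing (FF W))
      (by rw [h0, map_zero]))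
  field_simp


/-! ### Specialisation of points -/

variable (W) in
/-- `PtSpec W A R Q`: the point `A` over the function field specialises at `R` to the point `Q`:
either `A = 0` and `Q = 0`, or both are affine and the coordinates of `A` are defined at `R` with
values the coordinates of `Q`. -/
def PtSpec : (W.toAffine⁄(FF W)).Point → (W.toAffine⁄K).Point → (W.toAffine⁄K).Point → Prop
  | .zero, _, .zero => True
  | .zero, _, .some _ _ _ => False
  | .some _ _ _, _, .zero => False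
  | .some x y _, R, .some x' y' _ => SpecF W x R x' ∧ SpecF W y R y'

theorem ptSpec_zero_iff {R Q : (W.toAffine⁄K).Point} :
    PtSpec W (0 : (W.toAffine⁄(FF W)).Point) R Q ↔ Q = 0 := by
  rcases Q with _ | ⟨x', y', hQ⟩
  · exact ⟨fun _ => rfl, fun _ => trivial⟩
  · exact ⟨fun hf => absurd hf (fun hf' => hf'), fun e => absurd e (Affine.Point.some_ne_zero _)⟩

theorem ptSpec_zero_zero (R : (W.toAffine⁄K).Point) :
    PtSpec W (0 : (W.toAffine⁄(FF W)).Point) R (0 : (W.toAffine⁄K).Point) :=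
  ptSpec_zero_iff.mpr rfl

@[simp] theorem ptSpec_some_some {x y : FF W} (hA : (W.toAffine⁄(FF W)).Nonsingular x y)
    {R : (W.toAffine⁄K).Point} {x' y' : K} (hQ : (W.toAffine⁄K).Nonsingular x' y') :
    PtSpec W (.some x y hA) R (.some x' y' hQ) ↔ SpecF W x R x' ∧ SpecF W y R y' := Iff.rfl

theorem ptSpec_some_iff {x y : FF W} {hA : (W.toAffine⁄(FF W)).Nonsingular x y}
    {R Q : (W.toAffine⁄K).Point} :
    PtSpec W (.some x y hA) R Q ↔ ∃ (x' y' : K) (hQ : (W.toAffine⁄K).Nonsingular x' y'),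
      Q = .some x' y' hQ ∧ SpecF W x R x' ∧ SpecF W y R y' := by
  rcases Q with _ | ⟨x', y', hQ⟩
  · constructor
    · intro hf; exact absurd hf (fun hf' => hf')
    · rintro ⟨_, _, _, e, _⟩
      exact absurd e.symm (Affine.Point.some_ne_zero _)
  · constructor
    · intro hf; exact ⟨x', y', hQ, rfl, hf⟩
    · rintro ⟨x₁, y₁, hQ₁, e, hf⟩
      cases e
      exact hf

/-- If a nonzero point specialises at `R`, then `R` is affine and the value is affine. -/
theorem PtSpec.ne_zero {A : (W.toAffine⁄(FF W)).Point} {R Q : (W.toAffine⁄K).Point}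
    (hs : PtSpec W A R Q) (hA : A ≠ 0) : R ≠ 0 ∧ Q ≠ 0 := by
  rcases A with _ | ⟨x, y, hA'⟩
  · exact absurd rfl hA
  · obtain ⟨x', y', hQ, rfl, hx, -⟩ := ptSpec_some_iff.mp hs
    exact ⟨hx.ne_zero, Affine.Point.some_ne_zero _⟩

/-- The value of the specialisation at an affine point is unique. -/
theorem PtSpec.unique {A : (W.toAffine⁄(FF W)).Point} {R Q Q' : (W.toAffine⁄K).Point}
    (hs : PtSpec W A R Q) (hs' : PtSpec W A R Q') : Q = Q' := by
  rcases A with _ | ⟨x, y, hA'⟩
  · rw [ptSpec_zero_iff.mp hs, ptSpec_zero_iff.mp hs']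
  · obtain ⟨x', y', hQ, rfl, hx, hy⟩ := ptSpec_some_iff.mp hs
    obtain ⟨x'', y'', hQ', rfl, hx', hy'⟩ := ptSpec_some_iff.mp hs'
    have e1 := hx.unique hx'
    have e2 := hy.unique hy'
    subst e1 e2
    rfl

theorem PtSpec.neg {A : (W.toAffine⁄(FF W)).Point} {R Q : (W.toAffine⁄K).Point}
    (hs : PtSpec W A R Q) : PtSpec W (-A) R (-Q) := by
  rcases A with _ | ⟨x, y, hA'⟩
  · have : Q = 0 := ptSpec_zero_iff.mp hs
    subst this
    exact ptSpec_zero_zero R
  · obtain ⟨x', y', hQ, rfl, hx, hy⟩ := ptSpec_some_iff.mp hs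
    rw [Affine.Point.neg_some, Affine.Point.neg_some, ptSpec_some_some]
    refine ⟨hx, ?_⟩
    rcases R with _ | ⟨x₀, y₀, hR⟩
    · exact absurd hx not_specF_zero
    · exact SpecAt.negY hx hy

/-- Specialisation is compatible with addition, away from a finite set. -/
theorem finite_not_ptSpec_add [DecidableEq K] [DecidableEq (FF W)]
    {A B : (W.toAffine⁄(FF W)).Point} {ψ ψ' : (W.toAffine⁄K).Point → (W.toAffine⁄K).Point}
    (hA : {R | ¬ PtSpec W A R (ψ R)}.Finite) (hB : {R | ¬ PtSpec W B R (ψ' R)}.Finite) :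
    {R | ¬ PtSpec W (A + B) R (ψ R + ψ' R)}.Finite := by
  rcases A with _ | ⟨x₁, y₁, h₁⟩
  · refine (hA.union hB).subset ?_
    intro R hR
    by_contra hcon
    simp only [Set.mem_union, Set.mem_ofPred_eq, not_or, not_not] at hcon
    apply hR
    have e : ψ R = 0 := ptSpec_zero_iff.mp hcon.1
    have e' : (Affine.Point.zero : (W.toAffine⁄(FF W)).Point) + B = B := zero_add B
    rw [e, zero_add, e']
    exact hcon.2
  rcases B with _ | ⟨x₂, y₂, h₂⟩
  · refine (hA.union hB).subset ?_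
    intro R hR
    by_contra hcon
    simp only [Set.mem_union, Set.mem_ofPred_eq, not_or, not_not] at hcon
    apply hR
    have e : ψ' R = 0 := ptSpec_zero_iff.mp hcon.2
    have e' : Affine.Point.some x₁ y₁ h₁ + (Affine.Point.zero : (W.toAffine⁄(FF W)).Point) =
        Affine.Point.some x₁ y₁ h₁ := add_zero _
    rw [e, add_zero, e']
    exact hcon.1
  by_cases hxy : x₁ = x₂ ∧ y₁ = (W.toAffine⁄(FF W)).negY x₂ y₂
  · refine (hA.union hB).subset ?_
    intro R hR
    by_contra hcon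
    simp only [Set.mem_union, Set.mem_ofPred_eq, not_or, not_not] at hcon
    apply hR
    obtain ⟨x₁', y₁', hQ₁, e₁, s₁, t₁⟩ := ptSpec_some_iff.mp hcon.1
    obtain ⟨x₂', y₂', hQ₂, e₂, s₂, t₂⟩ := ptSpec_some_iff.mp hcon.2
    rw [e₁, e₂, Affine.Point.add_of_Y_eq hxy.1 hxy.2]
    rcases R with _ | ⟨x₀, y₀, hR₀⟩
    · exact absurd s₁ not_specF_zero
    · have ex : x₁' = x₂' := SpecAt.unique (hxy.1 ▸ s₁) s₂
      have ey : y₁' = (W.toAffine⁄K).negY x₂' y₂' :=
        SpecAt.unique (hxy.2 ▸ t₁) (SpecAt.negY s₂ t₂)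
      rw [Affine.Point.add_of_Y_eq ex ey]
      exact ptSpec_zero_zero _
  · set D : FF W := if x₁ = x₂ then y₁ - (W.toAffine⁄(FF W)).negY x₁ y₁ else x₁ - x₂ with hDdef
    have hD : D ≠ 0 := by
      rw [hDdef]
      split_ifs with hx
      · have hy : y₁ ≠ (W.toAffine⁄(FF W)).negY x₂ y₂ := fun hy => hxy ⟨hx, hy⟩
        have hyy : y₁ = y₂ := Affine.Y_eq_of_Y_ne h₁.1 h₂.1 hx hy
        subst hx hyy
        exact sub_ne_zero.mpr hy
      · exact sub_ne_zero.mpr hx
    refine ((hA.union hB).union (finite_not_specF_ne_zero K hD)).subset ?_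
    intro R hR
    by_contra hcon
    simp only [Set.mem_union, Set.mem_ofPred_eq, not_or, not_not] at hcon
    apply hR
    obtain ⟨⟨hc₁, hc₂⟩, v, hv, hDv⟩ := hcon
    obtain ⟨x₁', y₁', hQ₁, e₁, s₁, t₁⟩ := ptSpec_some_iff.mp hc₁
    obtain ⟨x₂', y₂', hQ₂, e₂, s₂, t₂⟩ := ptSpec_some_iff.mp hc₂
    rcases R with _ | ⟨x₀, y₀, hR₀⟩
    · exact absurd s₁ not_specF_zero
    · obtain ⟨hxy', hL⟩ := specAt_slope (h := hR₀.1) h₁.1 h₂.1 hxy s₁ t₁ s₂ t₂
        (fun v' hv' => (SpecAt.unique hDv hv') ▸ hv)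
      rw [e₁, e₂, Affine.Point.add_some hxy, Affine.Point.add_some hxy', ptSpec_some_some]
      exact ⟨SpecAt.addX s₁ s₂ hL, SpecAt.addY s₁ s₂ t₁ hL⟩

variable (W K) in
/-- The subgroup of pairs `(A, ψ)`, `A` a point over the function field and `ψ` a self-map of
`E(K)`, such that `A` specialises at `R` to `ψ R` for all but finitely many `R`. -/
def specSubgroup [DecidableEq K] [DecidableEq (FF W)] :
    AddSubgroup ((W.toAffine⁄(FF W)).Point × ((W.toAffine⁄K).Point → (W.toAffine⁄K).Point)) where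
  carrier := {p | {R | ¬ PtSpec W p.1 R (p.2 R)}.Finite}
  add_mem' := fun {a b} ha hb => by
    have := finite_not_ptSpec_add ha hb
    exact this
  zero_mem' := by
    have : {R : (W.toAffine⁄K).Point | ¬ PtSpec W (0 : (W.toAffine⁄(FF W)).Point) R
        (0 : (W.toAffine⁄K).Point)} = ∅ := by
      ext R
      simp only [Set.mem_ofPred_eq, Set.mem_empty_iff_false, iff_false, not_not]
      exact ptSpec_zero_zero R
    show {R : (W.toAffine⁄K).Point | ¬ PtSpec W (0 : (W.toAffine⁄(FF W)).Point) R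
        (0 : (W.toAffine⁄K).Point)}.Finite
    rw [this]
    exact Set.finite_empty
  neg_mem' := fun {a} ha => by
    refine Set.Finite.subset ha ?_
    intro R hR hcon
    exact hR hcon.neg

theorem mem_specSubgroup_iff [DecidableEq K] [DecidableEq (FF W)]
    {p : (W.toAffine⁄(FF W)).Point × ((W.toAffine⁄K).Point → (W.toAffine⁄K).Point)} :
    p ∈ specSubgroup W K ↔ {R | ¬ PtSpec W p.1 R (p.2 R)}.Finite := Iff.rfl

/-- The generic point specialises at every affine point `R` to `R`. -/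
theorem ptSpec_generic (h₀ : (W.toAffine⁄(FF W)).Nonsingular (xg W) (yg W))
    {R : (W.toAffine⁄K).Point} (hR : R ≠ 0) :
    PtSpec W (.some (xg W) (yg W) h₀) R R := by
  rcases R with _ | ⟨x₀, y₀, hR₀⟩
  · exact absurd rfl hR
  · exact ⟨specAt_xg, specAt_yg⟩

theorem generic_mem_specSubgroup [DecidableEq K] [DecidableEq (FF W)]
    (h₀ : (W.toAffine⁄(FF W)).Nonsingular (xg W) (yg W)) :
    ((.some (xg W) (yg W) h₀ : (W.toAffine⁄(FF W)).Point), (id : _ → _)) ∈ specSubgroup W K := by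
  rw [mem_specSubgroup_iff]
  refine (Set.finite_singleton (0 : (W.toAffine⁄K).Point)).subset ?_
  intro R hR
  by_contra hcon
  exact hR (ptSpec_generic h₀ hcon)

/-- Specialisation commutes with a pair of `n`-th power endomorphisms (Frobenius). -/
theorem PtSpec.map_pow [DecidableEq K] [DecidableEq (FF W)] {n : ℕ}
    (σF : FF W →ₐ[k] FF W) (σK : K →ₐ[k] K) (hσF : ∀ z, σF z = z ^ n) (hσK : ∀ v, σK v = v ^ n)
    {A : (W.toAffine⁄(FF W)).Point} {R Q : (W.toAffine⁄K).Point} (hs : PtSpec W A R Q) :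
    PtSpec W (Affine.Point.map (W' := W.toAffine) σF A) R
      (Affine.Point.map (W' := W.toAffine) σK Q) := by
  rcases A with _ | ⟨x, y, hA'⟩
  · have : Q = 0 := ptSpec_zero_iff.mp hs
    subst this
    exact ptSpec_zero_zero R
  · obtain ⟨x', y', hQ, rfl, hx, hy⟩ := ptSpec_some_iff.mp hs
    rw [Affine.Point.map_some, Affine.Point.map_some, ptSpec_some_some, hσF, hσF, hσK, hσK]
    exact ⟨hx.pow n, hy.pow n⟩

theorem map_pow_mem_specSubgroup [DecidableEq K] [DecidableEq (FF W)] {n : ℕ}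
    (σF : FF W →ₐ[k] FF W) (σK : K →ₐ[k] K) (hσF : ∀ z, σF z = z ^ n) (hσK : ∀ v, σK v = v ^ n)
    {p : (W.toAffine⁄(FF W)).Point × ((W.toAffine⁄K).Point → (W.toAffine⁄K).Point)}
    (hp : p ∈ specSubgroup W K) :
    (Affine.Point.map (W' := W.toAffine) σF p.1,
      fun R => Affine.Point.map (W' := W.toAffine) σK (p.2 R)) ∈ specSubgroup W K := by
  rw [mem_specSubgroup_iff] at hp ⊢
  refine hp.subset ?_
  intro R hR hcon
  exact hR (hcon.map_pow σF σK hσF hσK)


/-! ### Consequences for the abscissa -/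

/-- If an affine point `A = (x, y)` specialises at `R` to `Q`, then `Q` is affine and its
abscissa is the value of `x` at `R`. -/
theorem PtSpec.specF_xOf [DecidableEq K] {x y : FF W}
    {hA : (W.toAffine⁄(FF W)).Nonsingular x y} {R Q : (W.toAffine⁄K).Point}
    (hs : PtSpec W (.some x y hA) R Q) :
    Q ≠ 0 ∧ SpecF W x R (Fermat.Agent.Lib.ECBiquad.xOf (W.baseChange K) Q) := by
  obtain ⟨x', y', hQ, rfl, hx, -⟩ := ptSpec_some_iff.mp hs
  exact ⟨Affine.Point.some_ne_zero _, hx⟩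

/-- A point with constant abscissa `c` specialises to points with abscissa `c`. -/
theorem PtSpec.xOf_eq_of_const [DecidableEq K] {c : k} {y : FF W}
    {hA : (W.toAffine⁄(FF W)).Nonsingular (algebraMap k (FF W) c) y}
    {R Q : (W.toAffine⁄K).Point} (hs : PtSpec W (.some (algebraMap k (FF W) c) y hA) R Q) :
    Q ≠ 0 ∧ Fermat.Agent.Lib.ECBiquad.xOf (W.baseChange K) Q = algebraMap k K c := by
  obtain ⟨hQ, hx⟩ := hs.specF_xOf
  exact ⟨hQ, hx.unique (specF_algebraMap c hx.ne_zero)⟩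

/-- A point whose abscissa is the rational function `a / b` of `x` specialises at `(x₀, y₀)`,
when `b x₀ ≠ 0`, to a point with abscissa `a x₀ / b x₀`. -/
theorem PtSpec.xOf_eq_of_ratio [DecidableEq K] {a b : k[X]} {x y : FF W}
    {hA : (W.toAffine⁄(FF W)).Nonsingular x y}
    (hx : x = algebraMap k[X] (FF W) a / algebraMap k[X] (FF W) b)
    {x₀ y₀ : K} {hR : (W.toAffine⁄K).Nonsingular x₀ y₀} {Q : (W.toAffine⁄K).Point}
    (hs : PtSpec W (.some x y hA) (.some x₀ y₀ hR) Q) (hb : aeval x₀ b ≠ 0) :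
    Q ≠ 0 ∧ Fermat.Agent.Lib.ECBiquad.xOf (W.baseChange K) Q = aeval x₀ a / aeval x₀ b := by
  obtain ⟨hQ, hx'⟩ := hs.specF_xOf
  refine ⟨hQ, hx'.unique ?_⟩
  rw [hx]
  exact (specF_poly a hR).div (specF_poly b hR) hb

/-- Conversely, if the abscissa `a / b` of `A` has a value at `(x₀, y₀)` then either `b x₀ ≠ 0`
or `a x₀ = 0 = b x₀`; this form is convenient for reduced fractions: if `a` and `b` have no
common root and `A` specialises at `(x₀, y₀)`, then `b x₀ ≠ 0`. -/
theorem PtSpec.denom_ne_zero [DecidableEq K] {a b : k[X]} {x y : FF W}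
    {hA : (W.toAffine⁄(FF W)).Nonsingular x y}
    (hx : x = algebraMap k[X] (FF W) a / algebraMap k[X] (FF W) b) (hb0 : b ≠ 0)
    {x₀ y₀ : K} {hR : (W.toAffine⁄K).Nonsingular x₀ y₀} {Q : (W.toAffine⁄K).Point}
    (hs : PtSpec W (.some x y hA) (.some x₀ y₀ hR) Q)
    (hcop : ¬ (aeval x₀ a = 0 ∧ aeval x₀ b = 0)) : aeval x₀ b ≠ 0 := by
  obtain ⟨-, hx'⟩ := hs.specF_xOf
  intro hb
  have hbF : algebraMap k[X] (FF W) b ≠ 0 := by
    intro h0
    exact hb0 (Fermat.Agent.Lib.ECHeight.algebraMap_polynomial_FF_injective W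
      (by rw [h0, map_zero]))
  have h1 : SpecF W (x * algebraMap k[X] (FF W) b) (.some x₀ y₀ hR)
      (Fermat.Agent.Lib.ECBiquad.xOf (W.baseChange K) Q * aeval x₀ b) :=
    hx'.mul (specF_poly b hR)
  have h2 : x * algebraMap k[X] (FF W) b = algebraMap k[X] (FF W) a := by
    rw [hx]
    field_simp
  rw [h2, hb, mul_zero] at h1
  exact hcop ⟨(h1.unique (specF_poly a hR)).symm, hb⟩

/-! ### The Frobenius: the export -/

section Frobenius

variable (ℓ : ℕ) [Fact ℓ.Prime] (W : WeierstrassCurve (ZMod ℓ))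
  (K : Type*) [Field K] [Algebra (ZMod ℓ) K] [DecidableEq K] [DecidableEq (FF W)]

/-- The Frobenius on points over the function field specialises to the Frobenius on `E(K)`. -/
theorem PtSpec.frob {A : (W.toAffine⁄(FF W)).Point} {R Q : (W.toAffine⁄K).Point}
    (hs : PtSpec W A R Q) : PtSpec W (frobPt ℓ W (FF W) A) R (frobPt ℓ W K Q) :=
  hs.map_pow (n := Fintype.card (ZMod ℓ)) _ _ (fun _ => rfl) (fun _ => rfl)

/-- The subgroup of specialising pairs is stable under `(A, ψ) ↦ (φ A, φ ∘ ψ)`. -/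
theorem frob_mem_specSubgroup
    {p : (W.toAffine⁄(FF W)).Point × ((W.toAffine⁄K).Point → (W.toAffine⁄K).Point)}
    (hp : p ∈ specSubgroup W K) :
    (frobPt ℓ W (FF W) p.1, fun R => frobPt ℓ W K (p.2 R)) ∈ specSubgroup W K :=
  map_pow_mem_specSubgroup (n := Fintype.card (ZMod ℓ)) _ _ (fun _ => rfl) (fun _ => rfl) hp

/-- **(FT-SPEC), the export.** For the generic point `P₀ = (x, y)` over the function field and
integers `n₀ n₁ n₂`, the point `n₀ P₀ + n₁ φ P₀ + n₂ φ² P₀` specialises at all but finitely many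
points `R` of `E(K)` to `n₀ R + n₁ φ R + n₂ φ² R`. -/
theorem finite_not_ptSpec_word (h₀ : (W.toAffine⁄(FF W)).Nonsingular (xg W) (yg W))
    (n₀ n₁ n₂ : ℤ) :
    {R : (W.toAffine⁄K).Point | ¬ PtSpec W
      (n₀ • (Affine.Point.some (xg W) (yg W) h₀ : (W.toAffine⁄(FF W)).Point) +
        n₁ • frobPt ℓ W (FF W) (Affine.Point.some (xg W) (yg W) h₀) +
        n₂ • frobPt ℓ W (FF W) (frobPt ℓ W (FF W) (Affine.Point.some (xg W) (yg W) h₀))) R
      (n₀ • R + n₁ • frobPt ℓ W K R + n₂ • frobPt ℓ W K (frobPt ℓ W K R))}.Finite := by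
  have m0 := generic_mem_specSubgroup (K := K) h₀
  have m1 := frob_mem_specSubgroup ℓ W K m0
  have m2 := frob_mem_specSubgroup ℓ W K m1
  have key := (specSubgroup W K).add_mem
    ((specSubgroup W K).add_mem ((specSubgroup W K).zsmul_mem m0 n₀)
      ((specSubgroup W K).zsmul_mem m1 n₁)) ((specSubgroup W K).zsmul_mem m2 n₂)
  exact mem_specSubgroup_iff.mp key

/-- The same statement with an explicit finite exceptional set. -/
theorem exists_finite_spec (h₀ : (W.toAffine⁄(FF W)).Nonsingular (xg W) (yg W))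
    (n₀ n₁ n₂ : ℤ) :
    ∃ B : Set (W.toAffine⁄K).Point, B.Finite ∧ ∀ R ∉ B, PtSpec W
      (n₀ • (Affine.Point.some (xg W) (yg W) h₀ : (W.toAffine⁄(FF W)).Point) +
        n₁ • frobPt ℓ W (FF W) (Affine.Point.some (xg W) (yg W) h₀) +
        n₂ • frobPt ℓ W (FF W) (frobPt ℓ W (FF W) (Affine.Point.some (xg W) (yg W) h₀))) R
      (n₀ • R + n₁ • frobPt ℓ W K R + n₂ • frobPt ℓ W K (frobPt ℓ W K R)) :=
  ⟨_, finite_not_ptSpec_word ℓ W K h₀ n₀ n₁ n₂, fun _ hR => not_not.mp hR⟩

end Frobenius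

end Fermat.Agent.S58.Spec
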