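/-
S58-PREP, row 373 (FT-QR + FT-COUNT), part (C2): the literal interface statements

  `quadBar     : W.Δ ≠ 0 → QuadBar ℓ W K`
  `kerBoundBar : W.Δ ≠ 0 → KerBoundBar ℓ W K`

for an algebraically closed field `K ⊇ 𝔽_ℓ`: the Frobenius `φ` of `E(K)` satisfies
`φ² - a φ + ℓ = 0` with `a = ℓ + 1 - #E(𝔽_ℓ)`, and `#ker (φ - m) ≤ 2 (m² - a m + ℓ)`.

Inputs: the degree package of row 370 (`GenB/Deg.lean`, helper63; `GenField.lean`, helper32;
`Comp.lean`, helper86), the quadratic-form algebra of row 369 (`Alg.lean`, helper26), the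
specialisation of row 372 (`Spec.lean`, helper42), the Frobenius lift (`FrobLift.lean`,
helper72), and `KLevel.lean`, `Sep.lean`, `QuadCountOf.lean` of this row.
-/
import Fermat.Agent.S58.FT.QuadCountOf
import Fermat.Agent.S58.FT.GenB.Deg
import Fermat.Agent.S58.FT.Spec

set_option autoImplicit false

namespace Fermat.Agent.S58.QuadCount

open WeierstrassCurve
open Fermat.Agent.Lib.ECBiquad
open Fermat.Agent.S58.FT
open scoped WeierstrassCurve.Affine

variable (ℓ : ℕ) [Fact ℓ.Prime] (W : WeierstrassCurve (ZMod ℓ))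
  (K : Type*) [Field K] [Algebra (ZMod ℓ) K] [DecidableEq K] [IsAlgClosed K]

omit [IsAlgClosed K] in
/-- A specialisation of points gives a specialisation of abscissas. -/
theorem xSpec_of_ptSpec [DecidableEq W.toAffine.FunctionField]
    {A : (W.toAffine⁄W.toAffine.FunctionField).Point} {R Q : (W.toAffine⁄K).Point}
    (hs : Spec.PtSpec W A R Q) :
    QC.XSpec ℓ W K W.toAffine.FunctionField (fun z v => Spec.SpecF W z R v) A Q := by
  cases A with
  | zero => exact Or.inl ⟨rfl, Spec.ptSpec_zero_iff.mp hs⟩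
  | some x y hA =>
    obtain ⟨hQ, hx⟩ := Spec.PtSpec.specF_xOf hs
    exact Or.inr ⟨Affine.Point.some_ne_zero _, hQ, hx⟩

/-- **(QR-bar) and (KB-bar)** for an elliptic curve over `𝔽_ℓ` and an algebraically closed
field `K ⊇ 𝔽_ℓ`. -/
theorem quadBar_kerBoundBar (hΔ : W.Δ ≠ 0) : QuadBar ℓ W K ∧ KerBoundBar ℓ W K := by
  classical
  let _ : DecidableEq W.toAffine.FunctionField := Classical.decEq _
  have h₀ : (W.toAffine⁄W.toAffine.FunctionField).Nonsingular (Comp.xF W) (Comp.yF W) :=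
    Comp.nonsingular_xF_yF W hΔ
  refine QC.quadBar_kerBoundBar_of_gen_spec ℓ W K W.toAffine.FunctionField hΔ
    (GenB.jF W) (GenB.jF_C W) (GenB.Lam W) (GenB.dPt W) (Comp.genPt W hΔ)
    (GenB.genPt_mem_Lam W hΔ) (fun A hA => GenB.frobPt_mem_Lam ℓ W hA) ?_ ?_ (GenB.dPt_zero W)
    (fun A hA B hB => GenB.dPt_par W hΔ hA hB) (fun A hA => GenB.dPt_frobPt ℓ W hΔ hA)
    (GenB.dPt_genPt W hΔ) (GenB.dPt_comp ℓ W hΔ)
    (fun R z v => Spec.SpecF W z R v) ?_ ?_ ?_
  · -- `φ C ∈ Λ → C ∈ Λ`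
    intro C hC
    rw [GenB.mem_Lam] at hC ⊢
    have h : GenB.iotaPt W (frobPt ℓ W W.toAffine.FunctionField C) =
        frobPt ℓ W W.toAffine.FunctionField (GenB.iotaPt W C) :=
      Comp.map_frobPt ℓ W (Gen.iota W) C
    rw [h, ← map_neg] at hC
    exact Affine.Point.map_injective _ hC
  · -- nonzero points of `Λ` have abscissa in `k(x)`
    intro A hA hA0
    obtain ⟨r, hr⟩ := GenB.exists_hasX_of_mem_Lam W hΔ hA hA0
    exact ⟨r, GenB.xOf_eq_of_hasX W hr, GenB.dPt_of_hasX W hr⟩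
  · -- the places
    intro R hR
    exact
      { uniq := fun h h' => Spec.SpecF.unique h h'
        const := fun c => Spec.specF_algebraMap c hR
        add := fun h h' => Spec.SpecF.add h h'
        mul := fun h h' => Spec.SpecF.mul h h'
        inv := fun h hv => Spec.SpecF.inv h hv }
  · -- the generic abscissa
    intro R hR
    rw [GenB.jF_X]
    cases R with
    | zero => exact absurd rfl hR
    | some x₀ y₀ hR₀ => exact Spec.specF_xg hR₀
  · -- the export
    intro n₀ n₁ n₂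
    obtain ⟨B, hB, hspec⟩ := Spec.exists_finite_spec ℓ W K h₀ n₀ n₁ n₂
    exact ⟨B, hB, fun R hR => xSpec_of_ptSpec ℓ W K (hspec R hR)⟩

/-- **(QR-bar)** `φ² - a φ + ℓ = 0` on `E(K)`, `a = ℓ + 1 - #E(𝔽_ℓ)`. -/
theorem quadBar (hΔ : W.Δ ≠ 0) : QuadBar ℓ W K := (quadBar_kerBoundBar ℓ W K hΔ).1

/-- **(KB-bar)** `#ker (φ - m) ≤ 2 (m² - a m + ℓ)` on `E(K)`. -/
theorem kerBoundBar (hΔ : W.Δ ≠ 0) : KerBoundBar ℓ W K := (quadBar_kerBoundBar ℓ W K hΔ).2

end Fermat.Agent.S58.QuadCount
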