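/-
S58-PREP row 370 (FT-GEN), abstract part: a function `d` on an abelian group which satisfies the
parallelogram law for "generic" pairs (`A, B ≠ 0`, `A ≠ ±B`) satisfies it for all pairs, provided
there are three elements with pairwise different non-zero `d`-values.
-/
import Mathlib

set_option autoImplicit false

namespace Fermat.Agent.S58.FT.Gen

section ParGeneric

variable {G : Type*} [AddCommGroup G] (d : G → ℤ)

omit [AddCommGroup G] in
/-- Auxiliary points: two elements with different non-zero `d`-values, both different from `d A`. -/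
theorem exists_aux (C : Fin 3 → G) (hC : ∀ i, d (C i) ≠ 0)
    (hCd : ∀ i j, i ≠ j → d (C i) ≠ d (C j)) (A : G) :
    ∃ C₁ C₂ : G, d C₁ ≠ 0 ∧ d C₂ ≠ 0 ∧ d C₁ ≠ d C₂ ∧ d C₁ ≠ d A ∧ d C₂ ≠ d A := by
  by_cases h0 : d (C 0) = d A
  · exact ⟨C 1, C 2, hC 1, hC 2, hCd 1 2 (by decide), h0 ▸ hCd 1 0 (by decide),
      h0 ▸ hCd 2 0 (by decide)⟩
  · by_cases h1 : d (C 1) = d A
    · exact ⟨C 0, C 2, hC 0, hC 2, hCd 0 2 (by decide), h0, h1 ▸ hCd 2 1 (by decide)⟩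
    · exact ⟨C 0, C 1, hC 0, hC 1, hCd 0 1 (by decide), h0, h1⟩

variable {d}

omit [AddCommGroup G] in
theorem ne_of_d_ne {X Y : G} (h : d X ≠ d Y) : X ≠ Y := fun e => h (e ▸ rfl)

theorem ne_neg_of_d_ne (dneg : ∀ A, d (-A) = d A) {X Y : G} (h : d X ≠ d Y) : X ≠ -Y :=
  fun e => h (by rw [e, dneg])

theorem ne_zero_of_d_ne (d0 : d 0 = 0) {X : G} (h : d X ≠ 0) : X ≠ 0 :=
  fun e => h (by rw [e, d0])

/-- The "duplication defect" relation for a generic pair of non-2-torsion elements. -/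
theorem dup_add_dup
    (hgen : ∀ A B, A ≠ 0 → B ≠ 0 → A ≠ B → A ≠ -B →
      d (A + B) + d (A - B) = 2 * d A + 2 * d B)
    {X Y : G} (hX : X ≠ 0) (hY : Y ≠ 0) (hXY : X ≠ Y) (hXY' : X ≠ -Y) (hX2 : X + X ≠ 0)
    (hY2 : Y + Y ≠ 0) : d (X + X) + d (Y + Y) = 4 * d X + 4 * d Y := by
  have h1 := hgen X Y hX hY hXY hXY'
  have h2 := hgen (X + Y) (X - Y)
    (fun e => hXY' (eq_neg_of_add_eq_zero_left e))
    (fun e => hXY (sub_eq_zero.mp e))
    (fun e => hY2 (by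
      have : Y + Y = (X + Y) - (X - Y) := by abel
      rw [this, e, sub_self]))
    (fun e => hX2 (by
      have : X + X = (X + Y) + (X - Y) := by abel
      rw [this, e, neg_add_cancel]))
  have e1 : X + Y + (X - Y) = X + X := by abel
  have e2 : X + Y - (X - Y) = Y + Y := by abel
  rw [e1, e2] at h2
  omega

/-- A non-zero 2-torsion element has `d = 0`. -/
theorem d_eq_zero_of_two_torsion (d0 : d 0 = 0) (dneg : ∀ A, d (-A) = d A)
    (hgen : ∀ A B, A ≠ 0 → B ≠ 0 → A ≠ B → A ≠ -B →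
      d (A + B) + d (A - B) = 2 * d A + 2 * d B)
    (C : Fin 3 → G) (hC : ∀ i, d (C i) ≠ 0) (hCd : ∀ i j, i ≠ j → d (C i) ≠ d (C j))
    {A : G} (hA : A ≠ 0) (hA2 : A + A = 0) : d A = 0 := by
  obtain ⟨C₁, C₂, h1, h2, h12, h1A, h2A⟩ := exists_aux d C hC hCd A
  have hC₁ : C₁ ≠ 0 := ne_zero_of_d_ne d0 h1
  have hC₂ : C₂ ≠ 0 := ne_zero_of_d_ne d0 h2
  have hnegA : -A = A := by
    have := eq_neg_of_add_eq_zero_left hA2
    exact this.symm
  -- (1) `d (A + C) = d A + d C` for `C = C₁, C₂`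
  have key : ∀ C' : G, C' ≠ 0 → d C' ≠ d A → 2 * d (A + C') = 2 * d A + 2 * d C' := by
    intro C' hC' hd
    have h := hgen A C' hA hC' (ne_of_d_ne (Ne.symm hd)) (ne_neg_of_d_ne dneg (Ne.symm hd))
    have e : A - C' = -(A + C') := by
      rw [neg_add, hnegA]; abel
    rw [e, dneg] at h
    omega
  have k1 := key C₁ hC₁ h1A
  have k2 := key C₂ hC₂ h2A
  -- (2) the pair `(A + C₁, A + C₂)`
  have h3 := hgen (A + C₁) (A + C₂)
    (fun e => ne_neg_of_d_ne dneg (Ne.symm h1A) (eq_neg_of_add_eq_zero_left e))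
    (fun e => ne_neg_of_d_ne dneg (Ne.symm h2A) (eq_neg_of_add_eq_zero_left e))
    (fun e => ne_of_d_ne h12 (add_left_cancel e))
    (fun e => ne_neg_of_d_ne dneg h12 (by
      have e' : A + C₁ = A + -C₂ := by
        rw [e, neg_add, hnegA]
      exact add_left_cancel e'))
  have e1 : A + C₁ + (A + C₂) = C₁ + C₂ := by
    have : A + C₁ + (A + C₂) = (A + A) + (C₁ + C₂) := by abel
    rw [this, hA2, zero_add]
  have e2 : A + C₁ - (A + C₂) = C₁ - C₂ := by abel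
  rw [e1, e2] at h3
  -- (3) the pair `(C₁, C₂)`
  have h4 := hgen C₁ C₂ hC₁ hC₂ (ne_of_d_ne h12) (ne_neg_of_d_ne dneg h12)
  omega

/-- The duplication formula `d (2A) = 4 d A` for non-2-torsion elements. -/
theorem d_two_nsmul (d0 : d 0 = 0) (dneg : ∀ A, d (-A) = d A)
    (hgen : ∀ A B, A ≠ 0 → B ≠ 0 → A ≠ B → A ≠ -B →
      d (A + B) + d (A - B) = 2 * d A + 2 * d B)
    (C : Fin 3 → G) (hC : ∀ i, d (C i) ≠ 0) (hCd : ∀ i j, i ≠ j → d (C i) ≠ d (C j))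
    {A : G} (hA2 : A + A ≠ 0) : d (A + A) = 4 * d A := by
  have hA : A ≠ 0 := fun e => hA2 (by rw [e, add_zero])
  obtain ⟨C₁, C₂, h1, h2, h12, h1A, h2A⟩ := exists_aux d C hC hCd A
  have hC₁ : C₁ ≠ 0 := ne_zero_of_d_ne d0 h1
  have hC₂ : C₂ ≠ 0 := ne_zero_of_d_ne d0 h2
  have nt : ∀ C' : G, C' ≠ 0 → d C' ≠ 0 → C' + C' ≠ 0 := fun C' hC' hd e =>
    hd (d_eq_zero_of_two_torsion d0 dneg hgen C hC hCd hC' e)
  have r1 := dup_add_dup hgen hA hC₁ (ne_of_d_ne (Ne.symm h1A))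
    (ne_neg_of_d_ne dneg (Ne.symm h1A)) hA2 (nt C₁ hC₁ h1)
  have r2 := dup_add_dup hgen hA hC₂ (ne_of_d_ne (Ne.symm h2A))
    (ne_neg_of_d_ne dneg (Ne.symm h2A)) hA2 (nt C₂ hC₂ h2)
  have r3 := dup_add_dup hgen hC₁ hC₂ (ne_of_d_ne h12) (ne_neg_of_d_ne dneg h12)
    (nt C₁ hC₁ h1) (nt C₂ hC₂ h2)
  omega

/-- **From the generic parallelogram law to the full parallelogram law.** -/
theorem par_of_generic (d0 : d 0 = 0) (dneg : ∀ A, d (-A) = d A)
    (hgen : ∀ A B, A ≠ 0 → B ≠ 0 → A ≠ B → A ≠ -B →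
      d (A + B) + d (A - B) = 2 * d A + 2 * d B)
    (C : Fin 3 → G) (hC : ∀ i, d (C i) ≠ 0) (hCd : ∀ i j, i ≠ j → d (C i) ≠ d (C j))
    (A B : G) : d (A + B) + d (A - B) = 2 * d A + 2 * d B := by
  have dbl : ∀ X : G, X ≠ 0 → d (X + X) = 4 * d X := by
    intro X hX
    by_cases h2 : X + X = 0
    · rw [h2, d0, d_eq_zero_of_two_torsion d0 dneg hgen C hC hCd hX h2]; ring
    · exact d_two_nsmul d0 dneg hgen C hC hCd h2
  by_cases hA : A = 0
  · subst hA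
    rw [zero_add, zero_sub, dneg, d0]; ring
  by_cases hB : B = 0
  · subst hB
    rw [add_zero, sub_zero, d0]; ring
  by_cases hAB : A = B
  · subst hAB
    rw [sub_self, d0, dbl A hA]; ring
  by_cases hAB' : A = -B
  · subst hAB'
    have e : -B - B = -(B + B) := by abel
    rw [neg_add_cancel, d0, e, dneg, dneg, dbl B hB]; ring
  exact hgen A B hA hB hAB hAB'

end ParGeneric

end Fermat.Agent.S58.FT.Gen
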