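/-
S58-PREP row 370 (FT-GEN), part 2: the anti-invariant points `Λ` of `E` over its function field,
the degree `d`, the parallelogram law, `d (φ A) = ℓ d A`, and the `DegData` package.
-/
import Fermat.Agent.S58.FT.GenField
import Fermat.Agent.S58.FT.ParGeneric
import Fermat.Agent.S58.FTInterfaces
import Fermat.Agent.Lib.ECBiquad.Generic

set_option autoImplicit false

namespace Fermat.Agent.S58.FT.Gen

open WeierstrassCurve Polynomial
open scoped WeierstrassCurve.Affine
open Fermat.Agent.Lib.ECBiquad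

/-! ### Two facts about heights of rational functions -/

section Height

variable {K : Type*} [Field K]

theorem ht_pow (f : RatFunc K) (n : ℕ) : ht (f ^ n) = n * ht f := by
  have hb : f.denom ^ n ≠ 0 := pow_ne_zero n f.denom_ne_zero
  have hcop : IsCoprime (f.num ^ n) (f.denom ^ n) := (RatFunc.isCoprime_num_denom f).pow
  have hf : f ^ n = algebraMap K[X] (RatFunc K) (f.num ^ n) /
      algebraMap K[X] (RatFunc K) (f.denom ^ n) := by
    rw [map_pow, map_pow, ← div_pow, RatFunc.num_div_denom]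
  rw [ht_eq_of_rep hb hcop hf, natDegree_pow, natDegree_pow, Nat.mul_max_mul_left]
  rfl

theorem ht_C (c : K) : ht (RatFunc.C c) = 0 := by
  simp [ht, RatFunc.num_C, RatFunc.denom_C]

theorem ht_eq_zero_iff (f : RatFunc K) : ht f = 0 ↔ ∃ c : K, f = RatFunc.C c := by
  constructor
  · intro h
    have h1 : f.num.natDegree = 0 := by
      have := le_max_left f.num.natDegree f.denom.natDegree
      unfold ht at h; omega
    have h2 : f.denom.natDegree = 0 := by
      have := le_max_right f.num.natDegree f.denom.natDegree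
      unfold ht at h; omega
    refine ⟨f.num.coeff 0 / f.denom.coeff 0, ?_⟩
    conv_lhs => rw [← RatFunc.num_div_denom f]
    rw [eq_C_of_natDegree_eq_zero h1, eq_C_of_natDegree_eq_zero h2, RatFunc.algebraMap_C,
      RatFunc.algebraMap_C, map_div₀]
    simp
  · rintro ⟨c, rfl⟩
    exact ht_C c

end Height

/-! ### The product formula for `x(P+Q) x(P-Q)` -/

section Product

variable {K : Type*} [Field K] [DecidableEq K] (W : WeierstrassCurve K)

theorem xOf_add_mul_xOf_sub {P Q : W.toAffine.Point} (hP : P ≠ 0) (hQ : Q ≠ 0)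
    (hx : xOf W P ≠ xOf W Q) :
    xOf W (P + Q) * xOf W (P - Q) = prodNum W (xOf W P) (xOf W Q) / (xOf W P - xOf W Q) ^ 2 := by
  cases P with
  | zero => exact absurd rfl hP
  | some x₁ y₁ h₁ =>
    cases Q with
    | zero => exact absurd rfl hQ
    | some x₂ y₂ h₂ =>
      simp only [xOf_some] at hx ⊢
      have hx' : x₁ - x₂ ≠ 0 := sub_ne_zero.mpr hx
      rw [sub_eq_add_neg, Affine.Point.neg_some, Affine.Point.add_of_X_ne hx,
        Affine.Point.add_of_X_ne hx]
      simp only [xOf_some]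
      rw [Affine.slope_of_X_ne hx, Affine.slope_of_X_ne hx]
      have e₁ := (Affine.equation_iff _ _).mp h₁.1
      have e₂ := (Affine.equation_iff _ _).mp h₂.1
      simp only [Affine.addX, Affine.negY, prodNum, b₄, b₆, b₈]
      field_simp
      grind

end Product

section General

variable {k : Type*} [Field k] (W : WeierstrassCurve k)

/-- The points of `E` over its function field. -/
abbrev EF : Type _ := (W.toAffine⁄(FF W)).Point

theorem algebraMap_poly_C (c : k) : algebraMap k[X] (FF W) (C c) = algebraMap k (FF W) c := by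
  rw [← Polynomial.algebraMap_eq, ← IsScalarTower.algebraMap_apply]

theorem baseChange_a₁ : (W.toAffine⁄(FF W)).a₁ = algebraMap k (FF W) W.a₁ :=
  WeierstrassCurve.map_a₁ W _

theorem baseChange_a₂ : (W.toAffine⁄(FF W)).a₂ = algebraMap k (FF W) W.a₂ :=
  WeierstrassCurve.map_a₂ W _

theorem baseChange_a₃ : (W.toAffine⁄(FF W)).a₃ = algebraMap k (FF W) W.a₃ :=
  WeierstrassCurve.map_a₃ W _

theorem baseChange_a₄ : (W.toAffine⁄(FF W)).a₄ = algebraMap k (FF W) W.a₄ :=
  WeierstrassCurve.map_a₄ W _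

theorem baseChange_a₆ : (W.toAffine⁄(FF W)).a₆ = algebraMap k (FF W) W.a₆ :=
  WeierstrassCurve.map_a₆ W _

theorem equation_gen : (W.toAffine⁄(FF W)).Equation (xF W) (yF W) := by
  rw [Affine.equation_iff]
  have h := curve_F W
  simp only [cPoly, rPoly, map_add, map_mul, map_pow, algebraMap_poly_C] at h
  rw [baseChange_a₁, baseChange_a₂, baseChange_a₃, baseChange_a₄, baseChange_a₆, xF]
  linear_combination h

theorem baseChange_Δ_ne_zero (hΔ : W.Δ ≠ 0) : (W.toAffine⁄(FF W)).Δ ≠ 0 := by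
  have : (W.toAffine⁄(FF W)).Δ = algebraMap k (FF W) W.Δ := WeierstrassCurve.map_Δ W _
  rw [this]
  exact (map_ne_zero (algebraMap k (FF W))).mpr hΔ

theorem nonsingular_gen (hΔ : W.Δ ≠ 0) : (W.toAffine⁄(FF W)).Nonsingular (xF W) (yF W) :=
  (Affine.equation_iff_nonsingular_of_Δ_ne_zero (baseChange_Δ_ne_zero W hΔ)).mp (equation_gen W)

/-- The generic point `P₀ = (x, y)`. -/
noncomputable def genPt (hΔ : W.Δ ≠ 0) : EF W :=
  Affine.Point.some (xF W) (yF W) (nonsingular_gen W hΔ)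

theorem genPt_ne_zero (hΔ : W.Δ ≠ 0) : genPt W hΔ ≠ 0 := Affine.Point.some_ne_zero _

theorem xOf_genPt (hΔ : W.Δ ≠ 0) : xOf (W.toAffine⁄(FF W)) (genPt W hΔ) = xF W := rfl

variable [DecidableEq (FF W)]

/-- The action of the hyperelliptic involution on points. -/
noncomputable def iotaPt : EF W →+ EF W := Affine.Point.map (W' := W.toAffine) (iota W)

/-- The anti-invariant points: `ι_* A = -A`. -/
noncomputable def Lam : AddSubgroup (EF W) := (iotaPt W + AddMonoidHom.id (EF W)).ker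

theorem mem_Lam {A : EF W} : A ∈ Lam W ↔ iotaPt W A = -A := by
  rw [Lam, AddMonoidHom.mem_ker, AddMonoidHom.add_apply, AddMonoidHom.id_apply,
    add_eq_zero_iff_eq_neg]

omit [DecidableEq (FF W)] in
theorem iota_cPoly_negY :
    -yF W - algebraMap k[X] (FF W) (cPoly W) = (W.toAffine⁄(FF W)).negY (xF W) (yF W) := by
  rw [Affine.negY, baseChange_a₁, baseChange_a₃]
  simp only [cPoly, map_add, map_mul, algebraMap_poly_C, xF]
  ring

theorem genPt_mem_Lam (hΔ : W.Δ ≠ 0) : genPt W hΔ ∈ Lam W := by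
  rw [mem_Lam, genPt, Affine.Point.neg_some, iotaPt, Affine.Point.map_some]
  simp only [Affine.Point.some.injEq]
  exact ⟨iota_xF W, (iota_yF W).trans (iota_cPoly_negY W)⟩

/-- Membership of an affine point in `Λ`, in coordinates. -/
theorem some_mem_Lam_iff {x y : FF W} (h : (W.toAffine⁄(FF W)).Nonsingular x y) :
    Affine.Point.some x y h ∈ Lam W ↔
      iota W x = x ∧ iota W y = (W.toAffine⁄(FF W)).negY x y := by
  rw [mem_Lam, Affine.Point.neg_some, iotaPt, Affine.Point.map_some]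
  simp only [Affine.Point.some.injEq]

/-- The `x`-coordinate of a point of `Λ` is fixed by the involution. -/
theorem iota_xOf {A : EF W} (hA : A ∈ Lam W) :
    iota W (xOf (W.toAffine⁄(FF W)) A) = xOf (W.toAffine⁄(FF W)) A := by
  rw [mem_Lam] at hA
  cases A with
  | zero => exact map_zero _
  | some x y h =>
    rw [Affine.Point.neg_some, iotaPt, Affine.Point.map_some] at hA
    simp only [Affine.Point.some.injEq] at hA
    exact hA.1

/-- The `x`-coordinate of a point of `Λ` as a rational function of `x` (junk outside `Λ`). -/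
noncomputable def xr (A : EF W) : RatFunc k :=
  open Classical in
  if h : ∃ r : RatFunc k, xEmb W r = xOf (W.toAffine⁄(FF W)) A then h.choose else 0

omit [DecidableEq (FF W)] in
theorem xr_congr {A B : EF W}
    (h : xOf (W.toAffine⁄(FF W)) A = xOf (W.toAffine⁄(FF W)) B) : xr W A = xr W B := by
  unfold xr
  rw [h]

theorem xEmb_xr (hΔ : W.Δ ≠ 0) {A : EF W} (hA : A ∈ Lam W) :
    xEmb W (xr W A) = xOf (W.toAffine⁄(FF W)) A := by
  have hex : ∃ r : RatFunc k, xEmb W r = xOf (W.toAffine⁄(FF W)) A :=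
    exists_xEmb_eq_of_iota_eq W hΔ (iota_xOf W hA)
  unfold xr
  rw [dif_pos hex]
  exact hex.choose_spec

omit [DecidableEq (FF W)] in
/-- Characterisation of `xr` by injectivity of `xEmb`. -/
theorem xr_eq_of_xEmb_eq {A : EF W} {r : RatFunc k}
    (h : xEmb W r = xOf (W.toAffine⁄(FF W)) A) : xr W A = r := by
  have hex : ∃ r : RatFunc k, xEmb W r = xOf (W.toAffine⁄(FF W)) A := ⟨r, h⟩
  apply xEmb_injective W
  unfold xr
  rw [dif_pos hex, hex.choose_spec, h]

/-- The degree of a point: the height of its `x`-coordinate. -/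
noncomputable def dPt : EF W → ℤ
  | .zero => 0
  | .some x y h => (ht (xr W (.some x y h)) : ℤ)

omit [DecidableEq (FF W)] in
theorem dPt_zero : dPt W 0 = 0 := rfl

omit [DecidableEq (FF W)] in
theorem dPt_of_ne_zero {A : EF W} (hA : A ≠ 0) : dPt W A = (ht (xr W A) : ℤ) := by
  cases A with
  | zero => exact absurd rfl hA
  | some x y h => rfl

omit [DecidableEq (FF W)] in
theorem dPt_nonneg (A : EF W) : 0 ≤ dPt W A := by
  cases A with
  | zero => exact le_refl _
  | some x y h => exact Int.natCast_nonneg _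

omit [DecidableEq (FF W)] in
theorem dPt_neg (A : EF W) : dPt W (-A) = dPt W A := by
  cases A with
  | zero => rfl
  | some x y h =>
    rw [Affine.Point.neg_some]
    exact congrArg (fun r => (ht r : ℤ)) (xr_congr W rfl)

omit [DecidableEq (FF W)] in
theorem dPt_genPt (hΔ : W.Δ ≠ 0) : dPt W (genPt W hΔ) = 1 := by
  rw [dPt_of_ne_zero W (genPt_ne_zero W hΔ),
    xr_eq_of_xEmb_eq W (A := genPt W hΔ) (r := RatFunc.X) (by rw [xEmb_X, xOf_genPt]), ht_X]
  rfl

omit [DecidableEq (FF W)] in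
theorem dPt_eq_zero_iff {A : EF W} :
    dPt W A = 0 ↔ A = 0 ∨ ∃ c : k, xr W A = RatFunc.C c := by
  cases A with
  | zero => exact ⟨fun _ => Or.inl rfl, fun _ => rfl⟩
  | some x y h =>
    have h0 : Affine.Point.some x y h ≠ (0 : EF W) := Affine.Point.some_ne_zero _
    rw [dPt_of_ne_zero W h0, Int.natCast_eq_zero, ht_eq_zero_iff]
    exact ⟨fun hc => Or.inr hc, fun hc => hc.resolve_left h0⟩

/-- **The parallelogram law, generic case.** -/
theorem dPt_par_generic (hΔ : W.Δ ≠ 0) {A B : EF W} (hA : A ∈ Lam W) (hB : B ∈ Lam W)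
    (hA0 : A ≠ 0) (hB0 : B ≠ 0) (hAB : A ≠ B) (hAB' : A ≠ -B) :
    dPt W (A + B) + dPt W (A - B) = 2 * dPt W A + 2 * dPt W B := by
  set W' : WeierstrassCurve (FF W) := W.toAffine⁄(FF W) with hW'
  have hx : xOf W' A ≠ xOf W' B := by
    intro h
    rcases eq_or_eq_neg_of_xOf_eq W' hA0 hB0 h with h' | h'
    · exact hAB h'
    · exact hAB' h'
  obtain ⟨hs0, hd0⟩ := add_sub_ne_zero W' hA0 hB0 hx
  have hsum := xOf_add_add_xOf_sub W' hA0 hB0 hx
  have hprod := xOf_add_mul_xOf_sub W' hA0 hB0 hx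
  have eA := xEmb_xr W hΔ hA
  have eB := xEmb_xr W hΔ hB
  have eS := xEmb_xr W hΔ ((Lam W).add_mem hA hB)
  have eD := xEmb_xr W hΔ ((Lam W).sub_mem hA hB)
  rw [← eA, ← eB, ← eS, ← eD] at hsum hprod
  have hne : xEmb W (xr W A) - xEmb W (xr W B) ≠ 0 := by
    rw [eA, eB]; exact sub_ne_zero.mpr hx
  have hb₂ : W'.b₂ = algebraMap k (FF W) W.b₂ := WeierstrassCurve.map_b₂ W _
  have hb₄ : W'.b₄ = algebraMap k (FF W) W.b₄ := WeierstrassCurve.map_b₄ W _
  have hb₆ : W'.b₆ = algebraMap k (FF W) W.b₆ := WeierstrassCurve.map_b₆ W _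
  have hb₈ : W'.b₈ = algebraMap k (FF W) W.b₈ := WeierstrassCurve.map_b₈ W _
  have h₀ : xr W (A + B) * xr W (A - B) * F2 (xr W A * xr W B) (xr W A + xr W B) 1 =
      F0 (RatFunc.C W.b₄) (RatFunc.C W.b₆) (RatFunc.C W.b₈) (xr W A * xr W B)
        (xr W A + xr W B) 1 := by
    apply xEmb_injective W
    simp only [F0, F2, map_mul, map_add, map_sub, map_pow, map_one, map_ofNat, xEmb_C]
    rw [hprod]
    simp only [prodNum, hb₄, hb₆, hb₈]
    field_simp
    ring
  have h₁ : (xr W (A + B) + xr W (A - B)) * F2 (xr W A * xr W B) (xr W A + xr W B) 1 =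
      F1 (RatFunc.C W.b₂) (RatFunc.C W.b₄) (RatFunc.C W.b₆) (xr W A * xr W B)
        (xr W A + xr W B) 1 := by
    apply xEmb_injective W
    simp only [F1, F2, map_mul, map_add, map_sub, map_pow, map_one, map_ofNat, xEmb_C]
    rw [hsum]
    simp only [sumNum, hb₂, hb₄, hb₆]
    field_simp
    ring
  have key := ht_add_ht_of_rel W hΔ h₀ h₁
  rw [dPt_of_ne_zero W hs0, dPt_of_ne_zero W hd0, dPt_of_ne_zero W hA0, dPt_of_ne_zero W hB0]
  have key' : ((ht (xr W (A + B)) + ht (xr W (A - B)) : ℕ) : ℤ) =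
      ((2 * (ht (xr W A) + ht (xr W B)) : ℕ) : ℤ) := congrArg _ key
  push_cast at key'
  linarith

end General

section Frob

variable {ℓ : ℕ} [Fact ℓ.Prime] (W : WeierstrassCurve (ZMod ℓ)) [DecidableEq (FF W)]

omit [DecidableEq (FF W)] in
theorem frob_apply (z : FF W) : FiniteField.frobeniusAlgHom (ZMod ℓ) (FF W) z = z ^ ℓ := by
  rw [FiniteField.frobeniusAlgHom_apply, ZMod.card]

omit [DecidableEq (FF W)] in
theorem iota_comp_frob :
    (iota W).comp (FiniteField.frobeniusAlgHom (ZMod ℓ) (FF W)) =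
      (FiniteField.frobeniusAlgHom (ZMod ℓ) (FF W)).comp (iota W) := by
  refine AlgHom.ext fun z => ?_
  rw [AlgHom.comp_apply, AlgHom.comp_apply, frob_apply, frob_apply, map_pow]

theorem frobPt_mem_Lam {A : EF W} (hA : A ∈ Lam W) : frobPt ℓ W (FF W) A ∈ Lam W := by
  rw [mem_Lam] at hA ⊢
  rw [frobPt, iotaPt, Affine.Point.map_map, iota_comp_frob, ← Affine.Point.map_map, ← map_neg]
  exact congrArg _ hA

theorem frobPt_eq_zero_iff {A : EF W} : frobPt ℓ W (FF W) A = 0 ↔ A = 0 := by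
  constructor
  · intro h
    exact Affine.Point.map_injective (W' := W.toAffine) _ (h.trans (map_zero _).symm)
  · rintro rfl
    exact map_zero _

theorem xOf_frobPt (A : EF W) :
    xOf (W.toAffine⁄(FF W)) (frobPt ℓ W (FF W) A) = xOf (W.toAffine⁄(FF W)) A ^ ℓ := by
  cases A with
  | zero =>
    show (0 : FF W) = 0 ^ ℓ
    rw [zero_pow (Fact.out : ℓ.Prime).ne_zero]
  | some x y h =>
    rw [frobPt, Affine.Point.map_some]
    exact frob_apply W x

theorem xr_frobPt (hΔ : W.Δ ≠ 0) {A : EF W} (hA : A ∈ Lam W) :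
    xr W (frobPt ℓ W (FF W) A) = xr W A ^ ℓ := by
  apply xr_eq_of_xEmb_eq
  rw [map_pow, xEmb_xr W hΔ hA, xOf_frobPt]

theorem dPt_frobPt (hΔ : W.Δ ≠ 0) {A : EF W} (hA : A ∈ Lam W) :
    dPt W (frobPt ℓ W (FF W) A) = ℓ * dPt W A := by
  by_cases hA0 : A = 0
  · subst hA0
    rw [map_zero, dPt_zero, mul_zero]
  · have h0 : frobPt ℓ W (FF W) A ≠ 0 := fun h => hA0 ((frobPt_eq_zero_iff W).mp h)
    rw [dPt_of_ne_zero W h0, dPt_of_ne_zero W hA0, xr_frobPt W hΔ hA, ht_pow]
    push_cast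
    ring

/-- **The parallelogram law on `Λ`, all cases.** -/
theorem dPt_par (hΔ : W.Δ ≠ 0) {A B : EF W} (hA : A ∈ Lam W) (hB : B ∈ Lam W) :
    dPt W (A + B) + dPt W (A - B) = 2 * dPt W A + 2 * dPt W B := by
  have hℓ : 2 ≤ ℓ := (Fact.out : ℓ.Prime).two_le
  -- the three auxiliary points `P₀`, `φ P₀`, `φ² P₀`
  let P0 : Lam W := ⟨genPt W hΔ, genPt_mem_Lam W hΔ⟩
  let P1 : Lam W := ⟨frobPt ℓ W (FF W) P0.1, frobPt_mem_Lam W P0.2⟩
  let P2 : Lam W := ⟨frobPt ℓ W (FF W) P1.1, frobPt_mem_Lam W P1.2⟩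
  let d : Lam W → ℤ := fun X => dPt W X.1
  have d0 : d P0 = 1 := dPt_genPt W hΔ
  have d1 : d P1 = ℓ := by
    show dPt W (frobPt ℓ W (FF W) P0.1) = ℓ
    rw [dPt_frobPt W hΔ P0.2]
    show (ℓ : ℤ) * d P0 = ℓ
    rw [d0, mul_one]
  have d2 : d P2 = (ℓ : ℤ) * ℓ := by
    show dPt W (frobPt ℓ W (FF W) P1.1) = (ℓ : ℤ) * ℓ
    rw [dPt_frobPt W hΔ P1.2]
    show (ℓ : ℤ) * d P1 = (ℓ : ℤ) * ℓ
    rw [d1]
  have hℓ' : (2 : ℤ) ≤ ℓ := by exact_mod_cast hℓ
  have hℓℓ : (ℓ : ℤ) < (ℓ : ℤ) * ℓ := by nlinarith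
  have key := par_of_generic (G := Lam W) (d := d) (dPt_zero W) (fun X => dPt_neg W X.1)
    (fun X Y hX hY hXY hXY' => dPt_par_generic W hΔ X.2 Y.2
      (fun h => hX (Subtype.ext h)) (fun h => hY (Subtype.ext h))
      (fun h => hXY (Subtype.ext h)) (fun h => hXY' (Subtype.ext h)))
    ![P0, P1, P2]
    (by
      intro i
      fin_cases i
      · show d P0 ≠ 0
        rw [d0]; norm_num
      · show d P1 ≠ 0
        rw [d1]; omega
      · show d P2 ≠ 0
        rw [d2]; nlinarith)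
    (by
      intro i j hij
      fin_cases i <;> fin_cases j <;> first
        | exact absurd rfl hij
        | (show d P0 ≠ d P1; rw [d0, d1]; omega)
        | (show d P0 ≠ d P2; rw [d0, d2]; nlinarith)
        | (show d P1 ≠ d P0; rw [d0, d1]; omega)
        | (show d P1 ≠ d P2; rw [d1, d2]; omega)
        | (show d P2 ≠ d P0; rw [d0, d2]; nlinarith)
        | (show d P2 ≠ d P1; rw [d1, d2]; omega))
    ⟨A, hA⟩ ⟨B, hB⟩
  exact key

/-- The degree package on `Λ` (given the composition identity `d_comp`, row S58-3). -/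
noncomputable def degData (hΔ : W.Δ ≠ 0)
    (hcomp : dPt W (frobPt ℓ W (FF W) (frobPt ℓ W (FF W) (genPt W hΔ) + genPt W hΔ) +
        (frobPt ℓ W (FF W) (genPt W hΔ) + genPt W hΔ)) =
      dPt W (frobPt ℓ W (FF W) (genPt W hΔ) + genPt W hΔ) ^ 2) : DegData ℓ where
  G := Lam W
  d := fun A => dPt W (A : EF W)
  P0 := ⟨genPt W hΔ, genPt_mem_Lam W hΔ⟩
  φ := ((frobPt ℓ W (FF W)).comp (Lam W).subtype).codRestrict (Lam W)
    (fun A => frobPt_mem_Lam W A.2)
  d_nonneg := fun _ => dPt_nonneg W _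
  d_zero := dPt_zero W
  par := fun A B => dPt_par W hΔ A.2 B.2
  d_P0 := dPt_genPt W hΔ
  d_φ := fun A => dPt_frobPt W hΔ A.2
  d_comp := hcomp

end Frob

end Fermat.Agent.S58.FT.Gen
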