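/-
S58-PREP rows 369–371 glued: the concrete degree package on `Λ` (no hypothesis left) and the
three consequences of the quadratic-form algebra, stated on points of `E(F)`:

* `dPt_comp`   : the composition identity `d ((φ+1)² P₀) = d ((φ+1) P₀) ^ 2` (row 371 instantiated);
* `degDataFinal` : the `DegData ℓ` of the curve;
* `dPt_quad`, `dPt_sub_zsmul`, `trF_sq_le` : (FT-ALG) for this package.
-/
import Fermat.Agent.S58.FT.Gen
import Fermat.Agent.S58.FT.Comp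
import Fermat.Agent.S58.FT.Alg

set_option autoImplicit false

namespace Fermat.Agent.S58.FT.Gen

open WeierstrassCurve Polynomial
open scoped WeierstrassCurve.Affine
open Fermat.Agent.Lib.ECBiquad

section Bridge

variable {k : Type*} [Field k] (W : WeierstrassCurve k)

theorem comp_xF_eq : Comp.xF W = xF W := by
  rw [xF, IsScalarTower.algebraMap_apply k[X] (CR W) (FF W)]
  rfl

theorem comp_yF_eq : Comp.yF W = yF W := rfl

theorem comp_genPt_eq (hΔ : W.Δ ≠ 0) : Comp.genPt W hΔ = genPt W hΔ := by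
  rw [Comp.genPt, genPt]
  simp only [Affine.Point.some.injEq]
  exact ⟨comp_xF_eq W, comp_yF_eq W⟩

theorem comp_ratIncl_eq : Comp.ratIncl W = xEmb W :=
  (Comp.eq_ratIncl W (xEmb W) (by rw [xEmb_X, comp_xF_eq])).symm

variable [DecidableEq (FF W)]

/-- A nonzero point of `Λ` has `x`-coordinate `xr A` in the sense of `Comp.HasX`. -/
theorem hasX_xr (hΔ : W.Δ ≠ 0) {A : EF W} (hA : A ∈ Lam W) (hA0 : A ≠ 0) :
    Comp.HasX W A (xr W A) := by
  have h := xEmb_xr W hΔ hA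
  cases A with
  | zero => exact absurd rfl hA0
  | some x y hxy =>
    apply Comp.hasX_of_x_eq
    rw [comp_ratIncl_eq, h]
    rfl

end Bridge

section Final

variable {ℓ : ℕ} [Fact ℓ.Prime] (W : WeierstrassCurve (ZMod ℓ)) [DecidableEq (FF W)]

/-- Duplication on `Λ`. -/
theorem dPt_two (hΔ : W.Δ ≠ 0) {A : EF W} (hA : A ∈ Lam W) : dPt W (A + A) = 4 * dPt W A := by
  have h := dPt_par W hΔ hA hA
  rw [sub_self, dPt_zero] at h
  linarith

/-- **The composition identity** `d ((φ+1)² P₀) = d ((φ+1) P₀) ^ 2`. -/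
theorem dPt_comp (hΔ : W.Δ ≠ 0) :
    dPt W (frobPt ℓ W (FF W) (frobPt ℓ W (FF W) (genPt W hΔ) + genPt W hΔ) +
        (frobPt ℓ W (FF W) (genPt W hΔ) + genPt W hΔ)) =
      dPt W (frobPt ℓ W (FF W) (genPt W hΔ) + genPt W hΔ) ^ 2 := by
  have h := Comp.d_comp_of ℓ W (Lam W) (dPt W) hΔ
    (fun A hA hA0 => ⟨xr W A, hasX_xr W hΔ hA hA0, dPt_of_ne_zero W hA0⟩)
    (dPt_zero W) (fun A hA => dPt_two W hΔ hA) (fun A hA => frobPt_mem_Lam W hA)
    (by rw [comp_genPt_eq]; exact genPt_mem_Lam W hΔ)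
  rw [comp_genPt_eq] at h
  exact h

/-- More generally `d (φ A + A) = d (φ P₀ + P₀) * d A` on `Λ`. -/
theorem dPt_frob_add (hΔ : W.Δ ≠ 0) {A : EF W} (hA : A ∈ Lam W) :
    dPt W (frobPt ℓ W (FF W) A + A) =
      dPt W (frobPt ℓ W (FF W) (genPt W hΔ) + genPt W hΔ) * dPt W A := by
  have h := Comp.d_frob_add_of ℓ W (Lam W) (dPt W) hΔ
    (fun A hA hA0 => ⟨xr W A, hasX_xr W hΔ hA hA0, dPt_of_ne_zero W hA0⟩)
    (dPt_zero W) (fun A hA => dPt_two W hΔ hA) (fun A hA => frobPt_mem_Lam W hA)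
    (by rw [comp_genPt_eq]; exact genPt_mem_Lam W hΔ) hA
  rw [comp_genPt_eq] at h
  exact h

/-- **The degree package of the curve** (no hypothesis left). -/
noncomputable def degDataFinal (hΔ : W.Δ ≠ 0) : DegData ℓ := degData W hΔ (dPt_comp W hΔ)

/-- The trace: `d ((φ + 1) P₀) - ℓ - 1`. -/
noncomputable def trF (hΔ : W.Δ ≠ 0) : ℤ :=
  dPt W (frobPt ℓ W (FF W) (genPt W hΔ) + genPt W hΔ) - ℓ - 1

theorem degDataFinal_tr (hΔ : W.Δ ≠ 0) : (degDataFinal W hΔ).tr = trF W hΔ := rfl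

/-- **(FT-ALG) (i)** for the curve: `d ((φ² - tr φ + ℓ) P₀) = 0`. -/
theorem dPt_quad (hΔ : W.Δ ≠ 0) :
    dPt W (frobPt ℓ W (FF W) (frobPt ℓ W (FF W) (genPt W hΔ)) -
      trF W hΔ • frobPt ℓ W (FF W) (genPt W hΔ) + (ℓ : ℤ) • genPt W hΔ) = 0 :=
  (Alg.degAlgebra ℓ (degDataFinal W hΔ)).1

/-- **(FT-ALG) (ii)** for the curve: `d ((φ - m) P₀) = m² - tr m + ℓ`. -/
theorem dPt_sub_zsmul (hΔ : W.Δ ≠ 0) (m : ℤ) :
    dPt W (frobPt ℓ W (FF W) (genPt W hΔ) - m • genPt W hΔ) = m ^ 2 - trF W hΔ * m + ℓ :=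
  (Alg.degAlgebra ℓ (degDataFinal W hΔ)).2.1 m

/-- **(FT-ALG) (iii)** for the curve: `tr² ≤ 4 ℓ`. -/
theorem trF_sq_le (hΔ : W.Δ ≠ 0) : trF W hΔ ^ 2 ≤ 4 * ℓ :=
  (Alg.degAlgebra ℓ (degDataFinal W hΔ)).2.2

end Final

end Fermat.Agent.S58.FT.Gen
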