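/-
The Hasse bound, as a corollary of the kernel bound `QuadCount.kerBoundBar` (S58-PREP, row 373):
for an elliptic curve `W` over `𝔽_ℓ` with trace of Frobenius `a = ℓ + 1 - #W(𝔽_ℓ)`,

  `a ^ 2 ≤ 4 ℓ`.

Indeed `#ker (φ - m) ≤ 2 (m² - a m + ℓ)` and `0 ∈ ker (φ - m)` give `m² - a m + ℓ ≥ 1` for every
integer `m`; a monic integral quadratic that is positive at every integer has discriminant `≤ 0`.
-/
import Fermat.Agent.S58.FT.QuadCount

set_option autoImplicit false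

namespace Fermat.Agent.S58.Hasse

open WeierstrassCurve
open scoped WeierstrassCurve.Affine

/-- A monic integral quadratic `m² - a m + l` that is `≥ 1` at every integer has non-positive
discriminant. -/
theorem sq_le_of_forall_one_le {a l : ℤ} (h : ∀ m : ℤ, 1 ≤ m ^ 2 - a * m + l) :
    a ^ 2 ≤ 4 * l := by
  by_contra hcon
  rw [not_le] at hcon
  rcases Int.even_or_odd' a with ⟨k, rfl | rfl⟩
  · have := h k
    nlinarith
  · have := h k
    nlinarith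

/-- **Hasse bound** for an elliptic curve over `𝔽_ℓ`: `(ℓ + 1 - #W(𝔽_ℓ))² ≤ 4 ℓ`. -/
theorem traceOfFrobenius_sq_le (ℓ : ℕ) [Fact ℓ.Prime] (W : WeierstrassCurve (ZMod ℓ))
    (hΔ : W.Δ ≠ 0) : W.traceOfFrobenius ^ 2 ≤ 4 * (ℓ : ℤ) := by
  classical
  apply sq_le_of_forall_one_le
  intro m
  obtain ⟨hfin, hle⟩ := QuadCount.kerBoundBar ℓ W (AlgebraicClosure (ZMod ℓ)) hΔ m
  have h0 : (0 : (W.toAffine⁄(AlgebraicClosure (ZMod ℓ))).Point) ∈
      {R : (W.toAffine⁄(AlgebraicClosure (ZMod ℓ))).Point |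
        frobPt ℓ W (AlgebraicClosure (ZMod ℓ)) R = m • R} := by
    show frobPt ℓ W (AlgebraicClosure (ZMod ℓ)) 0 = m • 0
    rw [map_zero]
    exact (zsmul_zero m).symm
  have hpos := (Set.ncard_pos hfin).mpr ⟨0, h0⟩
  omega

/-- **Hasse bound** for an integral model at a good prime: `a_ℓ² ≤ 4 ℓ`. -/
theorem apOfModel_sq_le (W : WeierstrassCurve ℤ) {ℓ : ℕ} (hℓ : ℓ.Prime)
    (hgood : ¬ (ℓ : ℤ) ∣ W.Δ) : W.apOfModel ℓ ^ 2 ≤ 4 * (ℓ : ℤ) := by
  have : Fact ℓ.Prime := ⟨hℓ⟩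
  have hΔ : (W.reductionMod ℓ).Δ ≠ 0 := by
    rw [WeierstrassCurve.reductionMod, WeierstrassCurve.map_Δ]
    intro h
    apply hgood
    have h' : ((W.Δ : ℤ) : ZMod ℓ) = 0 := h
    exact (ZMod.intCast_zmod_eq_zero_iff_dvd _ _).mp h'
  exact traceOfFrobenius_sq_le ℓ (W.reductionMod ℓ) hΔ

end Fermat.Agent.S58.Hasse
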