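/-
S58-PREP, row 373 (FT-QR + FT-COUNT), part (B)(i): inseparable rational functions over `𝔽_ℓ`
are `ℓ`-th powers, and base change of the reduced fraction of a rational function.
-/
import Mathlib
import Fermat.Agent.Lib.ECBiquad.Height

set_option autoImplicit false

namespace Fermat.Agent.S58.Sep

open Polynomial
open Fermat.Agent.Lib.ECBiquad

section Wronskian

variable {k : Type*} [Field k]

/-- Coprime polynomials with vanishing Wronskian have vanishing derivatives. -/
theorem derivative_eq_zero_of_wronskian {a b : k[X]} (hab : IsCoprime a b) (hb : b ≠ 0)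
    (h : derivative a * b - a * derivative b = 0) : derivative a = 0 ∧ derivative b = 0 := by
  have h' : derivative a * b = a * derivative b := sub_eq_zero.mp h
  have hbd : b ∣ derivative b := by
    have : b ∣ a * derivative b := ⟨derivative a, by rw [← h']; ring⟩
    exact hab.symm.dvd_of_dvd_mul_left this
  have hb' : derivative b = 0 := by
    by_contra hne
    by_cases hd : b.natDegree = 0
    · apply hne
      rw [eq_C_of_natDegree_eq_zero hd, derivative_C]
    · have h1 := natDegree_le_of_dvd hbd hne
      have h2 := natDegree_derivative_lt hd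
      omega
  refine ⟨?_, hb'⟩
  rw [hb', mul_zero] at h'
  exact (mul_eq_zero.mp h').resolve_right hb

end Wronskian

section Pow

variable {ℓ : ℕ} [Fact ℓ.Prime]

/-- A polynomial over `𝔽_ℓ` with zero derivative is an `ℓ`-th power. -/
theorem exists_pow_eq_of_derivative_eq_zero {a : (ZMod ℓ)[X]} (h : derivative a = 0) :
    ∃ c : (ZMod ℓ)[X], c ^ ℓ = a := by
  have hℓ : ℓ ≠ 0 := (Fact.out : ℓ.Prime).ne_zero
  refine ⟨contract ℓ a, ?_⟩
  rw [← ZMod.expand_card, expand_contract ℓ h hℓ]

/-- **Inseparable rational functions over `𝔽_ℓ` are `ℓ`-th powers.** -/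
theorem exists_pow_eq_of_wronskian_eq_zero (r : RatFunc (ZMod ℓ))
    (h : derivative r.num * r.denom - r.num * derivative r.denom = 0) :
    ∃ s : RatFunc (ZMod ℓ), s ^ ℓ = r := by
  have hℓ : ℓ ≠ 0 := (Fact.out : ℓ.Prime).ne_zero
  obtain ⟨ha, hb⟩ := derivative_eq_zero_of_wronskian (RatFunc.isCoprime_num_denom r)
    r.denom_ne_zero h
  obtain ⟨α, hα⟩ := exists_pow_eq_of_derivative_eq_zero ha
  obtain ⟨β, hβ⟩ := exists_pow_eq_of_derivative_eq_zero hb
  refine ⟨algebraMap _ (RatFunc (ZMod ℓ)) α / algebraMap _ (RatFunc (ZMod ℓ)) β, ?_⟩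
  rw [div_pow, ← map_pow, ← map_pow, hα, hβ, RatFunc.num_div_denom]

end Pow

section BaseChange

variable {k : Type*} [Field k] {K : Type*} [Field K] (i : k →+* K)

/-- The reduced fraction of a rational function, mapped to an extension field: it stays coprime,
the degrees are unchanged and the Wronskian is mapped. -/
theorem map_num_denom (r : RatFunc k) :
    IsCoprime (r.num.map i) (r.denom.map i) ∧ r.denom.map i ≠ 0 ∧
      max (r.num.map i).natDegree (r.denom.map i).natDegree = ht r ∧
      derivative (r.num.map i) * r.denom.map i - r.num.map i * derivative (r.denom.map i) =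
        (derivative r.num * r.denom - r.num * derivative r.denom).map i := by
  refine ⟨?_, ?_, ?_, ?_⟩
  · exact (RatFunc.isCoprime_num_denom r).map (mapRingHom i)
  · exact (Polynomial.map_ne_zero_iff i.injective).mpr r.denom_ne_zero
  · rw [natDegree_map, natDegree_map]; rfl
  · simp only [derivative_map, Polynomial.map_sub, Polynomial.map_mul]

theorem wronskian_map_ne_zero (r : RatFunc k)
    (h : derivative r.num * r.denom - r.num * derivative r.denom ≠ 0) :
    derivative (r.num.map i) * r.denom.map i - r.num.map i * derivative (r.denom.map i) ≠ 0 := by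
  rw [(map_num_denom i r).2.2.2]
  exact (Polynomial.map_ne_zero_iff i.injective).mpr h

end BaseChange

end Fermat.Agent.S58.Sep
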