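/-
S58-PREP row 373 (B)(ii), second seat (helper84): **a point whose `x`-coordinate is an `ℓ`-th
power is in the image of Frobenius.**

`F ⊇ 𝔽_ℓ` any field, `W` a Weierstrass curve over `𝔽_ℓ`.  If `(x, y)` is a (nonsingular) point of
`W` over `F` with `x = s ^ ℓ` (and `y ≠ negY x y` when `ℓ = 2`), then `y` is an `ℓ`-th power as
well, `(s, t)` is a point of `W` and `frobPt (s, t) = (x, y)`.

* `exists_pow_eq_of_quadratic` : in characteristic `ℓ`, a root `y` of `Y² + b₀^ℓ Y = c₀^ℓ` is an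
  `ℓ`-th power (`b₀ ≠ 0` if `ℓ = 2`).
* `frobPt_some` : `frobPt (s, t) = (s ^ ℓ, t ^ ℓ)`.
* `exists_frobPt_eq_some` : the statement above.
-/
import Mathlib
import Fermat.Agent.S58.FTInterfaces

set_option autoImplicit false

namespace Fermat.Agent.S58.FT.SepPt

open WeierstrassCurve
open scoped WeierstrassCurve.Affine

/-- In characteristic `ℓ`, natural numbers are fixed by the `ℓ`-th power map. -/
theorem natCast_pow_char {F : Type*} [Field F] (ℓ : ℕ) [Fact ℓ.Prime] [CharP F ℓ] (n : ℕ) :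
    (n : F) ^ ℓ = n := by
  rw [← frobenius_def, map_natCast]

/-- **A root of a quadratic with `ℓ`-th power coefficients is an `ℓ`-th power** (characteristic
`ℓ`; for `ℓ = 2` the linear coefficient must be nonzero). -/
theorem exists_pow_eq_of_quadratic {F : Type*} [Field F] (ℓ : ℕ) [Fact ℓ.Prime] [CharP F ℓ]
    {y b₀ c₀ : F} (hy : y ^ 2 + b₀ ^ ℓ * y = c₀ ^ ℓ) (h2 : ℓ = 2 → b₀ ≠ 0) :
    ∃ t : F, t ^ ℓ = y := by
  have hℓ : ℓ.Prime := Fact.out
  rcases hℓ.eq_two_or_odd' with h2' | hodd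
  · subst h2'
    have hb := h2 rfl
    refine ⟨(c₀ - y) / b₀, ?_⟩
    rw [div_pow, sub_pow_char, div_eq_iff (pow_ne_zero 2 hb)]
    linear_combination -hy
  · obtain ⟨m, hm⟩ := hodd
    have h2F : (2 : F) ≠ 0 := by
      have : ((2 : ℕ) : F) ≠ 0 := by
        rw [Ne, CharP.cast_eq_zero_iff F ℓ]
        intro hdvd
        have := Nat.le_of_dvd (by norm_num) hdvd
        have := hℓ.one_lt
        omega
      exact_mod_cast this
    have h2pow : (2 : F) ^ ℓ = 2 := by exact_mod_cast natCast_pow_char (F := F) ℓ 2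
    have h4pow : (4 : F) ^ ℓ = 4 := by exact_mod_cast natCast_pow_char (F := F) ℓ 4
    -- `d = y - y'` and its square
    have hd2 : (2 * y + b₀ ^ ℓ) ^ 2 = (4 * c₀ + b₀ ^ 2) ^ ℓ := by
      rw [add_pow_char (4 * c₀) (b₀ ^ 2) ℓ, mul_pow, h4pow, ← pow_mul, mul_comm 2 ℓ, pow_mul]
      linear_combination 4 * hy
    -- `d` is an `ℓ`-th power
    obtain ⟨r, hr⟩ : ∃ r : F, r ^ ℓ = 2 * y + b₀ ^ ℓ := by
      by_cases hd : 2 * y + b₀ ^ ℓ = 0
      · exact ⟨0, by rw [hd, zero_pow hℓ.ne_zero]⟩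
      · refine ⟨(2 * y + b₀ ^ ℓ) / (4 * c₀ + b₀ ^ 2) ^ m, ?_⟩
        rw [div_pow, ← pow_mul, mul_comm m ℓ, pow_mul, ← hd2, ← pow_mul, div_eq_iff (pow_ne_zero _ hd),
          ← pow_succ']
        rw [hm]
    refine ⟨(r - b₀) / 2, ?_⟩
    rw [div_pow, sub_pow_char, hr, h2pow, div_eq_iff h2F]
    ring

section Curve

variable (ℓ : ℕ) [Fact ℓ.Prime] (W : WeierstrassCurve (ZMod ℓ))
  (F : Type*) [Field F] [Algebra (ZMod ℓ) F] [DecidableEq F]

omit [DecidableEq F] in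
/-- The Frobenius endomorphism of `F ⊇ 𝔽_ℓ` is the `ℓ`-th power map. -/
theorem frobeniusAlgHom_apply' (z : F) : FiniteField.frobeniusAlgHom (ZMod ℓ) F z = z ^ ℓ := by
  rw [FiniteField.frobeniusAlgHom_apply, ZMod.card]

/-- `frobPt (s, t) = (s ^ ℓ, t ^ ℓ)`. -/
theorem frobPt_some {s t : F} (h : (W.toAffine⁄F).Nonsingular s t) :
    ∃ h' : (W.toAffine⁄F).Nonsingular (s ^ ℓ) (t ^ ℓ),
      frobPt ℓ W F (Affine.Point.some s t h) = Affine.Point.some (s ^ ℓ) (t ^ ℓ) h' := by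
  have e := Affine.Point.map_some (W' := W.toAffine) (FiniteField.frobeniusAlgHom (ZMod ℓ) F) h
  have hs := frobeniusAlgHom_apply' ℓ F s
  have ht := frobeniusAlgHom_apply' ℓ F t
  have key : ∀ (a b : F) (h1 : (W.toAffine⁄F).Nonsingular a b), a = s ^ ℓ → b = t ^ ℓ →
      ∃ h' : (W.toAffine⁄F).Nonsingular (s ^ ℓ) (t ^ ℓ),
        (Affine.Point.some a b h1 : (W.toAffine⁄F).Point) = Affine.Point.some (s ^ ℓ) (t ^ ℓ) h' := by
    rintro a b h1 rfl rfl
    exact ⟨h1, rfl⟩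
  obtain ⟨h', e'⟩ := key _ _ _ hs ht
  exact ⟨h', e.trans e'⟩

/-- **A point with `x ∈ F^ℓ` is Frobenius of a point** (for `ℓ = 2`: not a `2`-torsion point). -/
theorem exists_frobPt_eq_some {x y : F} (h : (W.toAffine⁄F).Nonsingular x y) (s : F)
    (hs : s ^ ℓ = x) (h2 : ℓ = 2 → y ≠ (W.toAffine⁄F).negY x y) :
    ∃ Q : (W.toAffine⁄F).Point, frobPt ℓ W F Q = Affine.Point.some x y h := by
  have : CharP F ℓ := charP_of_injective_algebraMap (algebraMap (ZMod ℓ) F).injective ℓ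
  -- the coefficients are fixed by Frobenius
  have hfix : ∀ a : ZMod ℓ, (algebraMap (ZMod ℓ) F a) ^ ℓ = algebraMap (ZMod ℓ) F a := by
    intro a
    rw [← map_pow, ZMod.pow_card]
  have heq := (Affine.nonsingular_iff x y).mp h
  obtain ⟨heq, -⟩ := heq
  rw [Affine.equation_iff] at heq
  simp only [WeierstrassCurve.baseChange, WeierstrassCurve.map_a₁, WeierstrassCurve.map_a₂,
    WeierstrassCurve.map_a₃, WeierstrassCurve.map_a₄, WeierstrassCurve.map_a₆] at heq
  -- `y` is an `ℓ`-th power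
  obtain ⟨t, ht⟩ : ∃ t : F, t ^ ℓ = y := by
    refine exists_pow_eq_of_quadratic (F := F) ℓ
      (b₀ := algebraMap (ZMod ℓ) F W.a₁ * s + algebraMap (ZMod ℓ) F W.a₃)
      (c₀ := s ^ 3 + algebraMap (ZMod ℓ) F W.a₂ * s ^ 2 + algebraMap (ZMod ℓ) F W.a₄ * s
        + algebraMap (ZMod ℓ) F W.a₆) ?_ ?_
    · rw [add_pow_char, add_pow_char, add_pow_char, add_pow_char, mul_pow, mul_pow, mul_pow, hfix,
        hfix, hfix, hfix, hfix, ← pow_mul, ← pow_mul, mul_comm 3 ℓ, mul_comm 2 ℓ, pow_mul, pow_mul,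
        hs]
      linear_combination heq
    · intro hℓ2 hb0
      apply h2 hℓ2
      have hb : algebraMap (ZMod ℓ) F W.a₁ * x + algebraMap (ZMod ℓ) F W.a₃ = 0 := by
        have h0 : (algebraMap (ZMod ℓ) F W.a₁ * s + algebraMap (ZMod ℓ) F W.a₃) ^ ℓ = 0 := by
          rw [hb0, zero_pow (Fact.out : ℓ.Prime).ne_zero]
        rw [add_pow_char, mul_pow, hfix, hfix, hs] at h0
        exact h0
      have h2F : (2 : F) = 0 := by
        have : ((ℓ : ℕ) : F) = 0 := CharP.cast_eq_zero F ℓ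
        rw [hℓ2] at this
        exact_mod_cast this
      rw [Affine.negY]
      simp only [WeierstrassCurve.baseChange, WeierstrassCurve.map_a₁, WeierstrassCurve.map_a₃]
      linear_combination y * h2F + hb
  subst hs
  subst ht
  have hinj : Function.Injective (FiniteField.frobeniusAlgHom (ZMod ℓ) F) :=
    (FiniteField.frobeniusAlgHom (ZMod ℓ) F).toRingHom.injective
  have hst : (W.toAffine⁄F).Nonsingular s t := by
    rw [← Affine.baseChange_nonsingular W.toAffine hinj s t, frobeniusAlgHom_apply',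
      frobeniusAlgHom_apply']
    exact h
  obtain ⟨h', e⟩ := frobPt_some ℓ W F hst
  exact ⟨Affine.Point.some s t hst, e⟩

end Curve

end Fermat.Agent.S58.FT.SepPt
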