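/-
S58-PREP, row 372 (FT-SPEC), point-level half (helper94; split with helper42).

Abstract specialisation of points of an elliptic curve.  `F` and `K` are fields over a base field
`k`, `W` is a Weierstrass curve over `k`, and `S : F → K → Prop` is a "place of `F` with values
in `K`" (`IsSpec`: a partial `k`-algebra homomorphism, closed under inverses of elements with
non-zero value).  `PtSpec W S A Q` says that the point `A ∈ E(F)` specialises to `Q ∈ E(K)`.

* pointwise: `ptSpec_neg`, `ptSpec_add` (chord, tangent and vertical cases), `ptSpec_map`;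
* for a family `S R` of places indexed by the points `R ∈ E(K)` such that every non-zero element
  of `F` has a non-zero value outside a finite set (`IsSpecFamily`): the pairs `(A, ψ)` with
  `PtSpec (S R) A (ψ R)` for all `R` outside a finite set form a subgroup `G` of
  `E(F) × (E(K) → E(K))`, stable under a compatible pair of endomorphisms (`map_mem`);
* `exists_finite_spec`: the export for `n₀ P₀ + n₁ φ P₀ + n₂ φ² P₀` (`φ` = Frobenius).
-/
import Mathlib
import Fermat.Agent.S58.FTInterfaces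

set_option autoImplicit false

namespace Fermat.Agent.S58.SpecPt

open WeierstrassCurve
open scoped WeierstrassCurve.Affine

/-- A place of `F` with values in `K`, as a relation: a partially defined `k`-algebra
homomorphism whose domain is closed under inverses of elements with non-zero value. -/
structure IsSpec (k : Type*) [Field k] {F : Type*} [Field F] [Algebra k F] {K : Type*} [Field K]
    [Algebra k K] (S : F → K → Prop) : Prop where
  uniq : ∀ {z : F} {v v' : K}, S z v → S z v' → v = v'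
  const : ∀ c : k, S (algebraMap k F c) (algebraMap k K c)
  add : ∀ {z z' : F} {v v' : K}, S z v → S z' v' → S (z + z') (v + v')
  mul : ∀ {z z' : F} {v v' : K}, S z v → S z' v' → S (z * z') (v * v')
  inv : ∀ {z : F} {v : K}, S z v → v ≠ 0 → S z⁻¹ v⁻¹

section Pointwise

variable {k : Type*} [Field k] {F : Type*} [Field F] [Algebra k F] {K : Type*} [Field K]
  [Algebra k K] {S : F → K → Prop}

namespace IsSpec

theorem one (hS : IsSpec k S) : S 1 1 := by
  simpa using hS.const 1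

theorem zero (hS : IsSpec k S) : S 0 0 := by
  simpa using hS.const 0

theorem neg (hS : IsSpec k S) {z : F} {v : K} (h : S z v) : S (-z) (-v) := by
  have h1 := hS.mul (hS.const (-1)) h
  simpa using h1

theorem sub (hS : IsSpec k S) {z z' : F} {v v' : K} (h : S z v) (h' : S z' v') :
    S (z - z') (v - v') := by
  rw [sub_eq_add_neg, sub_eq_add_neg]
  exact hS.add h (hS.neg h')

theorem div (hS : IsSpec k S) {z z' : F} {v v' : K} (h : S z v) (h' : S z' v') (hv : v' ≠ 0) :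
    S (z / z') (v / v') := by
  rw [div_eq_mul_inv, div_eq_mul_inv]
  exact hS.mul h (hS.inv h' hv)

theorem pow (hS : IsSpec k S) {z : F} {v : K} (h : S z v) (n : ℕ) : S (z ^ n) (v ^ n) := by
  induction n with
  | zero => simpa using hS.one
  | succ n ih =>
    rw [pow_succ, pow_succ]
    exact hS.mul ih h

theorem natCast (hS : IsSpec k S) (n : ℕ) : S (n : F) (n : K) := by
  simpa using hS.const (n : k)

end IsSpec

variable (W : WeierstrassCurve k)

/-- The point `A` over `F` specialises to the point `Q` over `K`. -/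
def PtSpec (S : F → K → Prop) (A : (W.toAffine⁄F).Point) (Q : (W.toAffine⁄K).Point) : Prop :=
  (A = 0 ∧ Q = 0) ∨ ∃ (x y : F) (h : (W.toAffine⁄F).Nonsingular x y) (x' y' : K)
    (h' : (W.toAffine⁄K).Nonsingular x' y'),
    A = Affine.Point.some x y h ∧ Q = Affine.Point.some x' y' h' ∧ S x x' ∧ S y y'

theorem ptSpec_zero (S : F → K → Prop) : PtSpec W S 0 0 := Or.inl ⟨rfl, rfl⟩

theorem ptSpec_some {x y : F} {h : (W.toAffine⁄F).Nonsingular x y} {x' y' : K}
    {h' : (W.toAffine⁄K).Nonsingular x' y'} (hx : S x x') (hy : S y y') :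
    PtSpec W S (Affine.Point.some x y h) (Affine.Point.some x' y' h') :=
  Or.inr ⟨x, y, h, x', y', h', rfl, rfl, hx, hy⟩

theorem negY_spec (hS : IsSpec k S) {x y : F} {x' y' : K} (hx : S x x') (hy : S y y') :
    S ((W.toAffine⁄F).negY x y) ((W.toAffine⁄K).negY x' y') :=
  hS.sub (hS.sub (hS.neg hy) (hS.mul (hS.const W.a₁) hx)) (hS.const W.a₃)

theorem addX_spec (hS : IsSpec k S) {x₁ x₂ L : F} {x₁' x₂' L' : K} (hx₁ : S x₁ x₁')
    (hx₂ : S x₂ x₂') (hL : S L L') :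
    S ((W.toAffine⁄F).addX x₁ x₂ L) ((W.toAffine⁄K).addX x₁' x₂' L') :=
  hS.sub (hS.sub (hS.sub (hS.add (hS.pow hL 2) (hS.mul (hS.const W.a₁) hL)) (hS.const W.a₂)) hx₁)
    hx₂

theorem negAddY_spec (hS : IsSpec k S) {x₁ x₂ y₁ L : F} {x₁' x₂' y₁' L' : K} (hx₁ : S x₁ x₁')
    (hx₂ : S x₂ x₂') (hy₁ : S y₁ y₁') (hL : S L L') :
    S ((W.toAffine⁄F).negAddY x₁ x₂ y₁ L) ((W.toAffine⁄K).negAddY x₁' x₂' y₁' L') :=
  hS.add (hS.mul hL (hS.sub (addX_spec W hS hx₁ hx₂ hL) hx₁)) hy₁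

theorem addY_spec (hS : IsSpec k S) {x₁ x₂ y₁ L : F} {x₁' x₂' y₁' L' : K} (hx₁ : S x₁ x₁')
    (hx₂ : S x₂ x₂') (hy₁ : S y₁ y₁') (hL : S L L') :
    S ((W.toAffine⁄F).addY x₁ x₂ y₁ L) ((W.toAffine⁄K).addY x₁' x₂' y₁' L') :=
  negY_spec W hS (addX_spec W hS hx₁ hx₂ hL) (negAddY_spec W hS hx₁ hx₂ hy₁ hL)

theorem ptSpec_neg (hS : IsSpec k S) {A : (W.toAffine⁄F).Point} {Q : (W.toAffine⁄K).Point}
    (h : PtSpec W S A Q) : PtSpec W S (-A) (-Q) := by
  rcases h with ⟨rfl, rfl⟩ | ⟨x, y, h, x', y', h', rfl, rfl, hx, hy⟩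
  · exact ptSpec_zero W S
  · rw [Affine.Point.neg_some, Affine.Point.neg_some]
    exact ptSpec_some W hx (negY_spec W hS hx hy)

variable [DecidableEq F] [DecidableEq K]

theorem slope_spec_of_X_ne (hS : IsSpec k S) {x₁ x₂ y₁ y₂ : F} {x₁' x₂' y₁' y₂' : K}
    (hx₁ : S x₁ x₁') (hx₂ : S x₂ x₂') (hy₁ : S y₁ y₁') (hy₂ : S y₂ y₂') (hx : x₁ ≠ x₂)
    (hx' : x₁' ≠ x₂') :
    S ((W.toAffine⁄F).slope x₁ x₂ y₁ y₂) ((W.toAffine⁄K).slope x₁' x₂' y₁' y₂') := by
  rw [Affine.slope_of_X_ne hx, Affine.slope_of_X_ne hx']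
  exact hS.div (hS.sub hy₁ hy₂) (hS.sub hx₁ hx₂) (sub_ne_zero.mpr hx')

theorem slope_spec_of_Y_ne (hS : IsSpec k S) {x₁ x₂ y₁ y₂ : F} {x₁' x₂' y₁' y₂' : K}
    (hx₁ : S x₁ x₁') (hy₁ : S y₁ y₁') (hx : x₁ = x₂) (hx' : x₁' = x₂')
    (hy : y₁ ≠ (W.toAffine⁄F).negY x₂ y₂) (hy' : y₁' ≠ (W.toAffine⁄K).negY x₂' y₂')
    (hden : y₁' - (W.toAffine⁄K).negY x₁' y₁' ≠ 0) :
    S ((W.toAffine⁄F).slope x₁ x₂ y₁ y₂) ((W.toAffine⁄K).slope x₁' x₂' y₁' y₂') := by
  rw [Affine.slope_of_Y_ne hx hy, Affine.slope_of_Y_ne hx' hy']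
  have h3 : S (3 : F) (3 : K) := by simpa using hS.natCast 3
  have h2 : S (2 : F) (2 : K) := by simpa using hS.natCast 2
  exact hS.div (hS.sub (hS.add (hS.add (hS.mul h3 (hS.pow hx₁ 2))
    (hS.mul (hS.mul h2 (hS.const W.a₂)) hx₁)) (hS.const W.a₄)) (hS.mul (hS.const W.a₁) hy₁))
    (hS.sub hy₁ (negY_spec W hS hx₁ hy₁)) hden

/-- The element of `F` whose non-vanishing at the place is needed to specialise `A + B`. -/
noncomputable def nd : (W.toAffine⁄F).Point → (W.toAffine⁄F).Point → F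
  | Affine.Point.some x₁ y₁ _, Affine.Point.some x₂ y₂ _ =>
    if x₁ = x₂ then (if y₁ = (W.toAffine⁄F).negY x₂ y₂ then 1 else y₁ - (W.toAffine⁄F).negY x₂ y₂)
    else x₁ - x₂
  | _, _ => 1

theorem nd_ne_zero (A B : (W.toAffine⁄F).Point) : nd W A B ≠ 0 := by
  rcases A with _ | ⟨x₁, y₁, h₁⟩
  · exact one_ne_zero
  rcases B with _ | ⟨x₂, y₂, h₂⟩
  · exact one_ne_zero
  · simp only [nd]
    split_ifs with hx hy
    · exact one_ne_zero
    · exact sub_ne_zero.mpr hy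
    · exact sub_ne_zero.mpr hx

/-- Specialisation is compatible with addition, as soon as `nd A B` has a non-zero value. -/
theorem ptSpec_add (hS : IsSpec k S) {A B : (W.toAffine⁄F).Point} {Q Q' : (W.toAffine⁄K).Point}
    (hA : PtSpec W S A Q) (hB : PtSpec W S B Q') (hnd : ∃ v, v ≠ 0 ∧ S (nd W A B) v) :
    PtSpec W S (A + B) (Q + Q') := by
  rcases hA with ⟨rfl, rfl⟩ | ⟨x₁, y₁, h₁, x₁', y₁', h₁', rfl, rfl, hx₁, hy₁⟩
  · rw [zero_add, zero_add]
    exact hB
  rcases hB with ⟨rfl, rfl⟩ | ⟨x₂, y₂, h₂, x₂', y₂', h₂', rfl, rfl, hx₂, hy₂⟩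
  · rw [add_zero, add_zero]
    exact ptSpec_some W hx₁ hy₁
  obtain ⟨v, hv0, hv⟩ := hnd
  by_cases hx : x₁ = x₂
  · have hx' : x₁' = x₂' := hS.uniq hx₁ (hx ▸ hx₂)
    by_cases hy : y₁ = (W.toAffine⁄F).negY x₂ y₂
    · have hy' : y₁' = (W.toAffine⁄K).negY x₂' y₂' :=
        hS.uniq hy₁ (hy ▸ negY_spec W hS hx₂ hy₂)
      rw [Affine.Point.add_of_Y_eq hx hy, Affine.Point.add_of_Y_eq hx' hy']
      exact ptSpec_zero W S
    · have hyy : y₁ = y₂ := Affine.Y_eq_of_Y_ne h₁.1 h₂.1 hx hy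
      have hyy' : y₁' = y₂' := hS.uniq hy₁ (hyy ▸ hy₂)
      have hnd' : nd W (Affine.Point.some x₁ y₁ h₁) (Affine.Point.some x₂ y₂ h₂) =
          y₁ - (W.toAffine⁄F).negY x₂ y₂ := by
        simp only [nd, if_pos hx, if_neg hy]
      rw [hnd'] at hv
      have hv' : v = y₁' - (W.toAffine⁄K).negY x₂' y₂' :=
        hS.uniq hv (hS.sub hy₁ (negY_spec W hS hx₂ hy₂))
      have hy' : y₁' ≠ (W.toAffine⁄K).negY x₂' y₂' := fun h => hv0 (by rw [hv', h, sub_self])
      have hden : y₁' - (W.toAffine⁄K).negY x₁' y₁' ≠ 0 := by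
        rw [hx', hyy']
        rw [hyy'] at hy'
        exact sub_ne_zero.mpr hy'
      have hL := slope_spec_of_Y_ne W hS (y₂ := y₂) (y₂' := y₂') hx₁ hy₁ hx hx' hy hy' hden
      rw [Affine.Point.add_of_Y_ne hy, Affine.Point.add_of_Y_ne hy']
      exact ptSpec_some W (addX_spec W hS hx₁ hx₂ hL) (addY_spec W hS hx₁ hx₂ hy₁ hL)
  · have hnd' : nd W (Affine.Point.some x₁ y₁ h₁) (Affine.Point.some x₂ y₂ h₂) = x₁ - x₂ := by
      simp only [nd, if_neg hx]
    rw [hnd'] at hv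
    have hv' : v = x₁' - x₂' := hS.uniq hv (hS.sub hx₁ hx₂)
    have hx' : x₁' ≠ x₂' := fun h => hv0 (by rw [hv', h, sub_self])
    have hL := slope_spec_of_X_ne W hS hx₁ hx₂ hy₁ hy₂ hx hx'
    rw [Affine.Point.add_of_X_ne hx, Affine.Point.add_of_X_ne hx']
    exact ptSpec_some W (addX_spec W hS hx₁ hx₂ hL) (addY_spec W hS hx₁ hx₂ hy₁ hL)

/-- Specialisation is compatible with a pair of endomorphisms compatible with the place. -/
theorem ptSpec_map (f : F →ₐ[k] F) (g : K →ₐ[k] K) (hfg : ∀ z v, S z v → S (f z) (g v))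
    {A : (W.toAffine⁄F).Point} {Q : (W.toAffine⁄K).Point} (h : PtSpec W S A Q) :
    PtSpec W S (Affine.Point.map (W' := W.toAffine) f A)
      (Affine.Point.map (W' := W.toAffine) g Q) := by
  rcases h with ⟨rfl, rfl⟩ | ⟨x, y, h, x', y', h', rfl, rfl, hx, hy⟩
  · exact ptSpec_zero W S
  · rw [Affine.Point.map_some, Affine.Point.map_some]
    exact ptSpec_some W (hfg _ _ hx) (hfg _ _ hy)

end Pointwise

section Family

variable {k : Type*} [Field k] {F : Type*} [Field F] [Algebra k F] {K : Type*} [Field K]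
  [Algebra k K] [DecidableEq F] [DecidableEq K] (W : WeierstrassCurve k)

/-- A family of places of `F` indexed by the points of `E(K)` (the value at `R = 0` is
irrelevant), such that every non-zero element of `F` has a non-zero value at almost all `R`. -/
structure IsSpecFamily (S : (W.toAffine⁄K).Point → F → K → Prop) : Prop where
  isSpec : ∀ R, R ≠ 0 → IsSpec k (S R)
  fin : ∀ z : F, z ≠ 0 → {R | ¬ ∃ v, v ≠ 0 ∧ S R z v}.Finite

variable {W} {S : (W.toAffine⁄K).Point → F → K → Prop}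

/-- The subgroup of pairs `(A, ψ)` such that `A` specialises to `ψ R` at almost all `R`. -/
def G (hS : IsSpecFamily W S) :
    AddSubgroup ((W.toAffine⁄F).Point × ((W.toAffine⁄K).Point → (W.toAffine⁄K).Point)) where
  carrier := {p | ∃ B : Set (W.toAffine⁄K).Point, B.Finite ∧
    ∀ R, R ∉ B → PtSpec W (S R) p.1 (p.2 R)}
  zero_mem' := ⟨∅, Set.finite_empty, fun R _ => ptSpec_zero W (S R)⟩
  add_mem' := by
    rintro ⟨A, ψ⟩ ⟨A', ψ'⟩ ⟨B, hB, h⟩ ⟨B', hB', h'⟩
    refine ⟨B ∪ B' ∪ {0} ∪ {R | ¬ ∃ v, v ≠ 0 ∧ S R (nd W A A') v},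
      ((hB.union hB').union (Set.finite_singleton 0)).union (hS.fin _ (nd_ne_zero W A A')), ?_⟩
    intro R hR
    simp only [Set.mem_union, Set.mem_singleton_iff, Set.mem_ofPred_eq, not_or, not_not] at hR
    obtain ⟨⟨⟨hR1, hR2⟩, hR0⟩, hR3⟩ := hR
    exact ptSpec_add W (hS.isSpec R hR0) (h R hR1) (h' R hR2) hR3
  neg_mem' := by
    rintro ⟨A, ψ⟩ ⟨B, hB, h⟩
    refine ⟨B ∪ {0}, hB.union (Set.finite_singleton 0), ?_⟩
    intro R hR
    simp only [Set.mem_union, Set.mem_singleton_iff, not_or] at hR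
    exact ptSpec_neg W (hS.isSpec R hR.2) (h R hR.1)

theorem mem_G (hS : IsSpecFamily W S) {A : (W.toAffine⁄F).Point}
    {ψ : (W.toAffine⁄K).Point → (W.toAffine⁄K).Point} :
    (A, ψ) ∈ G hS ↔ ∃ B : Set (W.toAffine⁄K).Point, B.Finite ∧
      ∀ R, R ∉ B → PtSpec W (S R) A (ψ R) :=
  Iff.rfl

/-- `G` is stable under a pair of endomorphisms compatible with the places. -/
theorem map_mem (hS : IsSpecFamily W S) (f : F →ₐ[k] F) (g : K →ₐ[k] K)
    (hfg : ∀ R, R ≠ 0 → ∀ z v, S R z v → S R (f z) (g v)) {A : (W.toAffine⁄F).Point}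
    {ψ : (W.toAffine⁄K).Point → (W.toAffine⁄K).Point} (h : (A, ψ) ∈ G hS) :
    (Affine.Point.map (W' := W.toAffine) f A,
      fun R => Affine.Point.map (W' := W.toAffine) g (ψ R)) ∈ G hS := by
  obtain ⟨B, hB, h⟩ := h
  refine ⟨B ∪ {0}, hB.union (Set.finite_singleton 0), ?_⟩
  intro R hR
  simp only [Set.mem_union, Set.mem_singleton_iff, not_or] at hR
  exact ptSpec_map W f g (hfg R hR.2) (h R hR.1)

/-- A point which specialises to `R` at every `R ≠ 0` (the generic point) gives `(P₀, id) ∈ G`. -/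
theorem gen_mem (hS : IsSpecFamily W S) {P₀ : (W.toAffine⁄F).Point}
    (hgen : ∀ R, R ≠ 0 → PtSpec W (S R) P₀ R) : (P₀, fun R => R) ∈ G hS :=
  ⟨{0}, Set.finite_singleton 0, fun R hR => hgen R hR⟩

end Family

section Frobenius

variable {ℓ : ℕ} [Fact ℓ.Prime] {W : WeierstrassCurve (ZMod ℓ)}
  {F : Type*} [Field F] [Algebra (ZMod ℓ) F] [DecidableEq F]
  {K : Type*} [Field K] [Algebra (ZMod ℓ) K] [DecidableEq K]
  {S : (W.toAffine⁄K).Point → F → K → Prop}

/-- `G` is stable under Frobenius. -/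
theorem frob_mem (hS : IsSpecFamily W S) {A : (W.toAffine⁄F).Point}
    {ψ : (W.toAffine⁄K).Point → (W.toAffine⁄K).Point} (h : (A, ψ) ∈ G hS) :
    (frobPt ℓ W F A, fun R => frobPt ℓ W K (ψ R)) ∈ G hS := by
  refine map_mem hS (FiniteField.frobeniusAlgHom (ZMod ℓ) F)
    (FiniteField.frobeniusAlgHom (ZMod ℓ) K) ?_ h
  intro R hR z v hzv
  rw [FiniteField.coe_frobeniusAlgHom, FiniteField.coe_frobeniusAlgHom]
  exact (hS.isSpec R hR).pow hzv _

/-- **Export of (FT-SPEC)**: for a generic point `P₀` and integers `n₀ n₁ n₂`, the point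
`n₀ P₀ + n₁ φ P₀ + n₂ φ² P₀` over `F` specialises at almost all `R ∈ E(K)` to
`n₀ R + n₁ φ R + n₂ φ² R`. -/
theorem exists_finite_spec (hS : IsSpecFamily W S) {P₀ : (W.toAffine⁄F).Point}
    (hgen : ∀ R, R ≠ 0 → PtSpec W (S R) P₀ R) (n₀ n₁ n₂ : ℤ) :
    ∃ B : Set (W.toAffine⁄K).Point, B.Finite ∧ ∀ R, R ∉ B →
      PtSpec W (S R) (n₀ • P₀ + n₁ • frobPt ℓ W F P₀ + n₂ • frobPt ℓ W F (frobPt ℓ W F P₀))
        (n₀ • R + n₁ • frobPt ℓ W K R + n₂ • frobPt ℓ W K (frobPt ℓ W K R)) := by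
  have h0 := gen_mem hS hgen
  have h1 := frob_mem hS h0
  have h2 := frob_mem hS h1
  exact (G hS).add_mem ((G hS).add_mem ((G hS).zsmul_mem h0 n₀) ((G hS).zsmul_mem h1 n₁))
    ((G hS).zsmul_mem h2 n₂)

end Frobenius

end Fermat.Agent.S58.SpecPt
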